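import Fermat.Agent.Density.Places
import Fermat.Agent.Deform.Frobenius

/-!
# Places above a prime, Frobenius elements and roots of unity
-/

set_option autoImplicit false

noncomputable section

open FA.Deform
open scoped Pointwise

namespace FA.TW

local notation "Qb" => AlgebraicClosure ℚ
local notation "GQ" => AlgebraicClosure ℚ ≃ₐ[ℚ] AlgebraicClosure ℚ

/-- A root of unity of `p`-power order congruent to one at a place over `q ≠ p` is one. -/
theorem eq_one_of_sub_one_nonunit {p q m : ℕ} (hp : p.Prime) (hq : q.Prime) (hqp : q ≠ p)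
    {A : ValuationSubring Qb} (hA : A.LiesOverPrime q) {μ : Qb} (hμ : μ ^ p ^ m = 1)
    (h1 : A.valuation (μ - 1) < 1) : μ = 1 := by
  have hle : ∀ {x : Qb} {N : ℕ}, N ≠ 0 → x ^ N = 1 → A.valuation x ≤ 1 := fun {x N} hN hx => by
    by_contra hc
    have := one_lt_pow₀ (not_le.mp hc) hN
    rw [← map_pow, hx, map_one] at this
    exact lt_irrefl _ this
  induction m with
  | zero => simpa using hμ
  | succ m ih =>
    by_contra hne
    have hνp : (μ ^ p ^ m) ^ p = 1 := by rw [← pow_mul, ← pow_succ, hμ]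
    have hν1 : μ ^ p ^ m ≠ 1 := fun h => hne (ih h)
    have hle' : A.valuation μ ≤ 1 := hle (pow_ne_zero _ hp.ne_zero) hμ
    have hpow : ∀ i : ℕ, A.valuation (μ ^ i - 1) < 1 := fun i => by
      rw [← geom_sum_mul μ i, map_mul]
      refine lt_of_le_of_lt (mul_le_of_le_one_left' (A.valuation.map_sum_le fun j _ => ?_)) h1
      rw [map_pow]
      exact pow_le_one₀ zero_le hle'
    have hsum : ∑ i ∈ Finset.range p, (μ ^ p ^ m) ^ i = 0 := by
      rw [geom_sum_eq hν1, hνp, sub_self, zero_div]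
    have hs : A.valuation (∑ i ∈ Finset.range p, ((μ ^ p ^ m) ^ i - 1)) < 1 :=
      A.valuation.map_sum_lt one_ne_zero fun i _ => by rw [← pow_mul]; exact hpow _
    rw [Finset.sum_sub_distrib, hsum, Finset.sum_const, Finset.card_range, nsmul_one, zero_sub,
      A.valuation.map_neg] at hs
    -- `p` would be a nonunit at a place above `q`
    have hpA : (p : ZBar) ∈ primeAt A := by
      rw [mem_primeAt, A.mem_nonunits_iff]
      push_cast
      exact hs
    have hdvd := (intCast_mem_primeAt_iff hq hA (p : ℤ)).mp (by exact_mod_cast hpA)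
    exact hqp ((Nat.prime_dvd_prime_iff_eq hq hp).mp (Int.natCast_dvd_natCast.mp hdvd))

/-- A Frobenius element at `q ≠ p` acts on roots of unity of `p`-power order by the `q`-th power. -/
theorem frobenius_apply_rootOfUnity {p q m : ℕ} (hp : p.Prime) (hq : q.Prime) (hqp : q ≠ p)
    {A : ValuationSubring Qb} (hA : A.LiesOverPrime q) {σ : GQ} (hσ : A.IsFrobeniusAt σ q)
    {ζ : Qb} (hζ : ζ ^ p ^ m = 1) : σ ζ = ζ ^ q := by
  have hpm : p ^ m ≠ 0 := pow_ne_zero _ hp.ne_zero
  have hζ0 : ζ ≠ 0 := fun h => by simp [h, zero_pow hpm] at hζ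
  have hv : A.valuation ζ = 1 := by
    have : A.valuation ζ ^ p ^ m = 1 := by rw [← map_pow, hζ, map_one]
    exact (pow_eq_one_iff.mp this).resolve_right hpm
  have hmem : ζ ∈ A := (A.valuation_le_one_iff ζ).mp hv.le
  have h := FA.Density.sub_pow_mem_nonunits hσ hmem
  rw [A.mem_nonunits_iff] at h
  rw [← div_eq_one_iff_eq (pow_ne_zero q hζ0)]
  refine eq_one_of_sub_one_nonunit (m := m) hp hq hqp hA ?_ ?_
  · rw [div_pow, ← map_pow, hζ, map_one, ← pow_mul, mul_comm, pow_mul, hζ, one_pow, div_one]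
  · rw [div_sub_one (pow_ne_zero _ hζ0), map_div₀, map_pow, hv, one_pow, div_one]
    exact h

/-- If a Frobenius element at `q ≠ p` fixes the `p ^ m`-th roots of unity then `p ^ m ∣ q - 1`. -/
theorem dvd_sub_one_of_fixes {p q m : ℕ} (hp : p.Prime) (hq : q.Prime) (hqp : q ≠ p)
    {A : ValuationSubring Qb} (hA : A.LiesOverPrime q) {σ : GQ} (hσ : A.IsFrobeniusAt σ q)
    (h : ∀ μ : Qb, μ ^ p ^ m = 1 → σ μ = μ) : p ^ m ∣ q - 1 := by
  have : NeZero ((p ^ m : ℕ) : Qb) := ⟨by exact_mod_cast pow_ne_zero _ hp.ne_zero⟩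
  obtain ⟨ζ, hζ⟩ := HasEnoughRootsOfUnity.exists_primitiveRoot Qb (p ^ m)
  have h1 := frobenius_apply_rootOfUnity hp hq hqp hA hσ hζ.pow_eq_one
  rw [h ζ hζ.pow_eq_one] at h1
  have hζ0 : ζ ≠ 0 := hζ.ne_zero (pow_ne_zero _ hp.ne_zero)
  refine hζ.dvd_of_pow_eq_one _ ?_
  apply mul_left_cancel₀ hζ0
  rw [← pow_succ', Nat.sub_add_cancel hq.one_le, mul_one]
  exact h1.symm

/-- An automorphism preserving the prime of a place preserves the place. -/
theorem apply_mem_of_primeAt {A B : ValuationSubring Qb} {q : ℕ} (hq : q.Prime)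
    (hA : A.LiesOverPrime q) (τ : GQ) (hτ : ∀ b : ZBar, τ • b ∈ primeAt B ↔ b ∈ primeAt A)
    {x : Qb} (hx : x ∈ A) : τ x ∈ B := by
  obtain ⟨b, s, hs, hsx⟩ := exists_fraction hq hA hx
  have hs' : ((τ • s : ZBar) : Qb) ∉ B.nonunits := fun h => hs ((hτ s).mp (mem_primeAt.mpr h))
  rw [ValuationSubring.mem_nonunits_iff_or, not_or, not_not] at hs'
  have : τ x = ((τ • s : ZBar) : Qb)⁻¹ * ((τ • b : ZBar) : Qb) := by
    have : τ (s : Qb) * τ x = τ (b : Qb) := by rw [← map_mul, hsx]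
    rw [integralClosure.coe_smul, integralClosure.coe_smul, AlgEquiv.smul_def, AlgEquiv.smul_def,
      ← this, inv_mul_cancel_left₀ (by exact hs'.1)]
  rw [this]
  exact B.mul_mem _ _ hs'.2 (zbar_mem_valuationSubring B _)

/-- The Galois group acts transitively on the places above a prime. -/
theorem exists_smul_eq_of_liesOver {A B : ValuationSubring Qb} {q : ℕ} (hq : q.Prime)
    (hA : A.LiesOverPrime q) (hB : B.LiesOverPrime q) : ∃ τ : GQ, τ • A = B := by
  have : Algebra.IsAlgebraic ℚ Qb := AlgebraicClosure.isAlgebraic ℚ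
  have : IsAlgClosure ℚ Qb := ⟨inferInstance, inferInstance⟩
  have : Normal ℚ Qb := IsAlgClosure.normal ℚ Qb
  have : IsGalois ℚ Qb := ⟨⟩
  let : TopologicalSpace ZBar := ⊥
  have : DiscreteTopology ZBar := ⟨rfl⟩
  have : ContinuousSMul GQ ZBar := by
    rw [continuousSMul_iff_stabilizer_isOpen]
    intro x
    have h := stabilizer_isOpen_of_isIntegral (K := ℚ) (x : Qb)
    convert h using 2
    ext g
    simp only [MulAction.mem_stabilizer_iff, Subtype.ext_iff, integralClosure.coe_smul]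
  have : Algebra.IsInvariant ℤ ZBar GQ := by
    constructor
    intro b hb
    obtain ⟨r, hr⟩ := (InfiniteGalois.mem_range_algebraMap_iff_fixed (b : Qb)).mpr
      fun g => congrArg Subtype.val (hb g)
    have hint : IsIntegral ℤ r := by
      rw [← isIntegral_algebraMap_iff (B := Qb) (algebraMap ℚ _).injective, hr]
      exact b.2
    obtain ⟨n, hn⟩ := IsIntegrallyClosed.isIntegral_iff.mp hint
    refine ⟨n, Subtype.ext ?_⟩
    rw [← hr, ← hn]
    simp
  obtain ⟨τ, hτ⟩ := Algebra.IsInvariant.exists_smul_of_under_eq_of_profinite (A := ℤ) (G := GQ)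
    (primeAt A) (primeAt B) (Ideal.ext fun n => by
      simpa [Ideal.under_def] using
        (intCast_mem_primeAt_iff hq hA n).trans (intCast_mem_primeAt_iff hq hB n).symm)
  have h1 : ∀ b : ZBar, τ • b ∈ primeAt B ↔ b ∈ primeAt A := fun b => by
    rw [hτ]
    exact Ideal.smul_mem_pointwise_smul_iff
  have h2 : ∀ b : ZBar, τ⁻¹ • b ∈ primeAt A ↔ b ∈ primeAt B := fun b => by
    rw [← h1, smul_inv_smul]
  refine ⟨τ, ?_⟩
  ext x
  rw [ValuationSubring.mem_pointwise_smul_iff_inv_smul_mem, AlgEquiv.smul_def]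
  refine ⟨fun hx => ?_, fun hx => apply_mem_of_primeAt hq hB τ⁻¹ h2 hx⟩
  have := apply_mem_of_primeAt hq hA τ h1 hx
  rwa [AlgEquiv.aut_inv, AlgEquiv.apply_symm_apply] at this

/-- Two Frobenius elements at a place differ by an element of inertia. -/
theorem inv_mul_mem_inertia {A : ValuationSubring Qb} {σ σ' : GQ} {q : ℕ} (hq : q.Prime)
    (hA : A.LiesOverPrime q) (hσ : A.IsFrobeniusAt σ q) (hσ' : A.IsFrobeniusAt σ' q) :
    σ'⁻¹ * σ ∈ A.inertiaSubgroupIn ℚ := by
  refine Local.mem_inertiaSubgroupIn_of_forall hq hA fun b => ?_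
  have hfix : ∀ y : ZBar, σ' • y ∈ primeAt A → y ∈ primeAt A := fun y hy => by
    rw [mem_primeAt] at hy ⊢
    rw [integralClosure.coe_smul, AlgEquiv.smul_def] at hy
    have h' := FA.Density.mem_nonunits_smul_iff (A := A) σ' (y := σ' (y : Qb))
    rw [MulAction.mem_stabilizer_iff.mp hσ'.mem_decompositionSubgroup] at h'
    have := h'.mp hy
    rwa [AlgEquiv.aut_inv, AlgEquiv.symm_apply_apply] at this
  apply hfix
  rw [smul_sub, ← mul_smul, mul_inv_cancel_left]
  have h1 : σ • b - b ^ q ∈ primeAt A := by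
    rw [mem_primeAt]
    push_cast
    rw [integralClosure.coe_smul, AlgEquiv.smul_def]
    exact FA.Density.sub_pow_mem_nonunits hσ (zbar_mem_valuationSubring A b)
  have h2 : σ' • b - b ^ q ∈ primeAt A := by
    rw [mem_primeAt]
    push_cast
    rw [integralClosure.coe_smul, AlgEquiv.smul_def]
    exact FA.Density.sub_pow_mem_nonunits hσ' (zbar_mem_valuationSubring A b)
  simpa using (primeAt A).sub_mem h1 h2

/-- A homomorphism trivial on inertia above `q` takes conjugate values at all Frobenius elements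
above `q`. -/
theorem exists_conj_frobenius {M : Type*} [Monoid M] (f : GQ →* M) {q : ℕ} (hq : q.Prime)
    (hunr : ∀ A : ValuationSubring Qb, A.LiesOverPrime q →
      ∀ σ ∈ A.inertiaSubgroupIn ℚ, f σ = 1)
    {A B : ValuationSubring Qb} (hA : A.LiesOverPrime q) (hB : B.LiesOverPrime q) {φ ψ : GQ}
    (hφ : A.IsFrobeniusAt φ q) (hψ : B.IsFrobeniusAt ψ q) :
    ∃ τ : GQ, f ψ = f τ * f φ * f τ⁻¹ := by
  obtain ⟨τ, rfl⟩ := exists_smul_eq_of_liesOver hq hA hB
  refine ⟨τ, ?_⟩
  have hmem := inv_mul_mem_inertia hq hB hψ (FA.Density.isFrobeniusAt_smul hφ τ)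
  have h1 := hunr _ hB _ hmem
  calc f ψ = f (τ * φ * τ⁻¹) * f ((τ * φ * τ⁻¹)⁻¹ * ψ) := by rw [← map_mul, mul_inv_cancel_left]
    _ = f (τ * φ * τ⁻¹) := by rw [h1, mul_one]
    _ = _ := by rw [map_mul, map_mul]

end FA.TW
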