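import Fermat.Agent.LocalDef.Unr
import Fermat.Agent.Density.Places

/-!
# Finite `p`-group images of inertia at `q ≠ p` are cyclic
-/

set_option autoImplicit false

noncomputable section

open FA.Local FA.LocalDef
open scoped Pointwise

namespace FA.TW

local notation "Qb" => AlgebraicClosure ℚ
local notation "GQ" => AlgebraicClosure ℚ ≃ₐ[ℚ] AlgebraicClosure ℚ

variable {q : ℕ} {A : ValuationSubring Qb}

section Layer

variable (hq : q.Prime) (hA : A.LiesOverPrime q) {N : Subgroup GQ}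
  (E : IntermediateField ℚ Qb) [FiniteDimensional ℚ E] [IsGalois ℚ E]
  (hN : N ≤ A.inertiaSubgroupIn ℚ) (hE : A.inertiaSubgroupIn ℚ ⊓ E.fixingSubgroup ≤ N)
  {θ : Qb} (hθN : ∀ σ ∈ N, σ θ = θ)
  (hθ : A.valuation θ ^ N.relIndex (A.inertiaSubgroupIn ℚ) = A.valuation (q : Qb))
  (he : N.relIndex (A.inertiaSubgroupIn ℚ) ≠ 0)

include hq hA hθ in
theorem theta_pos : 0 < A.valuation θ := by
  refine zero_le.lt_of_ne fun h => (valuation_p_pos (A := A) hq).ne' ?_
  by_cases he : N.relIndex (A.inertiaSubgroupIn ℚ) = 0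
  · rw [he, pow_zero] at hθ
    exact absurd hθ.symm (A.mem_nonunits_iff.mp hA).ne
  · rw [← hθ, ← h, zero_pow he]

include hA hθ in
theorem theta_lt_one : A.valuation θ < 1 := by
  by_contra h
  have := one_le_pow₀ (not_lt.mp h) (n := N.relIndex (A.inertiaSubgroupIn ℚ))
  rw [hθ] at this
  exact absurd (A.mem_nonunits_iff.mp hA) (not_lt.mpr this)

include hq hA hθ he in
/-- Elements fixed by the layer group take their values in the powers of the uniformizer. -/
theorem exists_zpow_of_fixed {x : Qb} (hx : ∀ σ ∈ N, σ x = x) (hx0 : x ≠ 0) :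
    ∃ k : ℤ, A.valuation x = A.valuation θ ^ k := by
  classical
  set I := A.inertiaSubgroupIn ℚ
  have hfin : (N.subgroupOf I).FiniteIndex := ⟨he⟩
  let f : I ⧸ N.subgroupOf I → Qb := Quotient.lift (fun σ : I => (σ : GQ) x) fun a b hab => by
    have h : ((a⁻¹ * b : I) : GQ) ∈ N := Subgroup.mem_subgroupOf.mp (QuotientGroup.leftRel_apply.mp hab)
    show (a : GQ) x = (b : GQ) x
    have e : (b : GQ) x = (a : GQ) (((a⁻¹ * b : I) : GQ) x) := by
      simp [AlgEquiv.mul_apply, AlgEquiv.aut_inv]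
    rw [e, hx _ h]
  have : Fintype (I ⧸ N.subgroupOf I) := Fintype.ofFinite _
  have hmem : (∏ c, f c) ∈ kur A := by
    rw [mem_kur]
    intro σ hσ
    rw [map_prod]
    refine Fintype.prod_equiv (MulAction.toPerm (⟨σ, hσ⟩ : I)) _ _ fun c => ?_
    obtain ⟨a, rfl⟩ := QuotientGroup.mk_surjective c
    rfl
  have hval : ∀ c, A.valuation (f c) = A.valuation x := fun c => by
    obtain ⟨a, rfl⟩ := QuotientGroup.mk_surjective c
    exact (inert_of_mem_inertiaSubgroupIn A a.2).map_eq x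
  have hprod : A.valuation (∏ c, f c) = A.valuation x ^ N.relIndex I := by
    rw [map_prod, Finset.prod_congr rfl (fun c _ => hval c), Finset.prod_const, Finset.card_univ,
      ← Nat.card_eq_fintype_card]
    rfl
  have hne : (∏ c, f c) ≠ 0 := Finset.prod_ne_zero_iff.mpr fun c _ h => by
    have := hval c
    rw [h, map_zero] at this
    exact A.valuation.ne_zero_iff.mpr hx0 this.symm
  obtain ⟨k, hk⟩ := exists_zpow_of_mem_kur hq hA hmem hne
  refine ⟨k, (pow_left_inj₀ zero_le zero_le he).mp ?_⟩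
  rw [← hprod, hk, ← hθ, ← zpow_natCast, ← zpow_natCast, ← zpow_mul, ← zpow_mul, mul_comm]

include hq hA hE hθ he in
/-- An inertia element acting trivially modulo the square of the uniformizer, whose `p`-th power
lies in the layer group, lies in it. -/
theorem mem_of_pow_mem {p : ℕ} (hp : p.Prime) (hpq : p ≠ q) {σ : GQ}
    (hσ : σ ∈ A.inertiaSubgroupIn ℚ) (hσp : σ ^ p ∈ N)
    (hnorm : ∀ τ ∈ N, σ⁻¹ * τ * σ ∈ N)
    (hσθ : A.valuation (σ θ - θ) < A.valuation θ) (hN : N ≤ A.inertiaSubgroupIn ℚ) : σ ∈ N := by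
  set I := A.inertiaSubgroupIn ℚ
  set v := A.valuation
  have hinert := inert_of_mem_inertiaSubgroupIn A hσ
  have hpos := theta_pos hq hA hθ
  have h1 := theta_lt_one hA hθ
  have hθ0 : θ ≠ 0 := A.valuation.pos_iff.mp hpos
  -- stability
  have hstab : ∀ x, (∀ τ ∈ N, τ x = x) → ∀ τ ∈ N, τ (σ x) = σ x := fun x hx τ hτ => by
    have e : τ (σ x) = σ ((σ⁻¹ * τ * σ) x) := by simp [AlgEquiv.mul_apply, AlgEquiv.aut_inv]
    rw [e, hx _ (hnorm τ hτ)]
  have hdiscr : ∀ x, (∀ τ ∈ N, τ x = x) → ∀ k : ℕ, v x < v θ ^ k → v x ≤ v θ ^ (k + 1) := by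
    intro x hx k hlt
    by_cases hx0 : x = 0
    · simp [hx0]
    obtain ⟨m, hm⟩ := exists_zpow_of_fixed hq hA hθ he hx hx0
    rw [hm, ← zpow_natCast] at hlt
    rw [hm, ← zpow_natCast]
    have hkm : (k : ℤ) < m := by
      by_contra hc
      exact absurd hlt (not_lt.mpr (zpow_le_zpow_right_of_le_one₀ hpos h1.le (not_lt.mp hc)))
    exact zpow_le_zpow_right_of_le_one₀ hpos h1.le (by push_cast; omega)
  -- triviality modulo every power
  have key : ∀ k : ℕ, 1 ≤ k → ∀ x, (∀ τ ∈ N, τ x = x) → v x ≤ 1 → v (σ x - x) ≤ v θ ^ k := by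
    intro k hk
    induction k, hk using Nat.le_induction with
    | base =>
      intro x hx hx1
      refine hdiscr _
        (fun τ hτ => by rw [map_sub, hstab x hx τ hτ, hx τ hτ]) 0 ?_
      rw [pow_zero]
      exact hinert.sub_lt x hx1
    | succ k hk ih =>
      intro x hx hx1
      -- `σ` is trivial on the k-th graded piece
      have hgr : ∀ y, (∀ τ ∈ N, τ y = y) → v y ≤ v θ ^ k → v (σ y - y) ≤ v θ ^ (k + 1) := by
        intro y hy hyk
        refine hdiscr _
          (fun τ hτ => by rw [map_sub, hstab y hy τ hτ, hy τ hτ]) k ?_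
        set u := y / θ ^ k
        have hu : v u ≤ 1 := by
          rw [map_div₀, map_pow, div_le_one₀ (pow_pos hpos k)]
          exact hyk
        have hratio : v (σ θ / θ - 1) < 1 := by
          rw [div_sub_one hθ0, map_div₀, div_lt_one₀ hpos]
          exact hσθ
        have hr1 : v (σ θ / θ) = 1 := by
          rw [map_div₀, hinert.map_eq, div_self hpos.ne']
        have hpow : v ((σ θ / θ) ^ k - 1) < 1 := by
          rw [← geom_sum_mul, map_mul]
          refine lt_of_le_of_lt (mul_le_of_le_one_left' (v.map_sum_le fun i _ => ?_)) hratio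
          rw [map_pow, hr1, one_pow]
        have e : σ y - y = θ ^ k * (((σ θ / θ) ^ k - 1) * σ u + (σ u - u)) := by
          simp only [u, map_div₀, map_pow, div_pow]
          have hσθ0 : σ θ ≠ 0 := by simpa using hθ0
          field_simp
          ring
        rw [e, map_mul, map_pow]
        refine mul_lt_of_lt_one_right (pow_pos hpos k) (v.map_add_lt ?_ (hinert.sub_lt u hu))
        rw [map_mul]
        exact lt_of_le_of_lt (mul_le_of_le_one_right' (by rw [hinert.map_eq]; exact hu)) hpow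
      -- telescoping
      set d := σ x - x
      have hdN : ∀ τ ∈ N, τ d = d := fun τ hτ => by rw [map_sub, hstab x hx τ hτ, hx τ hτ]
      have htel : ∀ i : ℕ, v ((σ ^ i) x - x - (i : Qb) * d) ≤ v θ ^ (k + 1) := by
        intro i
        induction i with
        | zero => simp
        | succ i ihi =>
          have e : (σ ^ (i + 1)) x - x - ((i + 1 : ℕ) : Qb) * d =
              σ ((σ ^ i) x - x - (i : Qb) * d) + (i : Qb) * (σ d - d) := by
            have hstep : (σ ^ (i + 1)) x = σ ((σ ^ i) x) := by rw [pow_succ']; rfl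
            rw [hstep, map_sub σ ((σ ^ i) x - x), map_sub σ ((σ ^ i) x), map_mul, map_natCast]
            simp only [d, map_sub]
            push_cast
            ring
          rw [e]
          refine v.map_add_le (by rw [hinert.map_eq]; exact ihi) ?_
          rw [map_mul]
          have hnat : v (i : Qb) ≤ 1 := by simpa using intCast_le_one (v := v) (i : ℤ)
          exact (mul_le_of_le_one_left' hnat).trans (hgr d hdN (ih x hx hx1))
      have hp1 : v (p : Qb) = 1 := by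
        have h2 := natCast_eq_one_of_not_dvd hq (A.mem_nonunits_iff.mp hA) (n := (p : ℤ))
          fun hd => hpq ((Nat.prime_dvd_prime_iff_eq hq hp).mp (Int.natCast_dvd_natCast.mp hd)).symm
        simpa using h2
      have := htel p
      rw [hx _ hσp, sub_self, zero_sub, v.map_neg, map_mul, hp1, one_mul] at this
      exact this
  -- conclusion
  have hfix : ∀ x, (∀ τ ∈ N, τ x = x) → σ x = x := by
    intro x hx
    have hint : ∀ y, (∀ τ ∈ N, τ y = y) → v y ≤ 1 → σ y = y := by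
      intro y hy hy1
      by_contra hne
      have h0 : σ y - y ≠ 0 := sub_ne_zero.mpr hne
      obtain ⟨m, hm⟩ := exists_zpow_of_fixed hq hA hθ he
        (fun τ hτ => by rw [map_sub, hstab y hy τ hτ, hy τ hτ]) h0
      have hlast := key (m.toNat + 1) le_add_self y hy hy1
      rw [hm, ← zpow_natCast] at hlast
      exact absurd hlast (not_le.mpr (zpow_lt_zpow_right_of_lt_one₀ hpos h1 (by omega)))
    by_cases hx1 : v x ≤ 1
    · exact hint x hx hx1
    · have hxi := hint x⁻¹ (fun τ hτ => by rw [map_inv₀, hx τ hτ])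
        (by rw [map_inv₀]; exact inv_le_one_of_one_le₀ (not_le.mp hx1).le)
      rwa [map_inv₀, inv_inj] at hxi
  let H := N.map (resHom E)
  have hσH : resHom E σ ∈ H := by
    rw [← IntermediateField.fixingSubgroup_fixedField H]
    rintro ⟨y, hy⟩
    refine Subtype.ext ?_
    show ((resHom E σ y : E) : Qb) = y
    rw [resHom_apply]
    refine hfix y fun τ hτ => ?_
    rw [← resHom_apply]
    exact congrArg Subtype.val (hy ⟨_, τ, hτ, rfl⟩)
  obtain ⟨τ, hτ, hτσ⟩ := hσH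
  have hmem : τ⁻¹ * σ ∈ N := hE (Subgroup.mem_inf.mpr ⟨I.mul_mem (I.inv_mem (hN hτ)) hσ, fun y => by
    have e : resHom E (τ⁻¹ * σ) = 1 := by rw [map_mul, map_inv, hτσ, inv_mul_cancel]
    have := resHom_apply E (τ⁻¹ * σ) y
    rw [e] at this
    exact this.symm⟩)
  simpa using N.mul_mem hτ hmem

end Layer

section Conjugation

variable (hq : q.Prime) (hA : A.LiesOverPrime q) {N : Subgroup GQ} {θ : Qb}
  (hθ : A.valuation θ ^ N.relIndex (A.inertiaSubgroupIn ℚ) = A.valuation (q : Qb))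
  (he : N.relIndex (A.inertiaSubgroupIn ℚ) ≠ 0)

include hq hA hθ he in
/-- Conjugation by Frobenius raises the tame character to the power `q`. -/
theorem valuation_conj_tame {φ : GQ} (hφ : A.IsFrobeniusAt φ q) {σ : GQ}
    (hσ : σ ∈ A.inertiaSubgroupIn ℚ) :
    A.valuation ((φ * σ * φ⁻¹) θ / θ - (σ θ / θ) ^ q) < 1 := by
  have hpos := theta_pos hq hA hθ
  have hθ0 : θ ≠ 0 := A.valuation.pos_iff.mp hpos
  have hinert := inert_of_mem_inertiaSubgroupIn A hσ
  have hD : φ⁻¹ ∈ A.decompositionSubgroup ℚ := inv_mem hφ.mem_decompositionSubgroup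
  have hDA : ∀ z : Qb, z ∈ A → φ⁻¹ z ∈ A := by
    intro z hz
    have h := ValuationSubring.smul_mem_pointwise_smul φ⁻¹ z A hz
    rwa [MulAction.mem_stabilizer_iff.mp hD, AlgEquiv.smul_def] at h
  have hq0 : (q : Qb) ≠ 0 := by exact_mod_cast hq.ne_zero
  set θ' := φ⁻¹ θ with hθ'
  have hφθ' : φ θ' = θ := by rw [hθ', ← AlgEquiv.mul_apply, mul_inv_cancel]; rfl
  have hvθ' : A.valuation θ' = A.valuation θ := by
    refine (pow_left_inj₀ zero_le zero_le he).mp ?_
    set w : Qb := θ ^ N.relIndex (A.inertiaSubgroupIn ℚ) / q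
    have hw : A.valuation w = 1 := by
      rw [map_div₀, map_pow, hθ, div_self (A.valuation.ne_zero_iff.mpr hq0)]
    have hw0 : w ≠ 0 := fun h => by simp [h] at hw
    have h1 := (A.valuation_le_one_iff _).mpr (hDA w ((A.valuation_le_one_iff _).mp hw.le))
    have h2 := (A.valuation_le_one_iff _).mpr (hDA w⁻¹
      ((A.valuation_le_one_iff _).mp (by rw [map_inv₀, hw, inv_one])))
    rw [map_inv₀, map_inv₀,
      inv_le_one₀ (A.valuation.pos_iff.mpr (by simpa using hw0))] at h2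
    have h := le_antisymm h1 h2
    simp only [w, map_div₀, map_pow, map_natCast] at h
    rw [div_eq_one_iff_eq (A.valuation.ne_zero_iff.mpr hq0)] at h
    rw [hθ]
    exact h
  have hθ'0 : θ' ≠ 0 := fun h => hθ0 (by rw [← hφθ', h, map_zero])
  have hu : A.valuation (θ' / θ) = 1 := by rw [map_div₀, hvθ', div_self hpos.ne']
  have h1 : A.valuation (σ θ' / θ') = 1 := by
    rw [map_div₀, hinert.map_eq, hvθ', div_self hpos.ne']
  have hx : A.valuation (σ θ / θ) = 1 := by rw [map_div₀, hinert.map_eq, div_self hpos.ne']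
  have h2 : A.valuation (σ θ' / θ' - σ θ / θ) < 1 := by
    have hσ0 : σ θ ≠ 0 := by simpa using hθ0
    have e : σ θ' / θ' - σ θ / θ = σ θ / θ * (θ / θ') * (σ (θ' / θ) - θ' / θ) := by
      rw [map_div₀]
      field_simp
    rw [e, map_mul, map_mul, hx, one_mul, map_div₀ A.valuation θ θ', hvθ', div_self hpos.ne',
      one_mul]
    exact hinert.sub_lt _ hu.le
  have h3 := FA.Density.sub_pow_mem_nonunits hφ ((A.valuation_le_one_iff _).mp h1.le)
  rw [A.mem_nonunits_iff, map_div₀, hφθ'] at h3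
  have hres : ∀ a b : A, A.valuation ((a : Qb) - b) < 1 ↔
      IsLocalRing.residue A a = IsLocalRing.residue A b := fun a b => by
    rw [← sub_eq_zero (a := IsLocalRing.residue A a), ← map_sub, IsLocalRing.residue_eq_zero_iff,
      ← A.coe_mem_nonunits_iff, A.mem_nonunits_iff]
    rfl
  let a : A := ⟨σ θ / θ, (A.valuation_le_one_iff _).mp hx.le⟩
  let b : A := ⟨σ θ' / θ', (A.valuation_le_one_iff _).mp h1.le⟩
  have hab : IsLocalRing.residue A (b ^ q) = IsLocalRing.residue A (a ^ q) := by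
    rw [map_pow, map_pow, (hres b a).mp h2]
  have h4 := (hres (b ^ q) (a ^ q)).mpr hab
  have h5 := A.valuation.map_add_lt h3 h4
  rwa [SubmonoidClass.coe_pow, SubmonoidClass.coe_pow, sub_add_sub_cancel] at h5

end Conjugation

/-- Inertia is normal in the decomposition group. -/
theorem conj_mem_inertia_of_mem {φ σ : GQ} (hφ : φ ∈ A.decompositionSubgroup ℚ)
    (hσ : σ ∈ A.inertiaSubgroupIn ℚ) : φ * σ * φ⁻¹ ∈ A.inertiaSubgroupIn ℚ := by
  obtain ⟨x, hx, rfl⟩ := hσ
  refine ⟨(⟨φ, hφ⟩ : A.decompositionSubgroup ℚ) * x * (⟨φ, hφ⟩ : A.decompositionSubgroup ℚ)⁻¹,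
    ?_, rfl⟩
  simp only [SetLike.mem_coe, ValuationSubring.inertiaSubgroup, MonoidHom.mem_ker] at hx ⊢
  rw [map_mul, map_mul, hx, mul_one, map_inv]
  exact mul_inv_cancel _

/-- The tame character attached to a finite `p`-group image of inertia at `q ≠ p`. -/
theorem exists_tame_character {p : ℕ} (hp : p.Prime) (hq : q.Prime) (hpq : p ≠ q)
    (hA : A.LiesOverPrime q) {X : Type*} [Monoid X] (f : A.inertiaSubgroupIn ℚ →* X)
    {U₀ : Subgroup GQ} (hU₀ : IsOpen (U₀ : Set GQ))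
    (hf : ∀ σ : A.inertiaSubgroupIn ℚ, (σ : GQ) ∈ U₀ → f σ = 1)
    (hP : ∀ σ : A.inertiaSubgroupIn ℚ, ∃ m : ℕ, f σ ^ p ^ m = 1) :
    ∃ ψ : A.inertiaSubgroupIn ℚ →* IsLocalRing.ResidueField A, (Set.range ψ).Finite ∧
      (∀ σ, ψ σ = 1 → f σ = 1) ∧ (∀ σ, f σ = 1 → ψ σ = 1) ∧
      ∀ φ : GQ, A.IsFrobeniusAt φ q →
        (∀ σ σ' : A.inertiaSubgroupIn ℚ, (σ' : GQ) = φ * σ * φ⁻¹ → f σ = 1 → f σ' = 1) →
        ∀ σ σ' : A.inertiaSubgroupIn ℚ, (σ' : GQ) = φ * σ * φ⁻¹ → ψ σ' = ψ σ ^ q := by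
  classical
  obtain ⟨U, hU⟩ := ProfiniteGrp.exist_openNormalSubgroup_sub_open_nhds_of_one hU₀ U₀.one_mem
  let E : IntermediateField ℚ Qb := IntermediateField.fixedField U.toSubgroup
  have hEfix : E.fixingSubgroup = U.toSubgroup := InfiniteGalois.fixingSubgroup_fixedField
    ⟨U.toSubgroup, Subgroup.isClosed_of_isOpen _ U.isOpen'⟩
  have : FiniteDimensional ℚ E :=
    (InfiniteGalois.isOpen_iff_finite E).mp (hEfix.symm ▸ U.isOpen')
  have hgal : IsGalois ℚ E :=
    (InfiniteGalois.normal_iff_isGalois E).mp (hEfix.symm ▸ U.isNormal')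
  set N : Subgroup GQ := f.ker.map (A.inertiaSubgroupIn ℚ).subtype with hNdef
  have hN : N ≤ (A.inertiaSubgroupIn ℚ) := by
    rintro _ ⟨σ, -, rfl⟩
    exact σ.2
  have hmemN : ∀ σ : (A.inertiaSubgroupIn ℚ), (σ : GQ) ∈ N ↔ f σ = 1 := fun σ => by
    constructor
    · rintro ⟨τ, hτ, h⟩
      rw [← show τ = σ from Subtype.ext h]
      exact hτ
    · exact fun h => ⟨σ, h, rfl⟩
  have hE : (A.inertiaSubgroupIn ℚ) ⊓ E.fixingSubgroup ≤ N := fun σ hσ =>
    (hmemN ⟨σ, hσ.1⟩).mpr (hf ⟨σ, hσ.1⟩ (hU (show σ ∈ U.toSubgroup from hEfix ▸ hσ.2)))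
  obtain ⟨he, θ, hθN, hθ⟩ := exists_uniformizer hq hA N hN E hE
  -- the tame character
  have hinert : ∀ σ : (A.inertiaSubgroupIn ℚ), Inert A.valuation (σ : GQ) := fun σ => inert_of_mem_inertiaSubgroupIn A σ.2
  have hpos := theta_pos hq hA hθ
  have hθ0 : θ ≠ 0 := A.valuation.pos_iff.mp hpos
  have hunit : ∀ σ : (A.inertiaSubgroupIn ℚ), A.valuation ((σ : GQ) θ / θ) = 1 := fun σ => by
    rw [map_div₀, (hinert σ).map_eq, div_self hpos.ne']
  have hmemA : ∀ σ : (A.inertiaSubgroupIn ℚ), (σ : GQ) θ / θ ∈ A := fun σ => (A.valuation_le_one_iff _).mp (hunit σ).le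
  have hres : ∀ x y : A, A.valuation ((x : Qb) - y) < 1 →
      IsLocalRing.residue A x = IsLocalRing.residue A y := fun x y h => by
    rw [← sub_eq_zero, ← map_sub, IsLocalRing.residue_eq_zero_iff, ← A.coe_mem_nonunits_iff,
      A.mem_nonunits_iff]
    exact h
  let ψ : (A.inertiaSubgroupIn ℚ) →* IsLocalRing.ResidueField A :=
    { toFun := fun σ => IsLocalRing.residue A ⟨(σ : GQ) θ / θ, hmemA σ⟩
      map_one' := by
        rw [← map_one (IsLocalRing.residue A)]
        congr 1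
        exact Subtype.ext (by simp [hθ0])
      map_mul' := fun σ τ => by
        rw [← map_mul]
        refine hres _ _ ?_
        show A.valuation (((σ * τ : (A.inertiaSubgroupIn ℚ)) : GQ) θ / θ - (σ : GQ) θ / θ * ((τ : GQ) θ / θ)) < 1
        have hσ0 : (σ : GQ) θ ≠ 0 := by simpa using hθ0
        have e : ((σ * τ : (A.inertiaSubgroupIn ℚ)) : GQ) θ / θ - (σ : GQ) θ / θ * ((τ : GQ) θ / θ) =
            (σ : GQ) θ / θ * ((σ : GQ) ((τ : GQ) θ / θ) - (τ : GQ) θ / θ) := by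
          rw [Subgroup.coe_mul, AlgEquiv.mul_apply, map_div₀]
          field_simp
        rw [e, map_mul, hunit σ, one_mul]
        exact (hinert σ).sub_lt _ (hunit τ).le }
  have hψN : ∀ σ : (A.inertiaSubgroupIn ℚ), (σ : GQ) ∈ N → ψ σ = 1 := fun σ hσ => by
    show IsLocalRing.residue A _ = 1
    rw [← map_one (IsLocalRing.residue A)]
    congr 1
    refine Subtype.ext ?_
    show (σ : GQ) θ / θ = 1
    rw [hθN _ hσ, div_self hθ0]
  refine ⟨ψ, ?_, ?_, fun σ h => hψN σ ((hmemN σ).mpr h), ?_⟩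
  · have : (N.subgroupOf (A.inertiaSubgroupIn ℚ)).FiniteIndex := ⟨he⟩
    refine (Set.finite_range fun c : (A.inertiaSubgroupIn ℚ) ⧸ N.subgroupOf (A.inertiaSubgroupIn ℚ) => ψ c.out).subset ?_
    rintro _ ⟨σ, rfl⟩
    refine ⟨(σ : (A.inertiaSubgroupIn ℚ) ⧸ N.subgroupOf (A.inertiaSubgroupIn ℚ)), ?_⟩
    obtain ⟨n, hn⟩ := QuotientGroup.mk_out_eq_mul (N.subgroupOf (A.inertiaSubgroupIn ℚ)) σ
    show ψ (Quotient.out _) = _
    rw [hn, map_mul, hψN _ (Subgroup.mem_subgroupOf.mp n.2), mul_one]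
  -- the kernel of the tame character maps trivially
  · intro σ hσ
    obtain ⟨m, hm⟩ := hP σ
    induction m with
    | zero => simpa using hm
    | succ m ih =>
      refine ih ?_
      rw [← map_pow, ← hmemN, SubmonoidClass.coe_pow]
      refine mem_of_pow_mem hq hA E hE hθ he hp hpq ((A.inertiaSubgroupIn ℚ).pow_mem σ.2 _) ?_ ?_ ?_ hN
      · rw [← pow_mul, ← pow_succ]
        have := (hmemN (σ ^ p ^ (m + 1))).mpr (by rw [map_pow, hm])
        rwa [SubmonoidClass.coe_pow] at this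
      · intro τ hτ
        have hτI := hN hτ
        have := (hmemN ((σ ^ p ^ m)⁻¹ * ⟨τ, hτI⟩ * σ ^ p ^ m)).mpr (by
          rw [map_mul, map_mul, (hmemN ⟨τ, hτI⟩).mp hτ, mul_one, ← map_mul, inv_mul_cancel,
            map_one])
        simpa using this
      · have h1 : ψ (σ ^ p ^ m) = 1 := by rw [map_pow, hσ, one_pow]
        have h2 : IsLocalRing.residue A (⟨((σ ^ p ^ m : (A.inertiaSubgroupIn ℚ)) : GQ) θ / θ, hmemA _⟩ - 1) = 0 := by
          rw [map_sub, map_one, sub_eq_zero]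
          exact h1
        rw [IsLocalRing.residue_eq_zero_iff, ← A.coe_mem_nonunits_iff, A.mem_nonunits_iff] at h2
        have h3 : A.valuation (((σ : GQ) ^ p ^ m) θ / θ - 1) < 1 := h2
        rwa [div_sub_one hθ0, map_div₀, div_lt_one₀ hpos] at h3
  -- Frobenius raises the tame character to the power `q`
  · intro φ hφ hstab σ σ' hσ'
    have hθ'N : ∀ τ ∈ N, φ * τ * φ⁻¹ ∈ N := fun τ hτ => (hmemN ⟨_,
      conj_mem_inertia_of_mem hφ.mem_decompositionSubgroup (hN hτ)⟩).mpr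
        (hstab ⟨τ, hN hτ⟩ ⟨_, conj_mem_inertia_of_mem hφ.mem_decompositionSubgroup (hN hτ)⟩ rfl
          ((hmemN ⟨τ, hN hτ⟩).mp hτ))
    have h := valuation_conj_tame hq hA hθ he hφ (σ := (σ : GQ)) σ.2
    rw [← hσ'] at h
    calc ψ σ' = IsLocalRing.residue A (⟨_, hmemA σ⟩ ^ q) := hres _ _ h
      _ = ψ σ ^ q := map_pow _ _ _

/-- If the image of inertia at `q` in a finite quotient is a `p`-group with `p ≠ q` then it is
cyclic (local version). -/
theorem exists_gen_inertia_image' {p : ℕ} (hp : p.Prime) (hq : q.Prime) (hpq : p ≠ q)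
    (hA : A.LiesOverPrime q) {X : Type*} [Monoid X] (f : A.inertiaSubgroupIn ℚ →* X)
    {U₀ : Subgroup GQ} (hU₀ : IsOpen (U₀ : Set GQ))
    (hf : ∀ σ : A.inertiaSubgroupIn ℚ, (σ : GQ) ∈ U₀ → f σ = 1)
    (hP : ∀ σ : A.inertiaSubgroupIn ℚ, ∃ m : ℕ, f σ ^ p ^ m = 1) :
    ∃ σ₀ : A.inertiaSubgroupIn ℚ, ∀ σ, ∃ i : ℕ, f σ = f σ₀ ^ i := by
  classical
  obtain ⟨ψ, hfinψ, hker, -, -⟩ := exists_tame_character hp hq hpq hA f hU₀ hf hP
  let ψu : A.inertiaSubgroupIn ℚ →* (IsLocalRing.ResidueField A)ˣ := ψ.toHomUnits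
  have : Finite ψu.range := by
    have : (Set.range ψu).Finite := by
      refine Set.Finite.of_finite_image ?_ (Units.val_injective.injOn)
      refine hfinψ.subset ?_
      rintro _ ⟨_, ⟨σ, rfl⟩, rfl⟩
      exact ⟨σ, rfl⟩
    exact this.to_subtype
  obtain ⟨⟨_, σ₀, rfl⟩, hgen⟩ := IsCyclic.exists_generator (α := ψu.range)
  refine ⟨σ₀, fun σ => ?_⟩
  have hmem := hgen ⟨ψu σ, _, rfl⟩
  rw [← mem_powers_iff_mem_zpowers] at hmem
  obtain ⟨i, hi⟩ := hmem
  refine ⟨i, ?_⟩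
  have h1 : ψu ((σ₀ ^ i)⁻¹ * σ) = 1 := by
    rw [map_mul, map_inv, map_pow]
    have := congrArg Subtype.val hi
    simp only [SubmonoidClass.coe_pow] at this
    rw [this, inv_mul_cancel]
  have h2 := hker _ (congrArg Units.val h1)
  calc f σ = f (σ₀ ^ i) * f ((σ₀ ^ i)⁻¹ * σ) := by rw [← map_mul, mul_inv_cancel_left]
    _ = f σ₀ ^ i := by rw [h2, mul_one, map_pow]

/-- Frobenius acts trivially on a quotient of inertia at `q ≡ 1 mod p` killed by `p`. -/
theorem inertia_conj_eq {p : ℕ} (hp : p.Prime) (hq : q.Prime) (hpq : p ≠ q)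
    (hA : A.LiesOverPrime q) (hq1 : p ∣ q - 1) {X : Type*} [Monoid X]
    (f : A.inertiaSubgroupIn ℚ →* X) {U₀ : Subgroup GQ} (hU₀ : IsOpen (U₀ : Set GQ))
    (hf : ∀ σ : A.inertiaSubgroupIn ℚ, (σ : GQ) ∈ U₀ → f σ = 1)
    (hP : ∀ σ : A.inertiaSubgroupIn ℚ, f σ ^ p = 1) {φ : GQ} (hφ : A.IsFrobeniusAt φ q)
    (hstab : ∀ σ σ' : A.inertiaSubgroupIn ℚ, (σ' : GQ) = φ * σ * φ⁻¹ → f σ = 1 → f σ' = 1)
    {σ σ' : A.inertiaSubgroupIn ℚ} (hσ' : (σ' : GQ) = φ * σ * φ⁻¹) : f σ' = f σ := by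
  obtain ⟨ψ, -, hker, hψ, hconj⟩ :=
    exists_tame_character hp hq hpq hA f hU₀ hf fun σ => ⟨1, by rw [pow_one]; exact hP σ⟩
  have h1 : ψ σ ^ p = 1 := by rw [← map_pow]; exact hψ _ (by rw [map_pow, hP])
  obtain ⟨t, ht⟩ := hq1
  have h2 : ψ σ' = ψ σ := by
    rw [hconj φ hφ hstab σ σ' hσ', show q = p * t + 1 by have := hq.one_le; omega, pow_add,
      pow_mul, h1, one_pow, one_mul, pow_one]
  have h3 : ψ (σ⁻¹ * σ') = 1 := by rw [map_mul, h2, ← map_mul, inv_mul_cancel, map_one]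
  calc f σ' = f σ * f (σ⁻¹ * σ') := by rw [← map_mul, mul_inv_cancel_left]
    _ = f σ := by rw [hker _ h3, mul_one]

/-- If the image of inertia at `q` in a finite quotient is a `p`-group with `p ≠ q` then it is
cyclic. -/
theorem exists_gen_inertia_image {p : ℕ} (hp : p.Prime) (hq : q.Prime) (hpq : p ≠ q)
    (hA : A.LiesOverPrime q) {X : Type*} [Monoid X] (f : GQ →* X) (hf : IsOpen (f.ker : Set GQ))
    (hP : ∀ σ ∈ A.inertiaSubgroupIn ℚ, ∃ m : ℕ, f σ ^ p ^ m = 1) :
    ∃ σ₀ ∈ A.inertiaSubgroupIn ℚ, ∀ σ ∈ A.inertiaSubgroupIn ℚ, ∃ i : ℕ, f σ = f σ₀ ^ i := by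
  obtain ⟨σ₀, h⟩ := exists_gen_inertia_image' hp hq hpq hA
    (f.comp (A.inertiaSubgroupIn ℚ).subtype) hf (fun σ hσ => hσ) fun σ => hP σ σ.2
  exact ⟨σ₀, σ₀.2, fun σ hσ => h ⟨σ, hσ⟩⟩

end FA.TW
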