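import Fermat.Agent.TW.Global
import Fermat.Agent.TW.TameImage
import Mathlib.Algebra.DualNumber
import Mathlib.FieldTheory.Finite.Extension

/-!
# Local conditions away from `p`: unramified classes and unipotent deformations
-/

set_option autoImplicit false

noncomputable section

open FA.GalCoh FA.LocalDef
open scoped Pointwise

namespace FA.TW

local notation "Qb" => AlgebraicClosure ℚ
local notation "GQ" => AlgebraicClosure ℚ ≃ₐ[ℚ] AlgebraicClosure ℚ

section Classes

variable {G : Type} [Group G] {L : Levels G} {k : Type} [Field k] {V : Type} [AddCommGroup V]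
  [Module k V] {ρ : Representation k G V}

/-- The dimension of the classes of a space of cocycles containing coboundaries. -/
theorem finrank_map_mk1_le (Z' : Submodule k ↥(Z1 L ρ)) [FiniteDimensional k ↥Z'] (U : Submodule k V)
    [FiniteDimensional k ↥U] (hU : ∀ u ∈ U, ∃ c ∈ Z', c.1 = d0 ρ u) :
    Module.finrank k ↥(Z'.map (mk1 L ρ)) + Module.finrank k ↥U ≤
      Module.finrank k ↥Z' + Module.finrank k ↥(U ⊓ ρ.invariants) := by
  classical
  let f : ↥Z' →ₗ[k] H1 L ρ := (mk1 L ρ).comp Z'.subtype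
  have hfk := LinearMap.finrank_range_add_finrank_ker (K := k) (V := ↥Z') (V₂ := H1 L ρ) f
  have hrange : LinearMap.range f = Z'.map (mk1 L ρ) := by
    rw [LinearMap.range_comp, Submodule.range_subtype]
  have h1 := hfk
  rw [hrange] at h1
  let g : ↥U →ₗ[k] ↥Z' :=
    { toFun := fun u => ⟨⟨d0 ρ u.1, by
        obtain ⟨c, -, hc⟩ := hU u.1 u.2
        exact hc ▸ c.2⟩, by
        obtain ⟨c, hcZ, hc⟩ := hU u.1 u.2
        convert hcZ
        exact hc.symm⟩
      map_add' := fun u w => Subtype.ext (Subtype.ext (map_add (d0 ρ) u.1 w.1))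
      map_smul' := fun a u => Subtype.ext (Subtype.ext (map_smul (d0 ρ) a u.1)) }
  have hg : LinearMap.range g ≤ LinearMap.ker f := by
    rintro _ ⟨u, rfl⟩
    exact LinearMap.mem_ker.mpr ((mk1_eq_zero L ρ _).mpr ⟨u.1, rfl⟩)
  have h2 := LinearMap.finrank_range_add_finrank_ker (K := k) (V := ↥U) (V₂ := ↥Z') g
  have h3 : Module.finrank k ↥(LinearMap.ker g) ≤ Module.finrank k ↥(U ⊓ ρ.invariants) := by
    have : FiniteDimensional k ↥(U ⊓ ρ.invariants) :=
      Submodule.finiteDimensional_of_le inf_le_left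
    refine LinearMap.finrank_le_finrank_of_injective
      (f := ((U.subtype.comp (LinearMap.ker g).subtype).codRestrict (U ⊓ ρ.invariants) fun u =>
        ⟨u.1.2, fun x => ?_⟩)) fun a b h => ?_
    · have := congrArg (fun z : ↥Z' => z.1.1 x) (LinearMap.mem_ker.mp u.2)
      exact sub_eq_zero.mp this
    · exact Subtype.ext (Subtype.ext (congrArg (fun z : ↥(U ⊓ ρ.invariants) => (z : V)) h))
  have : IsNoetherian k ↥Z' := isNoetherian_of_isNoetherianRing_of_finite k ↥Z'
  have : Module.Finite k ↥(LinearMap.ker f) :=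
    Module.Finite.iff_fg.mpr (IsNoetherian.noetherian _)
  have h4 := Submodule.finrank_mono hg
  omega

end Classes

section Frobenius

variable {q : ℕ} {A : ValuationSubring Qb}

/-- The decomposition group is generated by a Frobenius element and inertia, modulo any open
subgroup. -/
theorem exists_frobenius_decomp (hq : q.Prime) (hA : A.LiesOverPrime q) {φ : GQ}
    (hφ : A.IsFrobeniusAt φ q) (N : Subgroup GQ) (hN : IsOpen (N : Set GQ)) {σ : GQ}
    (hσ : σ ∈ A.decompositionSubgroup ℚ) :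
    ∃ (i : ℕ), ∃ ι ∈ A.inertiaSubgroupIn ℚ, ∃ n ∈ N, σ = φ ^ i * ι * n := by
  classical
  obtain ⟨U, hU⟩ := ProfiniteGrp.exist_openNormalSubgroup_sub_open_nhds_of_one hN N.one_mem
  let E : IntermediateField ℚ Qb := IntermediateField.fixedField U.toSubgroup
  have hEfix : E.fixingSubgroup = U.toSubgroup := InfiniteGalois.fixingSubgroup_fixedField
    ⟨U.toSubgroup, Subgroup.isClosed_of_isOpen _ U.isOpen'⟩
  have : FiniteDimensional ℚ E :=
    (InfiniteGalois.isOpen_iff_finite E).mp (hEfix.symm ▸ U.isOpen')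
  have hgal : IsGalois ℚ E :=
    (InfiniteGalois.normal_iff_isGalois E).mp (hEfix.symm ▸ U.isNormal')
  let P : Ideal (NumberField.RingOfIntegers E) := centre (vOn E A)
  have hmemP : ∀ x, x ∈ P ↔ A.valuation ((x : E) : Qb) < 1 := fun x => Iff.rfl
  have hqP : (q : NumberField.RingOfIntegers E) ∈ P := by
    rw [hmemP]
    simpa using A.mem_nonunits_iff.mp hA
  have : P.IsPrime := inferInstance
  have hP0 : P ≠ ⊥ := fun h => by
    rw [h, Ideal.mem_bot] at hqP
    exact hq.ne_zero (by exact_mod_cast hqP)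
  have : P.IsMaximal := Ideal.IsPrime.isMaximal inferInstance hP0
  let _ : Field (NumberField.RingOfIntegers E ⧸ P) := Ideal.Quotient.field P
  have : Finite (NumberField.RingOfIntegers E ⧸ P) := Ideal.finiteQuotientOfFreeOfNeBot P hP0
  have : Fact q.Prime := ⟨hq⟩
  have : CharP (NumberField.RingOfIntegers E ⧸ P) q := by
    refine (CharP.charP_iff_prime_eq_zero hq).mpr ?_
    rw [← map_natCast (Ideal.Quotient.mk P), Ideal.Quotient.eq_zero_iff_mem]
    exact hqP
  let _ : Algebra (ZMod q) (NumberField.RingOfIntegers E ⧸ P) := ZMod.algebra _ q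
  -- the action on the residue field of the layer
  have hval : ∀ τ ∈ A.decompositionSubgroup ℚ, ∀ z : Qb, A.valuation z < 1 →
      A.valuation (τ z) < 1 := by
    intro τ hτ z hz
    rw [← A.mem_nonunits_iff] at hz ⊢
    have := (FA.Density.mem_nonunits_smul_iff (A := A) τ (y := τ z))
    rw [MulAction.mem_stabilizer_iff.mp hτ, AlgEquiv.aut_inv, AlgEquiv.symm_apply_apply] at this
    exact this.mpr hz
  let τ := resHom E σ
  let f : NumberField.RingOfIntegers E →+* NumberField.RingOfIntegers E :=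
    MulSemiringAction.toRingHom (E ≃ₐ[ℚ] E) (NumberField.RingOfIntegers E) τ
  have hfcoe : ∀ (g : GQ) (x : NumberField.RingOfIntegers E),
      (((resHom E g • x : NumberField.RingOfIntegers E) : E) : Qb) = g ((x : E) : Qb) := fun g x => by
    rw [← resHom_apply]
    rfl
  have hfP : P ≤ P.comap f := fun x hx => by
    rw [Ideal.mem_comap, hmemP]
    show A.valuation (((resHom E σ • x : NumberField.RingOfIntegers E) : E) : Qb) < 1
    rw [hfcoe]
    exact hval σ hσ _ hx
  let fb : NumberField.RingOfIntegers E ⧸ P →ₐ[ZMod q] NumberField.RingOfIntegers E ⧸ P :=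
    { Ideal.quotientMap P f hfP with
      commutes' := fun a => RingHom.congr_fun (Subsingleton.elim
        ((Ideal.quotientMap P f hfP).comp (algebraMap (ZMod q) _)) (algebraMap (ZMod q) _)) a }
  obtain ⟨⟨i, hi⟩, hfi⟩ :=
    (FiniteField.bijective_frobeniusAlgHom_pow (ZMod q) (NumberField.RingOfIntegers E ⧸ P)).2 fb
  have hstep : ∀ x : NumberField.RingOfIntegers E,
      A.valuation (σ ((x : E) : Qb) - ((x : E) : Qb) ^ q ^ i) < 1 := by
    intro x
    have h1 := AlgHom.congr_fun hfi (Ideal.Quotient.mk P x)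
    rw [AlgHom.coe_pow, FiniteField.coe_frobeniusAlgHom, pow_iterate, ZMod.card] at h1
    have h2 : Ideal.Quotient.mk P (f x) = Ideal.Quotient.mk P (x ^ q ^ i) := by
      rw [map_pow]
      exact h1.symm
    rw [Ideal.Quotient.eq, hmemP] at h2
    have e : (((f x - x ^ q ^ i : NumberField.RingOfIntegers E) : E) : Qb) =
        σ ((x : E) : Qb) - ((x : E) : Qb) ^ q ^ i := by
      push_cast
      congr 1
      exact hfcoe σ x
    rwa [e] at h2
  have hfrob : ∀ (j : ℕ) (x : Qb), x ∈ A → A.valuation ((φ ^ j) x - x ^ q ^ j) < 1 := by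
    intro j
    induction j with
    | zero => intro x _; simp
    | succ j ih =>
      intro x hx
      have h1 : A.valuation (φ ((φ ^ j) x) - φ (x ^ q ^ j)) < 1 := by
        rw [← map_sub]
        exact hval φ hφ.mem_decompositionSubgroup _ (ih x hx)
      have h2 := FA.Density.sub_pow_mem_nonunits hφ (pow_mem hx (q ^ j))
      rw [A.mem_nonunits_iff, ← pow_mul, ← pow_succ] at h2
      have e : (φ ^ (j + 1)) x - x ^ q ^ (j + 1) =
          (φ ((φ ^ j) x) - φ (x ^ q ^ j)) + (φ (x ^ q ^ j) - x ^ q ^ (j + 1)) := by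
        rw [show (φ ^ (j + 1)) x = φ ((φ ^ j) x) by rw [pow_succ']; rfl]
        ring
      rw [e]
      exact A.valuation.map_add_lt h1 h2
  have hinert : resHom E ((φ ^ i)⁻¹ * σ) ∈ (centre (vOn E A)).inertia (E ≃ₐ[ℚ] E) := by
    intro x
    show A.valuation ((((resHom E ((φ ^ i)⁻¹ * σ) • x - x :
      NumberField.RingOfIntegers E)) : E) : Qb) < 1
    rw [show ((((resHom E ((φ ^ i)⁻¹ * σ) • x - x : NumberField.RingOfIntegers E)) : E) : Qb) =
        ((φ ^ i)⁻¹ * σ) ((x : E) : Qb) - ((x : E) : Qb) from by rw [← hfcoe]; rfl]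
    have hd : (φ ^ i)⁻¹ ∈ A.decompositionSubgroup ℚ :=
      inv_mem (pow_mem hφ.mem_decompositionSubgroup i)
    have hxA : ((x : E) : Qb) ∈ A :=
      (A.valuation_le_one_iff _).mp (map_ringOfIntegers_le_one (vOn E A) x)
    have h2 := A.valuation.map_sub (σ ((x : E) : Qb) - ((x : E) : Qb) ^ q ^ i)
      ((φ ^ i) ((x : E) : Qb) - ((x : E) : Qb) ^ q ^ i)
    rw [sub_sub_sub_cancel_right] at h2
    have h3 : A.valuation (σ ((x : E) : Qb) - (φ ^ i) ((x : E) : Qb)) < 1 :=
      lt_of_le_of_lt h2 (max_lt (hstep x) (hfrob i _ hxA))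
    have h4 := hval _ hd _ h3
    rw [map_sub, show (φ ^ i)⁻¹ ((φ ^ i) ((x : E) : Qb)) = ((x : E) : Qb) from
      (φ ^ i).symm_apply_apply _] at h4
    exact h4
  obtain ⟨ι, hι, hιy⟩ := exists_inertia_extend E hq hA _ hinert
  refine ⟨i, ι, hι, ι⁻¹ * ((φ ^ i)⁻¹ * σ), hU ?_, by group⟩
  show ι⁻¹ * ((φ ^ i)⁻¹ * σ) ∈ U.toSubgroup
  rw [← hEfix]
  intro y
  show (ι⁻¹ * ((φ ^ i)⁻¹ * σ)) (y : Qb) = y
  rw [AlgEquiv.mul_apply, ← resHom_apply E ((φ ^ i)⁻¹ * σ), ← hιy, AlgEquiv.aut_inv,
    AlgEquiv.symm_apply_apply]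

end Frobenius

section Unramified

variable {k : Type} [Field k] {V : Type} [AddCommGroup V] [Module k V]
  (ρ : Representation k GQ V) (A : ValuationSubring Qb)

/-- Local cocycles vanishing on inertia. -/
def unrZ1 : Submodule k ↥(Z1 (levelsOn (A.decompositionSubgroup ℚ))
    (ρ.comp (A.decompositionSubgroup ℚ).subtype)) where
  carrier := {c | ∀ σ : A.decompositionSubgroup ℚ, (σ : GQ) ∈ A.inertiaSubgroupIn ℚ → c.1 σ = 0}
  zero_mem' := fun σ _ => rfl
  add_mem' {c c'} h h' := fun σ hσ => by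
    show c.1 σ + c'.1 σ = 0
    rw [h σ hσ, h' σ hσ, add_zero]
  smul_mem' a c h := fun σ hσ => by
    show a • c.1 σ = 0
    rw [h σ hσ, smul_zero]

/-- Unramified local classes. -/
def unrClasses : Submodule k (H1 (levelsOn (A.decompositionSubgroup ℚ))
    (ρ.comp (A.decompositionSubgroup ℚ).subtype)) :=
  (unrZ1 ρ A).map (mk1 _ _)

/-- A cocycle which is a coboundary on inertia has an unramified class. -/
theorem mk1_mem_unrClasses (hsm : Smooth allLevels ρ)
    (c : ↥(Z1 (levelsOn (A.decompositionSubgroup ℚ))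
      (ρ.comp (A.decompositionSubgroup ℚ).subtype))) (v : V)
    (h : ∀ σ : A.decompositionSubgroup ℚ, (σ : GQ) ∈ A.inertiaSubgroupIn ℚ →
      c.1 σ = ρ σ.1 v - v) :
    mk1 (levelsOn (A.decompositionSubgroup ℚ)) (ρ.comp (A.decompositionSubgroup ℚ).subtype) c ∈
      unrClasses ρ A := by
  have hsmD : Smooth (levelsOn (A.decompositionSubgroup ℚ))
      (ρ.comp (A.decompositionSubgroup ℚ).subtype) := by
    obtain ⟨N, hN, hs⟩ := hsm
    exact ⟨N.subgroupOf _, ⟨N, hN, rfl⟩, fun s hs' => hs _ hs'⟩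
  refine ⟨c - ⟨_, d0_mem_Z1 hsmD v⟩, fun σ hσ => ?_, ?_⟩
  · show c.1 σ - (ρ σ.1 v - v) = 0
    rw [sub_eq_zero, h σ hσ]
  · rw [map_sub, sub_eq_self, mk1_eq_zero]
    exact ⟨v, rfl⟩

/-- The unramified classes have dimension at most that of the invariants. -/
theorem finrank_unrClasses_le [FiniteDimensional k V] {q : ℕ} (hq : q.Prime)
    (hA : A.LiesOverPrime q) (hsm : Smooth allLevels ρ) :
    FiniteDimensional k ↥(unrClasses ρ A) ∧ Module.finrank k ↥(unrClasses ρ A) ≤
      Module.finrank k ↥(Representation.invariants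
        (ρ.comp (A.decompositionSubgroup ℚ).subtype)) := by
  obtain ⟨φ, hφ⟩ := Deform.exists_isFrobeniusAt hq hA
  have hID : A.inertiaSubgroupIn ℚ ≤ (A.decompositionSubgroup ℚ) := fun σ hσ => by
    obtain ⟨x, -, rfl⟩ := hσ
    exact x.2
  have hconj : ∀ ι ∈ A.inertiaSubgroupIn ℚ, φ⁻¹ * ι * φ ∈ A.inertiaSubgroupIn ℚ := fun ι hι => by
    have := conj_mem_inertia hq hA hι φ⁻¹
    rwa [inv_inv, MulAction.mem_stabilizer_iff.mp (inv_mem hφ.mem_decompositionSubgroup)] at this
  let W : Submodule k V :=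
    Representation.invariants (ρ.comp (A.inertiaSubgroupIn ℚ).subtype)
  -- evaluation at Frobenius
  let ev : ↥(unrZ1 ρ A) →ₗ[k] ↥W :=
    { toFun := fun c => ⟨c.1.1 ⟨φ, hφ.mem_decompositionSubgroup⟩, fun ι => by
        let φd : (A.decompositionSubgroup ℚ) := ⟨φ, hφ.mem_decompositionSubgroup⟩
        let ιd : (A.decompositionSubgroup ℚ) := ⟨ι.1, hID ι.2⟩
        have h1 : c.1.1 (ιd * φd) = ρ ι.1 (c.1.1 φd) := by
          rw [c.1.2.2, c.2 ιd ι.2, add_zero]
          rfl
        have h2 : c.1.1 (φd * (φd⁻¹ * ιd * φd)) = c.1.1 φd := by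
          rw [c.1.2.2, c.2 (φd⁻¹ * ιd * φd) (by simpa [φd, ιd] using hconj ι.1 ι.2), map_zero,
            zero_add]
        rw [show φd * (φd⁻¹ * ιd * φd) = ιd * φd by group, h1] at h2
        exact h2⟩
      map_add' := fun c c' => rfl
      map_smul' := fun a c => rfl }
  have hev : Function.Injective ev := by
    rw [injective_iff_map_eq_zero]
    intro c hc
    have hc0 : c.1.1 ⟨φ, hφ.mem_decompositionSubgroup⟩ = 0 := congrArg Subtype.val hc
    refine Subtype.ext (Subtype.ext (funext fun σ => ?_))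
    obtain ⟨M, ⟨N, hN, rfl⟩, hM⟩ := c.1.2.1
    obtain ⟨i, ι, hι, n, hn, hσ⟩ := exists_frobenius_decomp hq hA hφ N hN σ.2
    have hnD : n ∈ (A.decompositionSubgroup ℚ) := by
      have : n = (φ ^ i * ι)⁻¹ * σ := by rw [hσ]; group
      rw [this]
      exact mul_mem (inv_mem (mul_mem (pow_mem hφ.mem_decompositionSubgroup i) (hID hι))) σ.2
    have e : σ = (⟨φ, hφ.mem_decompositionSubgroup⟩ ^ i * ⟨ι, hID hι⟩ : (A.decompositionSubgroup ℚ)) * ⟨n, hnD⟩ :=
      Subtype.ext (by simpa using hσ)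
    have hpow : c.1.1 ((⟨φ, hφ.mem_decompositionSubgroup⟩ : (A.decompositionSubgroup ℚ)) ^ i) = 0 := by
      induction i generalizing σ with
      | zero => rw [pow_zero]; exact Z1.map_one c.1
      | succ i ih =>
        clear hσ e
        have : ∀ j : ℕ, c.1.1 ((⟨φ, hφ.mem_decompositionSubgroup⟩ : (A.decompositionSubgroup ℚ)) ^ j) = 0 := fun j => by
          induction j with
          | zero => rw [pow_zero]; exact Z1.map_one c.1
          | succ j ihj => rw [pow_succ, c.1.2.2, ihj, hc0, map_zero, add_zero]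
        exact this _
    rw [e, hM _ _ (Subgroup.mem_subgroupOf.mpr hn), c.1.2.2, c.2 _ hι, hpow, map_zero, add_zero]
    rfl
  have hfin : FiniteDimensional k ↥(unrZ1 ρ A) := FiniteDimensional.of_injective ev hev
  refine ⟨inferInstanceAs (FiniteDimensional k ↥((unrZ1 ρ A).map (mk1 _ _))), ?_⟩
  have hsmD : Smooth (levelsOn (A.decompositionSubgroup ℚ)) (ρ.comp (A.decompositionSubgroup ℚ).subtype) := by
    obtain ⟨N, hN, hs⟩ := hsm
    exact ⟨N.subgroupOf _, ⟨N, hN, rfl⟩, fun s hs' => hs _ hs'⟩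
  have h1 := finrank_map_mk1_le (unrZ1 ρ A) W fun v hv =>
    ⟨⟨d0 (ρ.comp (A.decompositionSubgroup ℚ).subtype) v, d0_mem_Z1 hsmD v⟩, fun σ hσ => sub_eq_zero.mpr (hv ⟨σ, hσ⟩), rfl⟩
  have h2 := LinearMap.finrank_le_finrank_of_injective hev
  have h3 : Module.finrank k ↥(W ⊓ Representation.invariants (ρ.comp (A.decompositionSubgroup ℚ).subtype)) ≤
      Module.finrank k ↥(Representation.invariants (ρ.comp (A.decompositionSubgroup ℚ).subtype)) := Submodule.finrank_mono inf_le_right
  show Module.finrank k ↥((unrZ1 ρ A).map (mk1 _ _)) ≤ _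
  omega

end Unramified

section Unipotent

open Matrix TrivSqZeroExt

variable {k : Type} [Field k] {p : ℕ} [Fact p.Prime] [CharP k p]

/-- A first order deformation, unipotent on inertia at a prime where the residual representation
is ramified, is a coboundary on inertia. -/
theorem exists_coboundary_of_unipotent (hp2 : p ≠ 2) {q : ℕ} (hq : q.Prime) (hpq : p ≠ q)
    {A : ValuationSubring Qb} (hA : A.LiesOverPrime q) (rb : GQ →* Matrix (Fin 2) (Fin 2) k)
    (r : GQ →* Matrix (Fin 2) (Fin 2) (DualNumber k)) (hr : IsOpen (r.ker : Set GQ))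
    (hfst : ∀ σ, (r σ).map fst = rb σ)
    (hram : ∃ σ ∈ A.inertiaSubgroupIn ℚ, rb σ ≠ 1)
    (huni : ∀ σ ∈ A.inertiaSubgroupIn ℚ, (r σ).trace = 2 ∧ (r σ).det = 1) :
    ∃ m : Matrix (Fin 2) (Fin 2) k, m.trace = 0 ∧ ∀ σ ∈ A.inertiaSubgroupIn ℚ,
      (r σ).map snd = rb σ * m - m * rb σ := by
  have hp : p.Prime := Fact.out
  have h2 : (2 : k) ≠ 0 := fun h0 => hp2 ((Nat.prime_dvd_prime_iff_eq hp Nat.prime_two).mp
    ((CharP.cast_eq_zero_iff k p 2).mp (by exact_mod_cast h0)))
  have hpk : ((p : DualNumber k)) = 0 := by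
    rw [← map_natCast (inlHom k k) p, CharP.cast_eq_zero, map_zero]
  have hCH : ∀ σ ∈ A.inertiaSubgroupIn ℚ, (r σ - 1) * (r σ - 1) = 0 := by
    intro σ hσ
    obtain ⟨ht, hd⟩ := huni σ hσ
    rw [Matrix.trace_fin_two] at ht
    rw [Matrix.det_fin_two] at hd
    refine Matrix.ext fun i j => ?_
    fin_cases i <;> fin_cases j <;> simp [Matrix.mul_apply, Fin.sum_univ_two]
    · linear_combination r σ 0 0 * ht - hd
    · linear_combination r σ 0 1 * ht
    · linear_combination r σ 1 0 * ht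
    · linear_combination r σ 1 1 * ht - hd
  have hP : ∀ σ ∈ A.inertiaSubgroupIn ℚ, ∃ m : ℕ, r σ ^ p ^ m = 1 := by
    intro σ hσ
    refine ⟨1, ?_⟩
    have key : ∀ i : ℕ, r σ ^ i = 1 + i • (r σ - 1) := by
      intro i
      induction i with
      | zero => simp
      | succ i ih =>
        have hX : (r σ - 1) * r σ = r σ - 1 := by
          have e : (r σ - 1) * r σ = (r σ - 1) * (r σ - 1) + (r σ - 1) := by noncomm_ring
          rw [e, hCH σ hσ, zero_add]
        rw [pow_succ, ih, succ_nsmul, add_mul, one_mul, smul_mul_assoc, hX]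
        abel
    rw [pow_one, key, ← Nat.cast_smul_eq_nsmul (DualNumber k), hpk, zero_smul, add_zero]
  obtain ⟨σ₀, hσ₀, hgen⟩ := exists_gen_inertia_image hp hq hpq hA r hr hP
  have hmapmul : ∀ X Y : Matrix (Fin 2) (Fin 2) (DualNumber k),
      (X * Y).map fst = X.map fst * Y.map fst ∧
        (X * Y).map snd = X.map fst * Y.map snd + X.map snd * Y.map fst := fun X Y => by
    constructor <;> refine Matrix.ext fun i j => ?_ <;>
      simp [Matrix.mul_apply, Fin.sum_univ_two] <;> ring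
  set N0 := rb σ₀ - 1 with hN0
  set N1 := (r σ₀).map snd with hN1
  have hN0ne : N0 ≠ 0 := by
    intro h0
    obtain ⟨σ, hσ, hne⟩ := hram
    obtain ⟨i, hi⟩ := hgen σ hσ
    apply hne
    rw [← hfst, hi, ← map_pow, hfst, map_pow, sub_eq_zero.mp h0, one_pow]
  have hfstsub : (r σ₀ - 1).map fst = N0 := by
    rw [hN0, ← hfst σ₀]
    refine Matrix.ext fun i j => ?_
    rcases eq_or_ne i j with rfl | hne
    · simp
    · simp [Matrix.one_apply_ne hne]
  have hsndsub : (r σ₀ - 1).map snd = N1 := by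
    refine Matrix.ext fun i j => ?_
    rcases eq_or_ne i j with rfl | hne
    · simp [N1]
    · simp [N1, Matrix.one_apply_ne hne]
  obtain ⟨e1, e2⟩ := hmapmul (r σ₀ - 1) (r σ₀ - 1)
  rw [hCH σ₀ hσ₀, hfstsub] at e1
  rw [hCH σ₀ hσ₀, hfstsub, hsndsub] at e2
  have hsq : N0 * N0 = 0 := by
    rw [← e1]
    ext i j
    simp
  have hanti : N0 * N1 + N1 * N0 = 0 := by
    rw [← e2]
    ext i j
    simp
  obtain ⟨F, hF⟩ : ∃ F : Matrix (Fin 2) (Fin 2) k, N0 * F + F * N0 = 1 := by
    have htr : N0 0 0 + N0 1 1 = 0 := by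
      have := congrArg fst (huni σ₀ hσ₀).1
      rw [Matrix.trace_fin_two, fst_add] at this
      rw [hN0, ← hfst σ₀]
      simp only [Matrix.sub_apply, Matrix.map_apply, Matrix.one_apply_eq]
      rw [show ((2 : DualNumber k)).fst = (2 : k) from map_ofNat (fstHom k k k) 2] at this
      linear_combination this
    by_cases h01 : N0 0 1 = 0
    · have h00 : N0 0 0 = 0 := by
        have := congrFun (congrFun hsq 0) 0
        simp [Matrix.mul_apply, Fin.sum_univ_two, h01] at this
        exact this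
      have h11 : N0 1 1 = 0 := by linear_combination htr - h00
      have h10 : N0 1 0 ≠ 0 := fun h10 => hN0ne (Matrix.ext fun i j => by
        fin_cases i <;> fin_cases j <;> assumption)
      refine ⟨!![0, (N0 1 0)⁻¹; 0, 0], Matrix.ext fun i j => ?_⟩
      fin_cases i <;> fin_cases j <;>
        simp [Matrix.mul_apply, Matrix.vecMul, dotProduct, Fin.sum_univ_two, h01, h00, h11, h10]
    · refine ⟨!![0, 0; (N0 0 1)⁻¹, 0], Matrix.ext fun i j => ?_⟩
      fin_cases i <;> fin_cases j <;>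
        simp [Matrix.mul_apply, Matrix.vecMul, dotProduct, Fin.sum_univ_two, h01]
      · linear_combination (N0 0 1)⁻¹ * htr
  set m₀ := F * N1 with hm₀
  have hm : N1 = N0 * m₀ - m₀ * N0 := by
    calc N1 = (N0 * F + F * N0) * N1 := by rw [hF, Matrix.one_mul]
      _ = N0 * (F * N1) + F * (N0 * N1) := by
          rw [Matrix.add_mul, Matrix.mul_assoc, Matrix.mul_assoc]
      _ = N0 * (F * N1) - F * N1 * N0 := by
          rw [eq_neg_of_add_eq_zero_left hanti, Matrix.mul_neg, ← sub_eq_add_neg, Matrix.mul_assoc]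
  refine ⟨m₀ - (m₀.trace / 2) • 1, ?_, fun σ hσ => ?_⟩
  · rw [Matrix.trace_sub, Matrix.trace_smul, Matrix.trace_one, Fintype.card_fin, smul_eq_mul]
    push_cast
    field_simp
    ring
  · set m := m₀ - (m₀.trace / 2) • (1 : Matrix (Fin 2) (Fin 2) k)
    have hbase : (r σ₀).map snd = rb σ₀ * m - m * rb σ₀ := by
      rw [← hN1, hm, hN0]
      simp only [m, sub_mul, mul_sub, one_mul, mul_one, Matrix.smul_mul, Matrix.mul_smul]
      abel
    obtain ⟨i, hi⟩ := hgen σ hσ
    have hpow : ∀ i : ℕ, (r σ₀ ^ i).map snd = rb (σ₀ ^ i) * m - m * rb (σ₀ ^ i) := by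
      intro i
      induction i with
      | zero =>
        rw [pow_zero, pow_zero, map_one, Matrix.one_mul, Matrix.mul_one, sub_self]
        refine Matrix.ext fun a b => ?_
        rcases eq_or_ne a b with rfl | hne
        · simp
        · simp [Matrix.one_apply_ne hne]
      | succ i ih =>
        rw [pow_succ, (hmapmul _ _).2, ih, ← map_pow, hfst, hfst, hbase, pow_succ, map_mul]
        simp only [mul_sub, sub_mul, Matrix.mul_assoc]
        abel
    rw [hi, hpow, ← hfst σ, hi, ← map_pow, hfst]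

end Unipotent

end FA.TW
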