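import Mathlib.LinearAlgebra.Matrix.Trace
import Mathlib.LinearAlgebra.Matrix.NonsingularInverse
import Mathlib.LinearAlgebra.Matrix.Notation
import Mathlib.LinearAlgebra.Matrix.ToLinearEquiv
import Mathlib.LinearAlgebra.Dual.Lemmas
import Mathlib.FieldTheory.IsAlgClosed.Basic
import Mathlib.LinearAlgebra.Dimension.Constructions
import Mathlib.GroupTheory.Index

/-!
# Irreducibility lemmas for two-dimensional representations which are not dihedral
-/

set_option autoImplicit false

noncomputable section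

open Matrix

namespace FA.TW

local notation "M2" => Matrix (Fin 2) (Fin 2)

variable {L : Type*} [Field L] {G : Type*} [Group G] (ρ : G →* M2 L)

/-- No element of `v ≠ 0` is a common eigenvector of `H`. -/
def NoLine (H : Subgroup G) : Prop :=
  ∀ v : Fin 2 → L, v ≠ 0 → ∃ h ∈ H, ∀ c : L, ρ h *ᵥ v ≠ c • v

/-- Irreducible and not induced from an index two subgroup. -/
structure IsBig : Prop where
  top : NoLine ρ ⊤
  index_two : ∀ H : Subgroup G, H.index = 2 → NoLine ρ H

variable {ρ}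

theorem inv_mulVec_mulVec (g : G) (v : Fin 2 → L) : ρ g⁻¹ *ᵥ (ρ g *ᵥ v) = v := by
  rw [Matrix.mulVec_mulVec, ← map_mul, inv_mul_cancel, map_one, Matrix.one_mulVec]

theorem mulVec_ne_zero (g : G) {v : Fin 2 → L} (hv : v ≠ 0) : ρ g *ᵥ v ≠ 0 := fun h => hv (by
  rw [← inv_mulVec_mulVec (ρ := ρ) g v, h, Matrix.mulVec_zero])

variable [IsAlgClosed L]

omit [Group G] in
theorem exists_eigenvector (M : M2 L) : ∃ (c : L) (v : Fin 2 → L), v ≠ 0 ∧ M *ᵥ v = c • v := by
  obtain ⟨c, hc⟩ := IsAlgClosed.exists_root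
    (Polynomial.C 1 * Polynomial.X ^ 2 + Polynomial.C (-(M 0 0 + M 1 1)) * Polynomial.X +
      Polynomial.C (M 0 0 * M 1 1 - M 0 1 * M 1 0))
    (by rw [Polynomial.degree_quadratic one_ne_zero]; exact two_ne_zero)
  have hdet : (M - c • 1).det = 0 := by
    simp [det_fin_two] at hc ⊢
    linear_combination hc
  obtain ⟨v, hv, hMv⟩ := Matrix.exists_mulVec_eq_zero_iff.mpr hdet
  refine ⟨c, v, hv, ?_⟩
  rwa [Matrix.sub_mulVec, Matrix.smul_mulVec, Matrix.one_mulVec, sub_eq_zero] at hMv

omit [IsAlgClosed L] [Group G] in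
/-- A matrix which is not scalar has one-dimensional eigenspaces. -/
theorem eigen_line {M : M2 L} (hM : ∀ a : L, M ≠ a • 1) {c : L} {v w : Fin 2 → L} (hv : v ≠ 0)
    (hMv : M *ᵥ v = c • v) (hMw : M *ᵥ w = c • w) : ∃ a : L, w = a • v := by
  by_cases hd : v 0 * w 1 - v 1 * w 0 = 0
  · by_cases h0 : v 0 = 0
    · have h1 : v 1 ≠ 0 := fun h1 => hv (funext fun i => by fin_cases i <;> assumption)
      refine ⟨w 1 / v 1, funext fun i => ?_⟩
      fin_cases i
      · show w 0 = w 1 / v 1 * v 0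
        rw [h0] at hd ⊢
        rw [zero_mul, zero_sub, neg_eq_zero] at hd
        rw [mul_zero, (mul_eq_zero.mp hd).resolve_left h1]
      · show w 1 = w 1 / v 1 * v 1
        field_simp
    · refine ⟨w 0 / v 0, funext fun i => ?_⟩
      fin_cases i
      · show w 0 = w 0 / v 0 * v 0
        field_simp
      · show w 1 = w 0 / v 0 * v 1
        field_simp
        linear_combination hd
  · exfalso
    apply hM c
    have a0 := congrFun hMv 0
    have a1 := congrFun hMv 1
    have b0 := congrFun hMw 0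
    have b1 := congrFun hMw 1
    simp [Matrix.mulVec, dotProduct, Fin.sum_univ_two] at a0 a1 b0 b1
    have h00 : M 0 0 = c := mul_right_cancel₀ hd (by linear_combination w 1 * a0 - v 1 * b0)
    have h01 : M 0 1 = 0 := mul_right_cancel₀ hd (by linear_combination v 0 * b0 - w 0 * a0)
    have h10 : M 1 0 = 0 := mul_right_cancel₀ hd (by linear_combination w 1 * a1 - v 1 * b1)
    have h11 : M 1 1 = c := mul_right_cancel₀ hd (by linear_combination v 0 * b1 - w 0 * a1)
    ext i j
    fin_cases i <;> fin_cases j <;> simp [h00, h01, h10, h11]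

/-- The adjoint representation has no stable line. -/
theorem IsBig.no_adjoint_line (hb : IsBig ρ) (h2 : (2 : L) ≠ 0) {X : M2 L} (hX : X ≠ 0)
    (htr : X.trace = 0) : ¬ ∀ g, ∃ c : L, ρ g * X = c • (X * ρ g) := by
  intro hst
  have hsq : X * X = (-X.det) • (1 : M2 L) := by
    rw [Matrix.trace_fin_two] at htr
    ext i j
    fin_cases i <;> fin_cases j <;>
      simp [Matrix.mul_apply, Fin.sum_univ_two, Matrix.det_fin_two, eq_neg_of_add_eq_zero_right htr] <;>
      ring
  have hns : ∀ a : L, X ≠ a • 1 := fun a ha => hX (by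
    rw [ha, Matrix.trace_smul, Matrix.trace_one, Fintype.card_fin, smul_eq_mul] at htr
    rw [ha, (mul_eq_zero.mp htr).resolve_right (by exact_mod_cast h2), zero_smul])
  obtain ⟨μ, v, hv, hμ⟩ := exists_eigenvector X
  have hμ2 : μ ^ 2 = -X.det := by
    have : (X * X) *ᵥ v = (μ ^ 2) • v := by
      rw [← Matrix.mulVec_mulVec, hμ, Matrix.mulVec_smul, hμ, smul_smul, sq]
    rw [hsq, Matrix.smul_mulVec, Matrix.one_mulVec] at this
    exact (smul_left_injective L hv this).symm
  choose c hc using hst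
  have hmove : ∀ g, c g • (X *ᵥ (ρ g *ᵥ v)) = μ • (ρ g *ᵥ v) := fun g => by
    rw [Matrix.mulVec_mulVec, ← Matrix.smul_mulVec, ← hc, ← Matrix.mulVec_mulVec, hμ,
      Matrix.mulVec_smul]
  by_cases hμ0 : μ = 0
  · -- nilpotent: the kernel is stable
    obtain ⟨g, -, hg⟩ := hb.top v hv
    have hcg : c g ≠ 0 := fun h0 => hX (by
      have h := hc g
      rw [h0, zero_smul] at h
      have := congrArg (ρ g⁻¹ * ·) h
      simpa [← Matrix.mul_assoc, ← map_mul] using this)
    have h := hmove g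
    rw [hμ0, zero_smul, smul_eq_zero] at h
    obtain ⟨a, ha⟩ := eigen_line hns hv hμ
      (show X *ᵥ (ρ g *ᵥ v) = μ • (ρ g *ᵥ v) by rw [h.resolve_left hcg, hμ0, zero_smul])
    exact hg a ha
  have hc2 : ∀ g, c g = 1 ∨ c g = -1 := fun g => by
    have h := congrArg Matrix.det (hc g)
    rw [Matrix.det_mul, Matrix.det_smul, Matrix.det_mul, Fintype.card_fin] at h
    have hdg : (ρ g).det ≠ 0 := fun h0 => one_ne_zero (α := L) (by
      rw [← Matrix.det_one (R := L) (n := Fin 2), ← ρ.map_one, ← mul_inv_cancel g, map_mul,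
        Matrix.det_mul, h0, zero_mul])
    have hdX : X.det ≠ 0 := fun h0 => hμ0 (by
      rw [h0, neg_zero] at hμ2; exact eq_zero_of_pow_eq_zero hμ2)
    exact sq_eq_one_iff.mp (mul_right_cancel₀ (mul_ne_zero hdX hdg) (by linear_combination -h))
  have hone : ∀ g, c g = 1 → ∃ a : L, ρ g *ᵥ v = a • v := fun g hg => by
    have h := hmove g
    rw [hg, one_smul] at h
    exact eigen_line hns hv hμ h
  let K : Subgroup G :=
    { carrier := {g | ρ g * X = X * ρ g}
      one_mem' := by simp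
      mul_mem' := fun {a b} ha hb' => by
        show ρ (a * b) * X = X * ρ (a * b)
        rw [map_mul, Matrix.mul_assoc, (hb' : ρ b * X = X * ρ b), ← Matrix.mul_assoc,
          (ha : ρ a * X = X * ρ a), Matrix.mul_assoc]
      inv_mem' := fun {a} ha => by
        show ρ a⁻¹ * X = X * ρ a⁻¹
        calc ρ a⁻¹ * X = ρ a⁻¹ * X * (ρ a * ρ a⁻¹) := by
              rw [← map_mul, mul_inv_cancel, map_one, Matrix.mul_one]
          _ = ρ a⁻¹ * (X * ρ a) * ρ a⁻¹ := by simp only [Matrix.mul_assoc]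
          _ = _ := by
            rw [← (ha : ρ a * X = X * ρ a), ← Matrix.mul_assoc, ← map_mul, inv_mul_cancel, map_one,
              Matrix.one_mul] }
  have hKiff : ∀ g, g ∈ K ↔ c g = 1 := fun g => by
    refine ⟨fun hg => (hc2 g).resolve_right fun hneg => ?_, fun hg => by
      show ρ g * X = X * ρ g; rw [hc g, hg, one_smul]⟩
    have h1 : ρ g * X = -(ρ g * X) := by
      conv_lhs => rw [hc g, hneg, neg_one_smul, ← (hg : ρ g * X = X * ρ g)]
    have h2' : (2 : L) • (ρ g * X) = 0 := by rw [two_smul]; nth_rw 1 [h1]; rw [neg_add_cancel]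
    refine hX ?_
    have := congrArg (ρ g⁻¹ * ·) ((smul_eq_zero.mp h2').resolve_left h2)
    simpa [← Matrix.mul_assoc, ← map_mul] using this
  by_cases hall : ∀ g, c g = 1
  · obtain ⟨g, -, hg⟩ := hb.top v hv
    obtain ⟨a, ha⟩ := hone g (hall g)
    exact hg a ha
  push Not at hall
  obtain ⟨g₀, hg₀⟩ := hall
  have hidx : K.index = 2 := by
    rw [Subgroup.index_eq_two_iff]
    refine ⟨g₀, fun b => ?_⟩
    have hneg := (hc2 g₀).resolve_left hg₀
    rcases hc2 b with h | h
    · refine Or.inr ⟨(hKiff b).mpr h, fun hbg => hg₀ ((hKiff g₀).mp ?_)⟩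
      simpa using K.mul_mem (K.inv_mem ((hKiff b).mpr h)) hbg
    · refine Or.inl ⟨?_, fun hbK => ?_⟩
      · show ρ (b * g₀) * X = X * ρ (b * g₀)
        rw [map_mul, Matrix.mul_assoc, hc g₀, Matrix.mul_smul, ← Matrix.mul_assoc, hc b,
          Matrix.smul_mul, smul_smul, hneg, h, Matrix.mul_assoc]
        simp
      · have h1 := (hKiff b).mp hbK
        rw [h] at h1
        exact h2 (by linear_combination -h1)
  obtain ⟨g, hgK, hg⟩ := hb.index_two K hidx v hv
  obtain ⟨a, ha⟩ := hone g ((hKiff g).mp hgK)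
  exact hg a ha

/-- A normal subgroup with abelian quotient acts irreducibly. -/
theorem IsBig.noLine_of_commutator (hb : IsBig ρ) (h2 : (2 : L) ≠ 0) (H : Subgroup G) [H.Normal]
    (hcomm : ∀ a b : G, a * b * a⁻¹ * b⁻¹ ∈ H) : NoLine ρ H := by
  intro v hv
  by_contra hcon
  push Not at hcon
  choose c hc using hcon
  by_cases hscal : ∀ h ∈ H, ∃ a : L, ρ h = a • 1
  · -- scalars: commutators are `±1`
    have hcc : ∀ a b : G, ∃ e : L, ρ a * ρ b = e • (ρ b * ρ a) := fun a b => by
      obtain ⟨e, he⟩ := hscal _ (hcomm a b)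
      refine ⟨e, ?_⟩
      rw [← Matrix.one_mul (ρ b * ρ a), ← Matrix.smul_mul, ← he, ← map_mul, ← map_mul, ← map_mul]
      congr 1
      group
    obtain ⟨w, hw, hw'⟩ : ∃ w : G, (∀ a : L, ρ w ≠ a • 1) ∧ True := by
      by_contra hall
      push Not at hall
      obtain ⟨g, -, hg⟩ := hb.top v hv
      obtain ⟨a, ha⟩ : ∃ a : L, ρ g = a • 1 := by
        by_contra hna; push Not at hna; exact hall g hna
      exact hg a (by rw [ha, Matrix.smul_mulVec, Matrix.one_mulVec])
    by_cases hall : ∀ g, ρ g * ρ w = ρ w * ρ g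
    · obtain ⟨μ, x, hx, hμ⟩ := exists_eigenvector (ρ w)
      obtain ⟨g, -, hg⟩ := hb.top x hx
      obtain ⟨a, ha⟩ := eigen_line hw hx hμ (show ρ w *ᵥ (ρ g *ᵥ x) = μ • (ρ g *ᵥ x) by
        rw [Matrix.mulVec_mulVec, ← hall, ← Matrix.mulVec_mulVec, hμ, Matrix.mulVec_smul])
      exact hg a ha
    push Not at hall
    obtain ⟨g, hg⟩ := hall
    obtain ⟨e, he⟩ := hcc g w
    have htr : (ρ w).trace = 0 := by
      have h1 : ρ g * ρ w * ρ g⁻¹ = e • ρ w := by
        rw [he, Matrix.smul_mul, Matrix.mul_assoc, ← map_mul ρ g, mul_inv_cancel, map_one,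
          Matrix.mul_one]
      have h3 := congrArg Matrix.trace h1
      rw [Matrix.trace_mul_cycle, ← map_mul, inv_mul_cancel, map_one, Matrix.one_mul,
        Matrix.trace_smul, smul_eq_mul] at h3
      by_contra h0
      exact hg (by rw [he, mul_right_cancel₀ h0 (by linear_combination -h3 : e * (ρ w).trace = 1 * (ρ w).trace), one_smul])
    exact hb.no_adjoint_line h2 (fun h0 => hw 0 (by rw [h0, zero_smul])) htr fun g => hcc g w
  push Not at hscal
  obtain ⟨h₀, hh₀, hns⟩ := hscal
  -- translates of `v` are still common eigenvectors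
  have hconj : ∀ g : G, ∀ h ∈ H, ∃ a : L, ρ h *ᵥ (ρ g *ᵥ v) = a • (ρ g *ᵥ v) := fun g h hh => by
    refine ⟨c (g⁻¹ * h * g) (by simpa using (inferInstance : H.Normal).conj_mem h hh g⁻¹), ?_⟩
    rw [← Matrix.mulVec_smul, ← hc, Matrix.mulVec_mulVec, Matrix.mulVec_mulVec, ← map_mul,
      ← map_mul]
    congr 2
    group
  obtain ⟨g₁, -, hg₁⟩ := hb.top v hv
  set v' := ρ g₁ *ᵥ v
  have hv' : v' ≠ 0 := mulVec_ne_zero g₁ hv
  obtain ⟨b, hb'⟩ := hconj g₁ h₀ hh₀
  have hne : c h₀ hh₀ ≠ b := fun h => by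
    obtain ⟨a, ha⟩ := eigen_line hns hv (hc h₀ hh₀) (h ▸ hb')
    exact hg₁ a ha
  -- every translate is on one of the two lines
  have htwo : ∀ g, (∃ a : L, ρ g *ᵥ v = a • v) ∨ (∃ a : L, ρ g *ᵥ v = a • v') := fun g => by
    obtain ⟨e, he⟩ := hconj g h₀ hh₀
    by_cases h1 : e = c h₀ hh₀
    · exact Or.inl (eigen_line hns hv (hc h₀ hh₀) (h1 ▸ he))
    refine Or.inr (eigen_line hns hv' hb' ?_)
    -- a nonzero vector cannot have a third eigenvalue
    suffices h3 : e = b by rw [← h3]; exact he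
    by_contra h3
    have hx := mulVec_ne_zero (ρ := ρ) g hv
    have key : ∀ (u : Fin 2 → L) (t : L), u ≠ 0 → ρ h₀ *ᵥ u = t • u →
        t ^ 2 - (ρ h₀).trace * t + (ρ h₀).det = 0 := by
      intro u t hu hut
      have hd : (ρ h₀ - t • 1).det = 0 := Matrix.exists_mulVec_eq_zero_iff.mp
        ⟨u, hu, by rw [Matrix.sub_mulVec, Matrix.smul_mulVec, Matrix.one_mulVec, hut, sub_self]⟩
      simp [Matrix.det_fin_two, Matrix.trace_fin_two] at hd ⊢
      linear_combination hd
    have e1 := key v _ hv (hc h₀ hh₀)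
    have e2 := key v' _ hv' hb'
    have e3 := key _ _ hx he
    have s1 : c h₀ hh₀ + b = (ρ h₀).trace :=
      mul_left_cancel₀ (sub_ne_zero.mpr hne) (by linear_combination e1 - e2)
    have : (e - c h₀ hh₀) * (e - b) = 0 := by
      linear_combination e3 - e1 + (c h₀ hh₀ - e) * s1
    rcases mul_eq_zero.mp this with h | h
    · exact h1 (sub_eq_zero.mp h)
    · exact h3 (sub_eq_zero.mp h)
  have hindep : ∀ a₁ a₂ : L, a₁ • v = a₂ • v' → a₂ = 0 := fun a₁ a₂ h => by
    by_contra h0
    exact hg₁ (a₂⁻¹ * a₁) (by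
      show v' = _
      rw [mul_smul, h, inv_smul_smul₀ h0])
  let K : Subgroup G :=
    { carrier := {g | ∃ a : L, ρ g *ᵥ v = a • v}
      one_mem' := ⟨1, by simp⟩
      mul_mem' := fun {a b} ⟨x, hx⟩ ⟨y, hy⟩ => ⟨y * x, by
        rw [map_mul, ← Matrix.mulVec_mulVec, hy, Matrix.mulVec_smul, hx, smul_smul]⟩
      inv_mem' := fun {a} ⟨x, hx⟩ => by
        have h := congrArg (ρ a⁻¹ *ᵥ ·) hx
        simp only [inv_mulVec_mulVec, Matrix.mulVec_smul] at h
        have hx0 : x ≠ 0 := fun h0 => hv (by rw [h, h0, zero_smul])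
        exact ⟨x⁻¹, by nth_rw 2 [h]; rw [inv_smul_smul₀ hx0]⟩ }
  have hnot : ∀ g, g ∉ K → ∃ a : L, a ≠ 0 ∧ ρ g *ᵥ v = a • v' := fun g hg => by
    obtain ⟨a, ha⟩ := (htwo g).resolve_left hg
    exact ⟨a, fun h0 => mulVec_ne_zero g hv (by rw [ha, h0, zero_smul]), ha⟩
  have hidx : K.index = 2 := by
    rw [Subgroup.index_eq_two_iff]
    refine ⟨g₁, fun g => ?_⟩
    by_cases hgK : g ∈ K
    · refine Or.inr ⟨hgK, fun hmem => ?_⟩
      obtain ⟨a, ha⟩ : g₁ ∈ K := by simpa using K.mul_mem (K.inv_mem hgK) hmem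
      exact hg₁ a ha
    refine Or.inl ⟨?_, hgK⟩
    rcases htwo (g * g₁) with h | ⟨a, ha⟩
    · exact h
    exfalso
    obtain ⟨a', ha'0, ha'⟩ := hnot g hgK
    -- `g v` and `g v'` would both lie on the line of `v'`
    rw [map_mul, ← Matrix.mulVec_mulVec] at ha
    have h4 : ρ g *ᵥ (a' • v' - a • v) = 0 := by
      show ρ g *ᵥ (a' • v' - a • v) = 0
      rw [Matrix.mulVec_sub, Matrix.mulVec_smul, Matrix.mulVec_smul, ha, ha', smul_smul, smul_smul,
        mul_comm, sub_self]
    have h5 : a' • v' - a • v = 0 := by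
      by_contra h0; exact mulVec_ne_zero g h0 h4
    exact ha'0 (hindep a a' (sub_eq_zero.mp h5).symm)
  obtain ⟨g, ⟨a, ha⟩, hg⟩ := hb.index_two K hidx v hv
  exact hg a ha

/-- Irreducible groups contain elements with distinct eigenvalues. -/
theorem exists_regular (h2 : (2 : L) ≠ 0) (H : Subgroup G) (hH : NoLine ρ H) :
    ∃ h ∈ H, (ρ h).trace ^ 2 ≠ 4 * (ρ h).det := by
  by_contra hcon
  push Not at hcon
  obtain ⟨g, hgH, hg⟩ : ∃ g ∈ H, ∀ a : L, ρ g ≠ a • 1 := by
    by_contra hall
    push Not at hall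
    obtain ⟨g, hgH, hg⟩ := hH ![1, 0] (by simp)
    obtain ⟨a, ha⟩ := hall g hgH
    exact hg a (by rw [ha, Matrix.smul_mulVec, Matrix.one_mulVec])
  set a := (ρ g).trace / 2
  set M := ρ g - a • (1 : M2 L)
  have hMtr : M.trace = 0 := by
    simp only [M, a, Matrix.trace_sub, Matrix.trace_smul, Matrix.trace_one, Fintype.card_fin,
      smul_eq_mul]
    push_cast
    field_simp
    ring
  have hg2 := hcon g hgH
  have hMdet : M.det = 0 := by
    have e : M.det = (ρ g).det - a ^ 2 := by
      simp only [M, a, Matrix.det_fin_two, Matrix.sub_apply, Matrix.smul_apply, Matrix.one_apply_eq,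
        Matrix.one_apply_ne (show (0 : Fin 2) ≠ 1 by decide),
        Matrix.one_apply_ne (show (1 : Fin 2) ≠ 0 by decide), smul_eq_mul, Matrix.trace_fin_two]
      field_simp
      ring
    rw [e]
    simp only [a]
    field_simp
    linear_combination -hg2
  obtain ⟨μ, v, hv, hMv⟩ : ∃ μ : L, ∃ v : Fin 2 → L, v ≠ 0 ∧ M *ᵥ v = μ • v := exists_eigenvector M
  have hMns : ∀ b : L, M ≠ b • 1 := fun b hb => hg (a + b) (by
    rw [add_smul, ← hb]; simp [M])
  have hμ : μ = 0 := by
    have hM2 : M * M = 0 := by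
      rw [Matrix.trace_fin_two] at hMtr
      rw [Matrix.det_fin_two] at hMdet
      ext i j
      fin_cases i <;> fin_cases j <;>
        simp [Matrix.mul_apply, Fin.sum_univ_two, eq_neg_of_add_eq_zero_right hMtr] at hMdet ⊢ <;>
        first | linear_combination -hMdet | linear_combination hMdet | ring
    have : (μ * μ) • v = 0 := by
      rw [mul_smul, ← hMv, ← Matrix.mulVec_smul, ← hMv, Matrix.mulVec_mulVec, hM2,
        Matrix.zero_mulVec]
    exact mul_self_eq_zero.mp ((smul_eq_zero.mp this).resolve_right hv)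
  obtain ⟨h, hhH, hh⟩ := hH v hv
  set M' := ρ h * M * ρ h⁻¹
  have hg' : ρ (h * g * h⁻¹) = a • 1 + M' := by
    rw [map_mul, map_mul, show ρ g = a • 1 + M by simp [M], Matrix.mul_add, Matrix.add_mul,
      Matrix.mul_smul, Matrix.mul_one, Matrix.smul_mul, ← map_mul, mul_inv_cancel, map_one]
  have hM'tr : M'.trace = 0 := by
    rw [Matrix.trace_mul_cycle, ← map_mul, inv_mul_cancel, map_one, Matrix.one_mul, hMtr]
  have hM'det : M'.det = 0 := by rw [Matrix.det_mul, Matrix.det_mul, hMdet, mul_zero, zero_mul]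
  have ha0 : a ≠ 0 := fun h0 => by
    have h1 : (ρ g).det = 0 := by
      rw [show ρ g = M by simp [M, h0], hMdet]
    exact one_ne_zero (α := L) (by
      rw [← Matrix.det_one (R := L) (n := Fin 2), ← ρ.map_one, ← mul_inv_cancel g, map_mul,
        Matrix.det_mul, h1, zero_mul])
  -- trace of the products
  have key : ∀ s : L, s ≠ 0 → ∀ x ∈ H, ρ x = s • (1 : M2 L) + (s / a) • M →
      ∀ y ∈ H, ρ y = a • (1 : M2 L) + M' → (s / a) * (M * M').trace = 0 ∨
        (s / a) * (M * M').trace = -4 * s * a := by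
    intro s hs x hx hxM y hy hyM
    have h1 := hcon (x * y) (H.mul_mem hx hy)
    have hdet : (ρ (x * y)).det = s ^ 2 * a ^ 2 := by
      rw [map_mul, Matrix.det_mul, hxM, hyM]
      have e : ∀ (t r : L) (N : M2 L), N.trace = 0 → N.det = 0 →
          (t • (1 : M2 L) + r • N).det = t ^ 2 := fun t r N hN hN' => by
        rw [Matrix.trace_fin_two] at hN
        rw [Matrix.det_fin_two] at hN'
        simp [Matrix.det_fin_two]
        linear_combination r ^ 2 * hN' + t * r * hN
      have e' := e a 1 M' hM'tr hM'det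
      rw [one_smul] at e'
      rw [e s _ M hMtr hMdet, e']
    have htr : (ρ (x * y)).trace = 2 * (s * a) + (s / a) * (M * M').trace := by
      rw [map_mul, hxM, hyM]
      simp only [Matrix.add_mul, Matrix.mul_add, Matrix.smul_mul, Matrix.one_mul, Matrix.mul_smul,
        Matrix.mul_one, Matrix.trace_add, Matrix.trace_smul, Matrix.trace_one, Fintype.card_fin,
        hMtr, hM'tr, smul_eq_mul]
      push_cast
      ring
    rw [htr, hdet] at h1
    have : ((s / a) * (M * M').trace) * ((s / a) * (M * M').trace + 4 * s * a) = 0 := by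
      linear_combination h1
    rcases mul_eq_zero.mp this with h | h
    · exact Or.inl h
    · exact Or.inr (by linear_combination h)
  have hyH : h * g * h⁻¹ ∈ H := H.mul_mem (H.mul_mem hhH hgH) (H.inv_mem hhH)
  have k1 := key a ha0 g hgH (by rw [div_self ha0, one_smul]; simp [M]) _ hyH hg'
  have hg2' : ρ (g * g) = (a ^ 2) • (1 : M2 L) + (2 * a) • M := by
    have hM2 : M * M = 0 := by
      rw [Matrix.trace_fin_two] at hMtr
      rw [Matrix.det_fin_two] at hMdet
      ext i j
      fin_cases i <;> fin_cases j <;>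
        simp [Matrix.mul_apply, Fin.sum_univ_two, eq_neg_of_add_eq_zero_right hMtr] at hMdet ⊢ <;>
        first | linear_combination -hMdet | linear_combination hMdet | ring
    rw [map_mul, show ρ g = a • (1 : M2 L) + M by simp [M]]
    simp only [Matrix.add_mul, Matrix.mul_add, Matrix.smul_mul, Matrix.one_mul, Matrix.mul_smul,
      Matrix.mul_one, hM2]
    ext i j
    simp only [Matrix.add_apply, Matrix.smul_apply, Matrix.zero_apply, smul_eq_mul]
    ring
  have hgg : (ρ (g * g)) = (a ^ 2) • (1 : M2 L) + (a ^ 2 / (a / 2)) • M := by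
    rw [hg2', show a ^ 2 / (a / 2) = 2 * a by field_simp]
  -- so the trace of `M M'` vanishes
  have ht : (M * M').trace = 0 := by
    by_contra ht
    have k1' : (M * M').trace = -4 * a ^ 2 := by
      rcases k1 with h | h
      · rw [div_self ha0, one_mul] at h; exact absurd h ht
      · rw [div_self ha0, one_mul] at h; rw [h]; ring
    have h1 := hcon (g * g * (h * g * h⁻¹)) (H.mul_mem (H.mul_mem hgH hgH) hyH)
    rw [map_mul, hg2', hg', Matrix.det_mul] at h1
    have e : ∀ (t r : L) (N : M2 L), N.trace = 0 → N.det = 0 →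
        (t • (1 : M2 L) + r • N).det = t ^ 2 := fun t r N hN hN' => by
      rw [Matrix.trace_fin_two] at hN
      rw [Matrix.det_fin_two] at hN'
      simp [Matrix.det_fin_two]
      linear_combination r ^ 2 * hN' + t * r * hN
    have e' := e a 1 M' hM'tr hM'det
    rw [one_smul] at e'
    rw [e _ _ M hMtr hMdet, e'] at h1
    simp only [Matrix.add_mul, Matrix.mul_add, Matrix.smul_mul, Matrix.one_mul, Matrix.mul_smul,
      Matrix.mul_one, Matrix.trace_add, Matrix.trace_smul, Matrix.trace_one, Fintype.card_fin,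
      hMtr, hM'tr, smul_eq_mul, k1'] at h1
    push_cast at h1
    have : (2 : L) ^ 5 * a ^ 6 = 0 := by linear_combination h1
    exact mul_ne_zero (pow_ne_zero 5 h2) (pow_ne_zero 6 ha0) this
  -- hence `h` stabilises the kernel of `M`
  have hMM' : M * M' = 0 := by
    rw [Matrix.trace_fin_two] at hMtr hM'tr ht
    rw [Matrix.det_fin_two] at hMdet hM'det
    simp only [Matrix.mul_apply, Fin.sum_univ_two] at ht
    rw [eq_neg_of_add_eq_zero_right hMtr, eq_neg_of_add_eq_zero_right hM'tr] at ht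
    rw [eq_neg_of_add_eq_zero_right hMtr] at hMdet
    rw [eq_neg_of_add_eq_zero_right hM'tr] at hM'det
    have o1 : (M * M') 0 1 = 0 := mul_self_eq_zero.mp (by
      simp only [Matrix.mul_apply, Fin.sum_univ_two, eq_neg_of_add_eq_zero_right hM'tr]
      linear_combination (-(M' 0 1 ^ 2)) * hMdet + (-(M 0 1 ^ 2)) * hM'det - M 0 1 * M' 0 1 * ht)
    have o2 : (M * M') 1 0 = 0 := mul_self_eq_zero.mp (by
      simp only [Matrix.mul_apply, Fin.sum_univ_two, eq_neg_of_add_eq_zero_right hMtr]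
      linear_combination (-(M' 1 0 ^ 2)) * hMdet + (-(M 1 0 ^ 2)) * hM'det - M 1 0 * M' 1 0 * ht)
    have hdet0 : (M * M').det = 0 := by
      rw [Matrix.det_mul, show M.det = 0 by rw [Matrix.det_fin_two, eq_neg_of_add_eq_zero_right hMtr]; exact hMdet, zero_mul]
    have htr0 : (M * M') 0 0 + (M * M') 1 1 = 0 := by
      simp only [Matrix.mul_apply, Fin.sum_univ_two, eq_neg_of_add_eq_zero_right hMtr,
        eq_neg_of_add_eq_zero_right hM'tr]
      linear_combination ht
    rw [Matrix.det_fin_two, o1, o2, mul_zero, sub_zero, eq_neg_of_add_eq_zero_right htr0] at hdet0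
    have d0 : (M * M') 0 0 = 0 := mul_self_eq_zero.mp (by linear_combination -hdet0)
    ext i j
    fin_cases i <;> fin_cases j <;> simp [o1, o2, d0, eq_neg_of_add_eq_zero_right htr0]
  obtain ⟨w, hw⟩ : ∃ w, M *ᵥ w ≠ 0 := by
    by_contra hc
    push Not at hc
    exact hMns 0 (by
      rw [zero_smul]
      exact Matrix.ext_of_mulVec_single fun j => by rw [hc, Matrix.zero_mulVec])
  rw [hμ] at hMv
  obtain ⟨b, hb⟩ := eigen_line hMns hv hMv (show M *ᵥ (M *ᵥ w) = (0 : L) • (M *ᵥ w) by
    rw [zero_smul, Matrix.mulVec_mulVec]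
    rw [Matrix.trace_fin_two] at hMtr
    rw [Matrix.det_fin_two] at hMdet
    have hM2 : M * M = 0 := by
      ext i j
      fin_cases i <;> fin_cases j <;>
        simp [Matrix.mul_apply, Fin.sum_univ_two, eq_neg_of_add_eq_zero_right hMtr] at hMdet ⊢ <;>
        first | linear_combination -hMdet | linear_combination hMdet | ring
    rw [hM2, Matrix.zero_mulVec])
  have hb0 : b ≠ 0 := fun h0 => hw (by rw [hb, h0, zero_smul])
  -- `M (h v) = 0`
  have hMhv : M *ᵥ (ρ h *ᵥ v) = (0 : L) • (ρ h *ᵥ v) := by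
    rw [zero_smul]
    have h1 : (M * M') *ᵥ (ρ h *ᵥ w) = b • (M *ᵥ (ρ h *ᵥ v)) := by
      rw [← Matrix.mulVec_mulVec, show M' *ᵥ (ρ h *ᵥ w) = b • (ρ h *ᵥ v) by
        simp only [M']
        rw [← Matrix.mulVec_mulVec, inv_mulVec_mulVec, ← Matrix.mulVec_mulVec, hb,
          Matrix.mulVec_smul], Matrix.mulVec_smul]
    rw [hMM', Matrix.zero_mulVec, eq_comm, smul_eq_zero] at h1
    exact h1.resolve_left hb0
  obtain ⟨e, he⟩ := eigen_line hMns hv hMv hMhv
  exact hh e he

/-- The adjoint representation pairs nontrivially with regular elements. -/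
theorem IsBig.exists_regular_pairing (hb : IsBig ρ) (h2 : (2 : L) ≠ 0) (H : Subgroup G) [H.Normal]
    (hcomm : ∀ a b : G, a * b * a⁻¹ * b⁻¹ ∈ H) (W : Set (M2 L)) (htr : ∀ w ∈ W, w.trace = 0)
    (hne : ∃ w ∈ W, w ≠ 0)
    (hstab : ∀ g, ∀ w ∈ W, ∃ s : L, s ≠ 0 ∧ s • (ρ g * w * ρ g⁻¹) ∈ W) :
    ∃ h ∈ H, (ρ h).trace ^ 2 ≠ 4 * (ρ h).det ∧ ∃ w ∈ W, (w * ρ h).trace ≠ 0 := by
  classical
  by_contra hcon
  push Not at hcon
  set R := {X : M2 L | ∃ h ∈ H, (ρ h).trace ^ 2 ≠ 4 * (ρ h).det ∧
    X = ρ h - ((ρ h).trace / 2) • (1 : M2 L)}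
  set U := Submodule.span L R
  set Wb := Submodule.span L W
  have hUtr : ∀ X ∈ U, X.trace = 0 := fun X hX => by
    have : U ≤ LinearMap.ker (Matrix.traceLinearMap (Fin 2) L L) := Submodule.span_le.mpr (by
      rintro _ ⟨h, -, -, rfl⟩
      simp [Matrix.trace_sub, Matrix.trace_smul]
      field_simp
      ring)
    exact this hX
  have hWtr : ∀ X ∈ Wb, X.trace = 0 := fun X hX => by
    have : Wb ≤ LinearMap.ker (Matrix.traceLinearMap (Fin 2) L L) :=
      Submodule.span_le.mpr fun w hw => htr w hw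
    exact this hX
  have hpair : ∀ u ∈ R, ∀ w ∈ W, (w * u).trace = 0 := by
    rintro _ ⟨h, hh, hreg, rfl⟩ w hw
    rw [mul_sub, Matrix.trace_sub, hcon h hh hreg w hw, Matrix.mul_smul, Matrix.mul_one,
      Matrix.trace_smul, htr w hw, smul_zero, sub_zero]
  have hperp : ∀ u ∈ U, ∀ w ∈ Wb, (w * u).trace = 0 := by
    intro u hu w hw
    induction hw using Submodule.span_induction with
    | mem w hw =>
      induction hu using Submodule.span_induction with
      | mem u hu => exact hpair u hu w hw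
      | zero => simp
      | add x y _ _ hx hy => rw [mul_add, Matrix.trace_add, hx, hy, add_zero]
      | smul r x _ hx => rw [Matrix.mul_smul, Matrix.trace_smul, hx, smul_zero]
    | zero => simp
    | add x y _ _ hx hy => rw [add_mul, Matrix.trace_add, hx, hy, add_zero]
    | smul r x _ hx => rw [Matrix.smul_mul, Matrix.trace_smul, hx, smul_zero]
  -- both spaces are stable
  have hUst : ∀ g, ∀ X ∈ U, ρ g * X * ρ g⁻¹ ∈ U := by
    intro g X hX
    induction hX using Submodule.span_induction with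
    | mem X hX =>
      obtain ⟨h, hh, hreg, rfl⟩ := hX
      have e1 : (ρ (g * h * g⁻¹)).trace = (ρ h).trace := by
        rw [map_mul, map_mul, Matrix.trace_mul_cycle, ← map_mul, inv_mul_cancel, map_one,
          Matrix.one_mul]
      have e2 : (ρ (g * h * g⁻¹)).det = (ρ h).det := by
        rw [map_mul, map_mul, Matrix.det_mul, Matrix.det_mul, mul_right_comm, ← Matrix.det_mul,
          ← map_mul, mul_inv_cancel, map_one, Matrix.det_one, one_mul]
      refine Submodule.subset_span ⟨g * h * g⁻¹, (inferInstance : H.Normal).conj_mem h hh g,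
        by rw [e1, e2]; exact hreg, ?_⟩
      rw [e1, Matrix.mul_sub, Matrix.sub_mul, Matrix.mul_smul, Matrix.mul_one, Matrix.smul_mul,
        map_mul, map_mul, ← map_mul ρ g g⁻¹, mul_inv_cancel, map_one]
    | zero => simp
    | add x y _ _ hx hy => rw [mul_add, add_mul]; exact U.add_mem hx hy
    | smul r x _ hx => rw [Matrix.mul_smul, Matrix.smul_mul]; exact U.smul_mem r hx
  have hWst : ∀ g, ∀ X ∈ Wb, ρ g * X * ρ g⁻¹ ∈ Wb := by
    intro g X hX
    induction hX using Submodule.span_induction with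
    | mem X hX =>
      obtain ⟨s, hs, hsX⟩ := hstab g X hX
      have := Wb.smul_mem s⁻¹ (Submodule.subset_span hsX)
      rwa [inv_smul_smul₀ hs] at this
    | zero => simp
    | add x y _ _ hx hy => rw [mul_add, add_mul]; exact Wb.add_mem hx hy
    | smul r x _ hx => rw [Matrix.mul_smul, Matrix.smul_mul]; exact Wb.smul_mem r hx
  -- no stable line
  have hline : ∀ S : Submodule L (M2 L), (∀ X ∈ S, X.trace = 0) → S ≠ ⊥ →
      (∀ g, ∀ X ∈ S, ρ g * X * ρ g⁻¹ ∈ S) → 2 ≤ Module.finrank L S := by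
    intro S hStr hS hSst
    by_contra hlt
    have h1 : 1 ≤ Module.finrank L S := Submodule.one_le_finrank_iff.mpr hS
    obtain ⟨⟨X, hX⟩, hX0, hgen⟩ := finrank_eq_one_iff'.mp (show Module.finrank L S = 1 by omega)
    refine hb.no_adjoint_line h2 (fun h0 => hX0 (Subtype.ext h0)) (hStr X hX) fun g => ?_
    obtain ⟨c, hc⟩ := hgen ⟨_, hSst g X hX⟩
    refine ⟨c, ?_⟩
    have h3 := congrArg (· * ρ g) (congrArg Subtype.val hc)
    simp only [SetLike.val_smul, Matrix.smul_mul, Matrix.mul_assoc, ← map_mul, inv_mul_cancel,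
      map_one, Matrix.mul_one] at h3
    exact h3.symm
  have hU2 : 2 ≤ Module.finrank L U := by
    refine hline U hUtr (fun h0 => ?_) hUst
    obtain ⟨h, hh, hreg⟩ := exists_regular h2 H (hb.noLine_of_commutator h2 H hcomm)
    have hmem : ρ h - ((ρ h).trace / 2) • (1 : M2 L) ∈ U := Submodule.subset_span ⟨h, hh, hreg, rfl⟩
    rw [h0, Submodule.mem_bot, sub_eq_zero] at hmem
    refine hreg ?_
    conv_rhs => rw [hmem]
    simp
    field_simp
    ring
  have hW2 : 2 ≤ Module.finrank L Wb := by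
    refine hline Wb hWtr (fun h0 => ?_) hWst
    obtain ⟨w, hw, hw0⟩ := hne
    exact hw0 ((Submodule.mem_bot L).mp (h0 ▸ Submodule.subset_span hw))
  -- too large to be orthogonal
  set U' := U ⊔ Submodule.span L {(1 : M2 L)}
  let τ : M2 L →ₗ[L] Module.Dual L (M2 L) :=
    LinearMap.mk₂ L (fun X Y => (X * Y).trace)
      (fun X X' Y => by rw [add_mul, Matrix.trace_add])
      (fun r X Y => by rw [Matrix.smul_mul, Matrix.trace_smul])
      (fun X Y Y' => by rw [mul_add, Matrix.trace_add])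
      (fun r X Y => by rw [Matrix.mul_smul, Matrix.trace_smul])
  have hτ : Function.Injective τ := by
    rw [injective_iff_map_eq_zero]
    intro X hX
    ext i j
    have := LinearMap.congr_fun hX (Matrix.single j i 1)
    fin_cases i <;> fin_cases j <;>
      simpa [τ, Matrix.trace_fin_two, Matrix.mul_apply, Fin.sum_univ_two] using this
  have hsub : Wb.map τ ≤ U'.dualAnnihilator := by
    rintro _ ⟨w, hw, rfl⟩
    rw [Submodule.mem_dualAnnihilator]
    intro u hu
    obtain ⟨u₀, hu₀, s, hs, rfl⟩ := Submodule.mem_sup.mp hu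
    obtain ⟨r, rfl⟩ := Submodule.mem_span_singleton.mp hs
    show (w * (u₀ + r • 1)).trace = 0
    rw [mul_add, Matrix.trace_add, hperp u₀ hu₀ w hw, Matrix.mul_smul, Matrix.mul_one,
      Matrix.trace_smul, hWtr w hw, smul_zero, add_zero]
  have hdim := Subspace.finrank_add_finrank_dualAnnihilator_eq U'
  have hle := Submodule.finrank_mono hsub
  rw [(Submodule.equivMapOfInjective τ hτ Wb).finrank_eq.symm] at hle
  have hU' : Module.finrank L U' = Module.finrank L U + 1 := by
    have h1 := Submodule.finrank_sup_add_finrank_inf_eq U (Submodule.span L {(1 : M2 L)})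
    have hinf : U ⊓ Submodule.span L {(1 : M2 L)} = ⊥ := by
      rw [eq_bot_iff]
      rintro X ⟨hX, hX'⟩
      obtain ⟨r, rfl⟩ := Submodule.mem_span_singleton.mp hX'
      have := hUtr _ hX
      rw [Matrix.trace_smul, Matrix.trace_one, Fintype.card_fin, smul_eq_mul] at this
      push_cast at this
      rw [Submodule.mem_bot, (mul_eq_zero.mp this).resolve_right h2, zero_smul]
    rw [hinf, finrank_bot, finrank_span_singleton (one_ne_zero : (1 : M2 L) ≠ 0)] at h1
    omega
  rw [Module.finrank_matrix, Module.finrank_self, Fintype.card_fin] at hdim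
  omega

end FA.TW
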