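import Fermat.Agent.TW.Primes
import Fermat.Agent.Deform.MatrixRep
import Fermat.Prelude.Def_GaloisRep_LocalConditions
import Mathlib.LinearAlgebra.Charpoly.ToMatrix

/-!
# The matrices of a residual representation
-/

set_option autoImplicit false

noncomputable section

open FA.Deform Matrix Polynomial
open scoped TensorProduct

namespace FA.TW

local notation "Qb" => AlgebraicClosure ℚ
local notation "GQ" => AlgebraicClosure ℚ ≃ₐ[ℚ] AlgebraicClosure ℚ

variable {k : Type} [Field k] (ρbar : ResidualGaloisRep k)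

theorem resMatrix_apply (σ : GQ) :
    resMatrix ρbar σ = LinearMap.toMatrix (resBasis ρbar) (resBasis ρbar) (ρbar.ρ σ) := rfl

theorem resMatrix_eq_one_iff (σ : GQ) : resMatrix ρbar σ = 1 ↔ ρbar.ρ σ = 1 := by
  rw [resMatrix_apply, ← LinearMap.toMatrix_one (resBasis ρbar)]
  exact (LinearMap.toMatrix (resBasis ρbar) (resBasis ρbar)).injective.eq_iff

theorem isOpen_ker_resMatrix : IsOpen ((resMatrix ρbar).ker : Set GQ) := by
  obtain ⟨L, hL, h⟩ := resMatrix_eq_one ρbar
  exact Subgroup.isOpen_mono (H₁ := L.fixingSubgroup)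
    (fun σ hσ => h σ ((IntermediateField.mem_fixingSubgroup_iff L σ).mp hσ))
    (IntermediateField.fixingSubgroup_isOpen L)

theorem det_resMatrix {p : ℕ} (hdet : (GaloisRepAdic.ofResidualGaloisRep ρbar).DetIsCyclotomic p)
    (σ : GQ) (a : ℕ) (ha : ∀ μ : Qb, μ ^ p = 1 → σ μ = μ ^ a) :
    (resMatrix ρbar σ).det = (a : k) := by
  have hp : ((p : ℕ) : k) = 0 := by
    have h := hdet.1
    rwa [show IsLocalRing.maximalIdeal k = ⊥ from
      (Ideal.eq_bot_or_top _).resolve_right (Ideal.IsMaximal.ne_top inferInstance),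
      Ideal.mem_bot] at h
  have h := hdet.2 1 σ a (by simpa using ha)
  rw [pow_one, hp, Ideal.span_singleton_eq_bot.mpr rfl, Ideal.mem_bot, sub_eq_zero] at h
  rw [resMatrix_apply, LinearMap.det_toMatrix]
  exact h

theorem charpoly_resMatrix (σ : GQ) :
    LinearMap.charpoly (ρbar.ρ σ) = (resMatrix ρbar σ).charpoly :=
  (LinearMap.charpoly_toMatrix (ρbar.ρ σ) (resBasis ρbar)).symm

/-- A split characteristic polynomial with regular matrix has distinct roots. -/
theorem ne_of_regular {σ : GQ}
    (hreg : (resMatrix ρbar σ).trace ^ 2 ≠ 4 * (resMatrix ρbar σ).det) {α β : k}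
    (h : LinearMap.charpoly (ρbar.ρ σ) = (X - C α) * (X - C β)) : α ≠ β := by
  rintro rfl
  rw [charpoly_resMatrix, Matrix.charpoly_fin_two] at h
  have h0 := congrArg (fun q => coeff q 0) h
  have h1 := congrArg (fun q => coeff q 1) h
  simp [sub_mul, mul_sub, coeff_X_mul, coeff_C, coeff_X, pow_two] at h0 h1
  apply hreg
  linear_combination ((resMatrix ρbar σ).trace + 2 * α) * (-h1) + (-4) * h0

/-- Absolute irreducibility and non-induction give bigness over the algebraic closure. -/
theorem isBig_resMatrix (habs : ρbar.IsAbsolutelyIrreducible)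
    (hTW : ∀ G : Subgroup GQ, G.index = 2 →
      ∀ V : Submodule (AlgebraicClosure k) (ρbar.baseChange (AlgebraicClosure k)).V,
        (∀ σ ∈ G, ∀ x ∈ V, (ρbar.baseChange (AlgebraicClosure k)).ρ σ x ∈ V) → V = ⊥ ∨ V = ⊤) :
    IsBig (mapRep (algebraMap k (AlgebraicClosure k)) (resMatrix ρbar)) := by
  have key : ∀ H : Subgroup GQ,
      (∀ V : Submodule (AlgebraicClosure k) (ρbar.baseChange (AlgebraicClosure k)).V,
        (∀ σ ∈ H, ∀ x ∈ V, (ρbar.baseChange (AlgebraicClosure k)).ρ σ x ∈ V) → V = ⊥ ∨ V = ⊤) →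
      NoLine (mapRep (algebraMap k (AlgebraicClosure k)) (resMatrix ρbar)) H := by
    intro H hH v hv
    by_contra hcon
    push Not at hcon
    let b : Module.Basis (Fin 2) (AlgebraicClosure k) (ρbar.baseChange (AlgebraicClosure k)).V :=
      Algebra.TensorProduct.basis (AlgebraicClosure k) (resBasis ρbar)
    have hmat : ∀ σ, LinearMap.toMatrix b b ((ρbar.baseChange (AlgebraicClosure k)).ρ σ) =
        mapRep (algebraMap k (AlgebraicClosure k)) (resMatrix ρbar) σ := fun σ =>
      LinearMap.toMatrix_baseChange _ _ _ _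
    let w := b.equivFun.symm v
    have hw : w ≠ 0 := b.equivFun.symm.map_ne_zero_iff.mpr hv
    have hstab : ∀ σ ∈ H, ∀ x ∈ AlgebraicClosure k ∙ w,
        (ρbar.baseChange (AlgebraicClosure k)).ρ σ x ∈ AlgebraicClosure k ∙ w := by
      intro σ hσ x hx
      obtain ⟨c, rfl⟩ := Submodule.mem_span_singleton.mp hx
      obtain ⟨d, hd⟩ := hcon σ hσ
      rw [map_smul]
      refine Submodule.smul_mem _ _ (Submodule.mem_span_singleton.mpr ⟨d, ?_⟩)
      apply b.equivFun.injective
      rw [map_smul, Module.Basis.equivFun_apply b ((ρbar.baseChange (AlgebraicClosure k)).ρ σ w),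
        ← LinearMap.toMatrix_mulVec_repr b b, hmat, ← Module.Basis.equivFun_apply,
        LinearEquiv.apply_symm_apply, hd]
    rcases hH (AlgebraicClosure k ∙ w) hstab with h | h
    · exact hw (Submodule.span_singleton_eq_bot.mp h)
    · have h1 : Module.finrank (AlgebraicClosure k) (AlgebraicClosure k ∙ w) = 1 :=
        finrank_span_singleton hw
      rw [h, finrank_top, (ρbar.baseChange (AlgebraicClosure k)).finrank_eq] at h1
      exact absurd h1 (by norm_num)
  exact ⟨key ⊤ fun V hV => habs V fun σ => hV σ trivial, fun H hH => key H (hTW H hH)⟩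

end FA.TW
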