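import Fermat.Agent.TW.AdjointH1
import Fermat.Agent.TW.Irreducible
import Fermat.Agent.TW.Frobenius
import Fermat.Agent.Density.Traces
import Fermat.Agent.Deform.MatrixRep
import Mathlib.RingTheory.Polynomial.Cyclotomic.Roots
import Mathlib.FieldTheory.Minpoly.IsConjRoot

/-!
# Taylor–Wiles primes detecting a finite dimensional space of dual Selmer classes
-/

set_option autoImplicit false

noncomputable section

open Matrix FA.Deform
open scoped Classical

namespace FA.TW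

local notation "Qb" => AlgebraicClosure ℚ
local notation "GQ" => AlgebraicClosure ℚ ≃ₐ[ℚ] AlgebraicClosure ℚ

/-- The automorphisms fixing the `p ^ m`-th roots of unity. -/
def rootsFix (p m : ℕ) : Subgroup GQ where
  carrier := {σ | ∀ μ : Qb, μ ^ p ^ m = 1 → σ μ = μ}
  one_mem' := fun μ _ => rfl
  mul_mem' {σ τ} hσ hτ μ hμ := by
    show σ (τ μ) = μ
    rw [hτ μ hμ, hσ μ hμ]
  inv_mem' {σ} hσ μ hμ := by
    conv_lhs => rw [← hσ μ hμ]
    rw [AlgEquiv.aut_inv, AlgEquiv.symm_apply_apply]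

theorem mem_rootsFix {p m : ℕ} {σ : GQ} :
    σ ∈ rootsFix p m ↔ ∀ μ : Qb, μ ^ p ^ m = 1 → σ μ = μ := Iff.rfl

instance rootsFix_normal (p m : ℕ) : (rootsFix p m).Normal := ⟨fun σ hσ τ μ hμ => by
  show τ (σ (τ⁻¹ μ)) = μ
  rw [hσ (τ⁻¹ μ) (by rw [← map_pow, hμ, map_one]), AlgEquiv.aut_inv, AlgEquiv.apply_symm_apply]⟩

theorem exists_primitiveRoot {p : ℕ} (hp : p.Prime) (m : ℕ) :
    ∃ ζ : Qb, IsPrimitiveRoot ζ (p ^ m) := by
  have : NeZero ((p ^ m : ℕ) : Qb) := ⟨by exact_mod_cast pow_ne_zero _ hp.ne_zero⟩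
  exact HasEnoughRootsOfUnity.exists_primitiveRoot Qb (p ^ m)

theorem commutator_mem_rootsFix {p : ℕ} (hp : p.Prime) (m : ℕ) (a b : GQ) :
    a * b * a⁻¹ * b⁻¹ ∈ rootsFix p m := by
  obtain ⟨ζ, hζ⟩ := exists_primitiveRoot hp m
  have : NeZero (p ^ m) := ⟨pow_ne_zero _ hp.ne_zero⟩
  have key : ∀ μ : Qb, μ ^ p ^ m = 1 → a (b μ) = b (a μ) := by
    intro μ hμ
    obtain ⟨i, -, rfl⟩ := hζ.eq_pow_of_pow_eq_one hμ
    obtain ⟨ia, -, ha⟩ := hζ.eq_pow_of_pow_eq_one (ξ := a ζ) (by rw [← map_pow, hζ.pow_eq_one, map_one])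
    obtain ⟨ib, -, hb⟩ := hζ.eq_pow_of_pow_eq_one (ξ := b ζ) (by rw [← map_pow, hζ.pow_eq_one, map_one])
    simp only [map_pow, ← ha, ← hb, ← pow_mul]
    rw [← mul_assoc, mul_comm ia ib, mul_assoc]
  intro μ hμ
  show a (b (a⁻¹ (b⁻¹ μ))) = μ
  rw [key _ (by rw [← map_pow, ← map_pow, hμ, map_one, map_one])]
  simp [AlgEquiv.aut_inv]

theorem isOpen_rootsFix {p : ℕ} (hp : p.Prime) (m : ℕ) : IsOpen (rootsFix p m : Set GQ) := by
  obtain ⟨ζ, hζ⟩ := exists_primitiveRoot hp m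
  have : NeZero (p ^ m) := ⟨pow_ne_zero _ hp.ne_zero⟩
  let E : IntermediateField ℚ Qb := IntermediateField.adjoin ℚ {ζ}
  have hint : IsIntegral ℚ ζ := (hζ.isIntegral (pow_pos hp.pos m)).tower_top
  have : FiniteDimensional ℚ E := IntermediateField.adjoin.finiteDimensional hint
  refine Subgroup.isOpen_mono (H₁ := E.fixingSubgroup) ?_ (IntermediateField.fixingSubgroup_isOpen E)
  intro σ hσ μ hμ
  obtain ⟨i, -, rfl⟩ := hζ.eq_pow_of_pow_eq_one hμ
  rw [map_pow]
  congr 1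
  exact (IntermediateField.mem_fixingSubgroup_iff E σ).mp hσ ζ
    (IntermediateField.subset_adjoin ℚ {ζ} rfl)

/-- Every unit of `𝔽_p` is the action of some automorphism on the `p`-th roots of unity. -/
theorem exists_cyclotomic_action {p : ℕ} (hp : p.Prime) {a : ℕ} (ha : ¬ p ∣ a) :
    ∃ σ : GQ, ∀ μ : Qb, μ ^ p = 1 → σ μ = μ ^ a := by
  obtain ⟨ζ, hζ⟩ := exists_primitiveRoot hp 1
  rw [pow_one] at hζ
  have : NeZero p := ⟨hp.ne_zero⟩
  have hζa : IsPrimitiveRoot (ζ ^ a) p :=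
    hζ.pow_of_coprime a (((hp.coprime_iff_not_dvd).mpr ha).symm)
  have hc : IsConjRoot ℚ ζ (ζ ^ a) := by
    show minpoly ℚ ζ = minpoly ℚ (ζ ^ a)
    rw [← Polynomial.cyclotomic_eq_minpoly_rat hζ hp.pos,
      ← Polynomial.cyclotomic_eq_minpoly_rat hζa hp.pos]
  have hnorm : Normal ℚ Qb := by
    have : Algebra.IsAlgebraic ℚ Qb := AlgebraicClosure.isAlgebraic ℚ
    have : IsAlgClosure ℚ Qb := ⟨inferInstance, inferInstance⟩
    exact IsAlgClosure.normal ℚ Qb
  obtain ⟨σ, hσ⟩ := (IsConjRoot.symm hc).exists_algEquiv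
  refine ⟨σ, fun μ hμ => ?_⟩
  obtain ⟨i, -, rfl⟩ := hζ.eq_pow_of_pow_eq_one hμ
  rw [map_pow, hσ, ← pow_mul, ← pow_mul, mul_comm]

/-- An open subgroup of the Galois group contains an open normal subgroup. -/
theorem exists_open_normal_le (N : Subgroup GQ) (hN : IsOpen (N : Set GQ)) :
    ∃ N' : Subgroup GQ, N'.Normal ∧ IsOpen (N' : Set GQ) ∧ N' ≤ N := by
  obtain ⟨U, hU⟩ := ProfiniteGrp.exist_openNormalSubgroup_sub_open_nhds_of_one hN N.one_mem
  exact ⟨U.toSubgroup, U.isNormal', U.isOpen', hU⟩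

section Matrix

variable {k : Type*} [Field k]

/-- Powers of a matrix with a double eigenvalue have a double eigenvalue. -/
theorem trace_sq_pow {M : Matrix (Fin 2) (Fin 2) k} (h2 : (2 : k) ≠ 0)
    (h : M.trace ^ 2 = 4 * M.det) (i : ℕ) : (M ^ i).trace ^ 2 = 4 * (M ^ i).det := by
  set c := M.trace / 2
  have ht : M.trace = (c • (1 : Matrix (Fin 2) (Fin 2) k)).trace := by
    rw [Matrix.trace_smul, Matrix.trace_one, Fintype.card_fin, smul_eq_mul]
    simp only [c]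
    push_cast
    field_simp
  have hd : M.det = (c • (1 : Matrix (Fin 2) (Fin 2) k)).det := by
    rw [Matrix.det_smul, Matrix.det_one, Fintype.card_fin, mul_one]
    simp only [c]
    field_simp
    linear_combination -h
  obtain ⟨h1, h3⟩ := FA.Density.trace_det_pow_eq ht hd i
  rw [h1, h3, smul_pow, one_pow, Matrix.trace_smul, Matrix.trace_one, Matrix.det_smul,
    Matrix.det_one, Fintype.card_fin, smul_eq_mul]
  push_cast
  ring

theorem trace_mapMatrix {L : Type*} [Field L] (j : k →+* L) (M : Matrix (Fin 2) (Fin 2) k) :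
    (j.mapMatrix M).trace = j M.trace := by
  simp [Matrix.trace_fin_two]

variable {G : Type*} [Group G] {ρ : G →* Matrix (Fin 2) (Fin 2) k}
  {ψ : G → Matrix (Fin 2) (Fin 2) k}

theorem twAd_of_eq_one {g : G} (hg : ρ g = 1) (m : Matrix (Fin 2) (Fin 2) k) : twAd ρ g m = m := by
  have hg' : ρ g⁻¹ = 1 := by
    have := map_inv_mul_map ρ g
    rwa [hg, Matrix.mul_one] at this
  simp [twAd, hg, hg']

theorem IsAdCocycle.map_mul_ker (h : IsAdCocycle ρ ψ) (g : G) {t : G} (hψ : ψ t = 0) :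
    ψ (g * t) = ψ g := by
  rw [h.map_mul, hψ]
  simp [twAd]

theorem IsAdCocycle.map_conj (h : IsAdCocycle ρ ψ) (g : G) {t : G} (ht : ρ t = 1) :
    ψ (g * t * g⁻¹) = twAd ρ g (ψ t) := by
  have h1 : ψ g + twAd ρ g (ψ g⁻¹) = 0 := by rw [← h.map_mul, mul_inv_cancel, h.map_one]
  rw [h.map_mul, h.map_mul, twAd_mul, twAd_of_eq_one ht]
  linear_combination (norm := abel) h1

/-- The pairing of a cocycle against the powers of an element of determinant one. -/
theorem IsAdCocycle.trace_pow_eq_zero (h : IsAdCocycle ρ ψ) {g : G} (hdet : (ρ g).det = 1)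
    (h0 : (ψ g * ρ g).trace = 0) (i : ℕ) : (ψ (g ^ i) * ρ (g ^ i)).trace = 0 := by
  have hCH : ∀ l : ℕ, (ψ g * ρ g ^ l).trace = 0 := by
    intro l
    induction l using Nat.twoStepInduction with
    | zero => simpa using h.trace_eq g
    | one => simpa using h0
    | more l ih1 ih2 =>
      have hsq : ρ g * ρ g = (ρ g).trace • ρ g - (ρ g).det • (1 : Matrix (Fin 2) (Fin 2) k) := by
        ext i j
        fin_cases i <;> fin_cases j <;>
          simp [Matrix.mul_apply, Fin.sum_univ_two, Matrix.trace_fin_two, Matrix.det_fin_two] <;>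
          ring
      rw [pow_add, pow_two, hsq, mul_sub, mul_smul_comm, mul_smul_comm, mul_one, ← pow_succ,
        mul_sub, Matrix.trace_sub, mul_smul_comm, mul_smul_comm, Matrix.trace_smul,
        Matrix.trace_smul, ih1, ih2, smul_zero, smul_zero, sub_zero]
  have key : ∀ j l : ℕ, (ψ (g ^ j) * ρ (g ^ l)).trace = 0 := fun j l => by
    induction j with
    | zero => simp [h.map_one]
    | succ j ih =>
      rw [pow_succ g j, h.map_mul, add_mul, Matrix.trace_add, ih, zero_add, twAd,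
        show (ρ (g ^ j)).det = 1 by rw [MonoidHom.map_pow, Matrix.det_pow, hdet, one_pow], one_smul]
      have : ρ (g ^ j)⁻¹ * ρ (g ^ l) = ρ (g ^ l) * ρ (g ^ j)⁻¹ := by
        rw [← MonoidHom.map_mul, ← MonoidHom.map_mul, ((Commute.refl g).pow_pow j l).inv_left.eq]
      rw [Matrix.mul_assoc (ρ (g ^ j) * ψ g), this, ← Matrix.mul_assoc,
        Matrix.mul_assoc (ρ (g ^ j)) (ψ g), Matrix.trace_mul_cycle, map_inv_mul_map,
        Matrix.one_mul, MonoidHom.map_pow, hCH]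
  exact key i i

end Matrix

/-- A cocycle vanishing on the kernel of the representation is a coboundary. -/
theorem exists_coboundary_of_vanish_ker {k : Type*} [Field k] {G : Type*} [Group G] (p : ℕ)
    [Fact p.Prime] [CharP k p] (hp2 : p ≠ 2) (ρ : G →* Matrix (Fin 2) (Fin 2) k) [Finite (G ⧸ ρ.ker)]
    (hirr : ∀ w : Fin 2 → k, w ≠ 0 → ∃ g, ∀ a : k, ρ g *ᵥ w ≠ a • w)
    (hdet : ∀ a : (ZMod p)ˣ, ∃ g, (ρ g).det = ZMod.castHom (dvd_refl p) k (a : ZMod p))
    {ψ : G → Matrix (Fin 2) (Fin 2) k} (hψ : IsAdCocycle ρ ψ) (hK : ∀ t, ρ t = 1 → ψ t = 0) :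
    ∃ m : Matrix (Fin 2) (Fin 2) k, m.trace = 0 ∧ ∀ g, ψ g = twAd ρ g m - m := by
  let ρ₀ : G ⧸ ρ.ker →* Matrix (Fin 2) (Fin 2) k := QuotientGroup.lift ρ.ker ρ le_rfl
  have hwell : ∀ a b : G, QuotientGroup.leftRel ρ.ker a b → ψ a = ψ b := fun a b hab => by
    have hmem : ρ (a⁻¹ * b) = 1 := QuotientGroup.leftRel_apply.mp hab
    conv_rhs => rw [← mul_inv_cancel_left a b, hψ.map_mul_ker a (hK _ hmem)]
  let ψ₀ : G ⧸ ρ.ker → Matrix (Fin 2) (Fin 2) k := Quotient.lift ψ hwell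
  have hρ₀ : ∀ g : G, ρ₀ (g : G ⧸ ρ.ker) = ρ g := fun g => rfl
  have hψ₀g : ∀ g : G, ψ₀ (g : G ⧸ ρ.ker) = ψ g := fun g => rfl
  have htw : ∀ (g : G) (m : Matrix (Fin 2) (Fin 2) k),
      twAd ρ₀ (g : G ⧸ ρ.ker) m = twAd ρ g m := fun g m => by
    simp only [twAd, ← QuotientGroup.mk_inv, hρ₀]
  have hψ₀ : IsAdCocycle ρ₀ ψ₀ := by
    refine ⟨fun x => ?_, fun x y => ?_⟩
    · obtain ⟨g, rfl⟩ := QuotientGroup.mk_surjective x
      rw [hψ₀g]
      exact hψ.trace_eq g
    · obtain ⟨g, rfl⟩ := QuotientGroup.mk_surjective x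
      obtain ⟨g', rfl⟩ := QuotientGroup.mk_surjective y
      rw [← QuotientGroup.mk_mul, hψ₀g, hψ₀g, hψ₀g, htw]
      exact hψ.map_mul g g'
  have hinj : Function.Injective ρ₀ := by
    rw [← MonoidHom.ker_eq_bot_iff, eq_bot_iff]
    intro x hx
    obtain ⟨g, rfl⟩ := QuotientGroup.mk_surjective x
    rw [MonoidHom.mem_ker, hρ₀] at hx
    exact Subgroup.mem_bot.mpr ((QuotientGroup.eq_one_iff g).mpr hx)
  have hirr₀ : ∀ w : Fin 2 → k, w ≠ 0 → ∃ g, ∀ a : k, ρ₀ g *ᵥ w ≠ a • w := fun w hw => by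
    obtain ⟨g, hg⟩ := hirr w hw
    exact ⟨(g : G ⧸ ρ.ker), fun a => by rw [hρ₀]; exact hg a⟩
  have hdet₀ : ∀ a : (ZMod p)ˣ, ∃ g, (ρ₀ g).det = ZMod.castHom (dvd_refl p) k (a : ZMod p) :=
    fun a => by
      obtain ⟨g, hg⟩ := hdet a
      exact ⟨(g : G ⧸ ρ.ker), by rw [hρ₀]; exact hg⟩
  obtain ⟨m, hm, hm'⟩ := exists_adCoboundary (ρ := ρ₀) p hp2 hinj hirr₀ hdet₀ hψ₀
  refine ⟨m, hm, fun g => ?_⟩
  rw [← hψ₀g, hm', htw]

variable {k : Type} [Field k] {p : ℕ}

/-- A class which is not a coboundary pairs nontrivially at some Frobenius element congruent to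
one modulo `p ^ (n+1)` with distinct residual eigenvalues. -/
theorem exists_twPrime [Fact p.Prime] [CharP k p] (hp2 : p ≠ 2) (r : GQ →* M2 k)
    (hker : IsOpen (r.ker : Set GQ))
    (hdet : ∀ (σ : GQ) (a : ℕ), (∀ μ : Qb, μ ^ p = 1 → σ μ = μ ^ a) → (r σ).det = (a : k))
    {L : Type} [Field L] [IsAlgClosed L] (j : k →+* L) (hbig : IsBig (mapRep j r))
    (ψ : GQ → M2 k) (hψ : IsAdCocycle r ψ)
    (hlc : ∃ N : Subgroup GQ, IsOpen (N : Set GQ) ∧ ∀ g s, s ∈ N → ψ (g * s) = ψ g)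
    (hne : ¬ ∃ m : M2 k, m.trace = 0 ∧ ∀ g, ψ g = twAd r g m - m) (n : ℕ) (S₀ : Finset ℕ) :
    ∃ (q : ℕ) (A : ValuationSubring Qb) (φ : GQ), q.Prime ∧ q ∉ S₀ ∧ q ≠ p ∧
      A.LiesOverPrime q ∧ A.IsFrobeniusAt φ q ∧ p ^ (n + 1) ∣ q - 1 ∧
      (r φ).trace ^ 2 ≠ 4 * (r φ).det ∧ (ψ φ * r φ).trace ≠ 0 := by
  have hp : p.Prime := Fact.out
  have h2 : (2 : k) ≠ 0 := by
    intro h0
    have : (p : ℕ) ∣ 2 := (CharP.cast_eq_zero_iff k p 2).mp (by exact_mod_cast h0)
    exact hp2 ((Nat.prime_dvd_prime_iff_eq hp Nat.prime_two).mp this)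
  have h2L : (2 : L) ≠ 0 := by
    rw [← map_ofNat j 2]
    exact fun h0 => h2 (j.injective (by rw [h0, map_zero]))
  have hR : ∀ g, mapRep j r g = j.mapMatrix (r g) := fun g => rfl
  set H := rootsFix p (n + 1) with hHdef
  have hHdet : ∀ h ∈ H, (r h).det = 1 := fun h hh => by
    rw [hdet h 1 (fun μ hμ => by rw [pow_one]; exact hh μ (by rw [pow_succ', pow_mul, hμ, one_pow])),
      Nat.cast_one]
  -- the restriction to the splitting field is nonzero
  by_cases hK : ∀ t, r t = 1 → ψ t = 0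
  · exfalso
    apply hne
    have : Finite (GQ ⧸ r.ker) := Subgroup.quotient_finite_of_isOpen r.ker hker
    refine exists_coboundary_of_vanish_ker p hp2 r (fun w hw => ?_) (fun a => ?_) hψ hK
    · obtain ⟨g, -, hg⟩ := hbig.top (fun i => j (w i)) fun h0 =>
        hw (funext fun i => j.injective (by rw [Pi.zero_apply, map_zero]; exact congrFun h0 i))
      refine ⟨g, fun a ha => hg (j a) (funext fun i => ?_)⟩
      have := congrArg j (congrFun ha i)
      rw [RingHom.map_mulVec] at this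
      simpa [hR, Pi.smul_apply, Function.comp_def] using this
    · obtain ⟨σ, hσ⟩ := exists_cyclotomic_action hp (a := (a : ZMod p).val) fun hd =>
        a.ne_zero (by
          rw [← ZMod.natCast_zmod_val (a : ZMod p)]
          exact (ZMod.natCast_eq_zero_iff _ _).mpr hd)
      refine ⟨σ, ?_⟩
      rw [hdet σ _ hσ, ZMod.natCast_val, ZMod.castHom_apply]
  push Not at hK
  obtain ⟨t₀, ht₀, hψt₀⟩ := hK
  -- nonzero already above the roots of unity
  obtain ⟨t₁, ht₁, ht₁H, hψt₁⟩ : ∃ t, r t = 1 ∧ t ∈ H ∧ ψ t ≠ 0 := by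
    by_contra hcon
    push Not at hcon
    have hfix : ∀ g, twAd r g (ψ t₀) = ψ t₀ := fun g => by
      have hcm : t₀⁻¹ * (g * t₀ * g⁻¹) ∈ H := by
        have := commutator_mem_rootsFix hp (n + 1) t₀⁻¹ g
        rw [inv_inv] at this
        convert this using 1
        group
      have hker' : r (t₀⁻¹ * (g * t₀ * g⁻¹)) = 1 := by
        have h3 : r t₀⁻¹ = 1 := by
          have := map_inv_mul_map r t₀
          rwa [ht₀, Matrix.mul_one] at this
        rw [map_mul, map_mul, map_mul, ht₀, Matrix.mul_one, map_mul_map_inv, h3, Matrix.one_mul]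
      rw [← hψ.map_conj g ht₀, ← mul_inv_cancel_left t₀ (g * t₀ * g⁻¹),
        hψ.map_mul_ker _ (hcon _ hker' hcm)]
    refine hbig.no_adjoint_line h2L (X := j.mapMatrix (ψ t₀))
      (fun h0 => hψt₀ (Matrix.ext fun a b => j.injective (by
        rw [Matrix.zero_apply, map_zero]; exact congrFun (congrFun h0 a) b)))
      (by rw [trace_mapMatrix, hψ.trace_eq, map_zero])
      fun g => ⟨(j ((r g).det))⁻¹, ?_⟩
    have hd : (r g).det ≠ 0 := fun h0 => hψt₀ (by rw [← hfix g, twAd, h0, zero_smul])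
    have h1 : (r g).det • (r g * ψ t₀) = ψ t₀ * r g := by
      conv_rhs => rw [← hfix g, twAd, Matrix.smul_mul, Matrix.mul_assoc, map_inv_mul_map,
        Matrix.mul_one]
    rw [hR, ← map_mul, ← map_mul, ← h1]
    ext a b
    simp [hd]
  -- the pairing
  let W : Set (M2 L) := {w | ∃ t, r t = 1 ∧ t ∈ H ∧ w = j.mapMatrix (ψ t)}
  obtain ⟨h, hhH, hreg, w, ⟨t, ht, htH, rfl⟩, hw⟩ := hbig.exists_regular_pairing h2L H
    (commutator_mem_rootsFix hp (n + 1)) W
    (by rintro _ ⟨t, -, -, rfl⟩; rw [trace_mapMatrix, hψ.trace_eq, map_zero])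
    ⟨_, ⟨t₁, ht₁, ht₁H, rfl⟩, fun h0 => hψt₁ (Matrix.ext fun a b => j.injective (by
        rw [Matrix.zero_apply, map_zero]; exact congrFun (congrFun h0 a) b))⟩
    (by
      rintro g _ ⟨t, ht, htH, rfl⟩
      refine ⟨j (r g).det, ?_, g * t * g⁻¹, ?_, (rootsFix_normal p (n + 1)).conj_mem t htH g, ?_⟩
      · intro h0
        have : (r g).det = 0 := j.injective (by rw [h0, map_zero])
        have h1 := congrArg Matrix.det (map_mul_map_inv r g)
        rw [Matrix.det_mul, this, zero_mul, Matrix.det_one] at h1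
        exact zero_ne_one h1
      · rw [map_mul, map_mul, ht, Matrix.mul_one, map_mul_map_inv]
      · rw [hψ.map_conj g ht, twAd]
        ext a b
        simp [hR, Matrix.mul_apply])
  rw [hR] at hreg hw
  rw [trace_mapMatrix, ← RingHom.map_det, ← map_pow, ← map_ofNat j 4, ← map_mul] at hreg
  rw [← map_mul, trace_mapMatrix] at hw
  have hreg' : (r h).trace ^ 2 ≠ 4 * (r h).det := fun he => hreg (by rw [he])
  have hw' : (ψ t * r h).trace ≠ 0 := fun he => hw (by rw [he, map_zero])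
  obtain ⟨σ, hσH, hσreg, hσψ⟩ :
      ∃ σ ∈ H, (r σ).trace ^ 2 ≠ 4 * (r σ).det ∧ (ψ σ * r σ).trace ≠ 0 := by
    by_cases hh0 : (ψ h * r h).trace = 0
    · refine ⟨t * h, H.mul_mem htH hhH, ?_, ?_⟩
      · rw [map_mul, ht, Matrix.one_mul]; exact hreg'
      · rw [map_mul, ht, Matrix.one_mul, hψ.map_mul, twAd_of_eq_one ht, add_mul, Matrix.trace_add,
          hh0, add_zero]
        exact hw'
    · exact ⟨h, hhH, hreg', hh0⟩
  -- density
  obtain ⟨N, hNo, hN⟩ := hlc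
  obtain ⟨N', hN'n, hN'o, hN'le⟩ := exists_open_normal_le (r.ker ⊓ H ⊓ N)
    (by rw [Subgroup.coe_inf, Subgroup.coe_inf]; exact (hker.inter (isOpen_rootsFix hp _)).inter hNo)
  obtain ⟨q, A, φ, i, hq, hqS, hA, hφ, hi, l, hl⟩ :=
    FA.Density.exists_frobenius_generating N' hN'o σ (insert p S₀)
  rw [Finset.mem_insert, not_or] at hqS
  have hφH : φ ∈ H := by
    have := H.mul_mem (H.pow_mem hσH l) (hN'le hl).1.2
    rwa [mul_inv_cancel_left] at this
  have hσi : r σ = r (φ ^ i) := by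
    have : r ((φ ^ i)⁻¹ * σ) = 1 := (hN'le hi).1.1
    conv_lhs => rw [← mul_inv_cancel_left (φ ^ i) σ]
    rw [map_mul, this, Matrix.mul_one]
  refine ⟨q, A, φ, hq, hqS.2, hqS.1, hA, hφ,
    dvd_sub_one_of_fixes hp hq hqS.1 hA hφ (mem_rootsFix.mp hφH), fun he => ?_, fun he => ?_⟩
  · apply hσreg
    rw [hσi, map_pow]
    exact trace_sq_pow h2 he i
  · apply hσψ
    have hψi : ψ σ = ψ (φ ^ i) := by
      conv_lhs => rw [← mul_inv_cancel_left (φ ^ i) σ]
      exact hN _ _ (hN'le hi).2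
    rw [hψi, hσi]
    exact hψ.trace_pow_eq_zero (hHdet φ hφH) he i

/-- Finitely many Taylor–Wiles primes detect a finite dimensional space of classes; their number
is the dimension of the space. -/
theorem exists_twPrimes [Fact p.Prime] [CharP k p] (hp2 : p ≠ 2) (r : GQ →* M2 k)
    (hker : IsOpen (r.ker : Set GQ))
    (hdet : ∀ (σ : GQ) (a : ℕ), (∀ μ : Qb, μ ^ p = 1 → σ μ = μ ^ a) → (r σ).det = (a : k))
    {L : Type} [Field L] [IsAlgClosed L] (j : k →+* L) (hbig : IsBig (mapRep j r))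
    (n : ℕ) (d : ℕ) :
    ∀ (V : Type) [AddCommGroup V] [Module k V] [FiniteDimensional k V],
      Module.finrank k V = d → ∀ ι : V →ₗ[k] (GQ → M2 k), (∀ v, IsAdCocycle r (ι v)) →
      (∀ v, ∃ N : Subgroup GQ, IsOpen (N : Set GQ) ∧ ∀ g s, s ∈ N → ι v (g * s) = ι v g) →
      (∀ v, (∃ m : M2 k, m.trace = 0 ∧ ∀ g, ι v g = twAd r g m - m) → v = 0) →
      ∀ S₀ : Finset ℕ, ∃ (qv : Fin d → ℕ) (A : Fin d → ValuationSubring Qb) (φ : Fin d → GQ),
        Function.Injective qv ∧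
        (∀ i, (qv i).Prime ∧ qv i ∉ S₀ ∧ qv i ≠ p ∧ (A i).LiesOverPrime (qv i) ∧
          (A i).IsFrobeniusAt (φ i) (qv i) ∧ p ^ (n + 1) ∣ qv i - 1 ∧
          (r (φ i)).trace ^ 2 ≠ 4 * (r (φ i)).det) ∧
        ∀ v, (∀ i, (ι v (φ i) * r (φ i)).trace = 0) → v = 0 := by
  induction d with
  | zero =>
    intro V _ _ _ hd ι _ _ _ S₀
    have : Subsingleton V := Module.finrank_zero_iff.mp hd
    exact ⟨finZeroElim, finZeroElim, finZeroElim, fun i => i.elim0, fun i => i.elim0,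
      fun v _ => Subsingleton.elim v 0⟩
  | succ d ih =>
    intro V _ _ _ hd ι hι hlc hne S₀
    obtain ⟨v₀, hv₀⟩ : ∃ v : V, v ≠ 0 := by
      have : Nontrivial V := Module.nontrivial_of_finrank_pos (R := k) (by omega)
      exact exists_ne 0
    obtain ⟨q, A, φ, hq, hqS, hqp, hA, hφ, hdvd, hreg, hpair⟩ :=
      exists_twPrime hp2 r hker hdet j hbig (ι v₀) (hι v₀) (hlc v₀) (fun h => hv₀ (hne v₀ h)) n S₀
    let f : V →ₗ[k] k :=
      { toFun := fun v => (ι v φ * r φ).trace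
        map_add' := fun v w => by simp [add_mul]
        map_smul' := fun c v => by simp }
    have hf : f ≠ 0 := fun h0 => hpair (LinearMap.congr_fun h0 v₀)
    have hd' : Module.finrank k (LinearMap.ker f) = d := by
      have := LinearMap.finrank_range_add_finrank_ker f
      rw [LinearMap.range_eq_top.mpr (LinearMap.surjective_of_ne_zero hf), finrank_top,
        Module.finrank_self] at this
      omega
    obtain ⟨qv, Av, φv, hinj, hprop, hdetect⟩ := ih (LinearMap.ker f) hd'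
      (ι.comp (LinearMap.ker f).subtype) (fun v => hι v.1) (fun v => hlc v.1)
      (fun v h => Subtype.ext (hne v.1 h)) (insert q S₀)
    refine ⟨Fin.cons q qv, Fin.cons A Av, Fin.cons φ φv, ?_, ?_, ?_⟩
    · rw [Fin.cons_injective_iff]
      refine ⟨?_, hinj⟩
      rintro ⟨i, hi⟩
      exact (hprop i).2.1 (hi ▸ Finset.mem_insert_self q S₀)
    · intro i
      induction i using Fin.cases with
      | zero => simpa using ⟨hq, hqS, hqp, hA, hφ, hdvd, hreg⟩
      | succ i =>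
        obtain ⟨h1, h2, h3⟩ := hprop i
        simp only [Fin.cons_succ]
        exact ⟨h1, fun h => h2 (Finset.mem_insert_of_mem h), h3⟩
    · intro v hv
      have h0 : f v = 0 := by
        have := hv 0
        rw [Fin.cons_zero] at this
        exact this
      have := hdetect ⟨v, h0⟩ fun i => by
        have := hv i.succ
        rw [Fin.cons_succ] at this
        exact this
      exact congrArg Subtype.val this

end FA.TW
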