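import Fermat.Agent.TW.LocalP
import Fermat.Agent.TW.Primes
import Fermat.Prelude.Def_GaloisRep_ComplexConjugation

/-!
# Taylor-Wiles primes and the Selmer count
-/

set_option autoImplicit false
set_option maxHeartbeats 2000000

noncomputable section

open FA.GalCoh FA.LocalDef FA.Deform
open scoped Pointwise

namespace FA.TW

local notation "Qb" => AlgebraicClosure ℚ
local notation "GQ" => AlgebraicClosure ℚ ≃ₐ[ℚ] AlgebraicClosure ℚ

/-- Complex conjugation inverts roots of unity. -/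
theorem complexConjugation_apply_of_pow {p : ℕ} (hp : p ≠ 0) {μ : Qb} (hμ : μ ^ p = 1) :
    complexConjugation μ = μ ^ (p - 1) := by
  apply RingHom.injective (complexEmbedding : Qb →ₐ[ℚ] ℂ).toRingHom
  show complexEmbedding (complexConjugation μ) = complexEmbedding (μ ^ (p - 1))
  have hz : complexEmbedding μ ^ p = 1 := by rw [← map_pow, hμ, map_one]
  have hz0 : complexEmbedding μ ≠ 0 := fun h => by simp [h, zero_pow hp] at hz
  rw [complexEmbedding_complexConjugation, map_pow,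
    ← Complex.inv_eq_conj (Complex.norm_eq_one_of_pow_eq_one hz hp)]
  refine inv_eq_of_mul_eq_one_right ?_
  rw [← pow_succ', Nat.sub_add_cancel (Nat.one_le_iff_ne_zero.mpr hp), hz]

variable {k : Type} [Field k] {p : ℕ} [Fact p.Prime] [CharP k p]

/-- The determinant at complex conjugation is `-1`. -/
theorem det_complexConjugation (r : GQ →* Matrix (Fin 2) (Fin 2) k)
    (hdet : ∀ (σ : GQ) (a : ℕ), (∀ μ : Qb, μ ^ p = 1 → σ μ = μ ^ a) → (r σ).det = (a : k)) :
    (r complexConjugation).det = -1 := by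
  have hp : p.Prime := Fact.out
  rw [hdet _ (p - 1) fun μ hμ => complexConjugation_apply_of_pow hp.ne_zero hμ,
    Nat.cast_sub hp.one_le, CharP.cast_eq_zero, Nat.cast_one, zero_sub]

/-- Complex conjugation fixes a nonzero trace zero matrix. -/
theorem one_le_finrank_fixed (r : GQ →* Matrix (Fin 2) (Fin 2) k)
    (hdet : ∀ (σ : GQ) (a : ℕ), (∀ μ : Qb, μ ^ p = 1 → σ μ = μ ^ a) → (r σ).det = (a : k)) :
    1 ≤ Module.finrank k ↥(Representation.invariants
      ((adRep r).comp (Subgroup.zpowers complexConjugation).subtype)) := by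
  set M := r complexConjugation with hM
  have hdetM : M.det = -1 := det_complexConjugation r hdet
  have hsq : M * M = 1 := by rw [hM, ← map_mul, complexConjugation_mul_self, map_one]
  rw [Matrix.det_fin_two] at hdetM
  have e00 := congrFun (congrFun hsq 0) 0
  have e01 := congrFun (congrFun hsq 0) 1
  have e10 := congrFun (congrFun hsq 1) 0
  have e11 := congrFun (congrFun hsq 1) 1
  simp [Matrix.mul_apply, Fin.sum_univ_two] at e00 e01 e10 e11
  have htr : M.trace = 0 := by
    rw [Matrix.trace_fin_two]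
    by_contra ht
    have h00 : M 0 0 * (M 0 0 + M 1 1) = 0 := by linear_combination e00 + hdetM
    have h11 : M 1 1 * (M 0 0 + M 1 1) = 0 := by linear_combination e11 + hdetM
    exact ht (by rw [(mul_eq_zero.mp h00).resolve_right ht, (mul_eq_zero.mp h11).resolve_right ht,
      add_zero])
  have hMne : (⟨M, htr⟩ : ↥(sl2 k)) ≠ 0 := fun h => by
    have h' : M = 0 := congrArg Subtype.val h
    rw [h', Matrix.zero_mul] at hsq
    exact zero_ne_one hsq
  have hmem : (⟨M, htr⟩ : ↥(sl2 k)) ∈ Representation.invariants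
      ((adRep r).comp (Subgroup.zpowers complexConjugation).subtype) :=
    mem_invariants_zpowers _ (Subtype.ext (by
      rw [coe_adRep]
      show M * M * r complexConjugation⁻¹ = M
      rw [hsq, Matrix.one_mul, complexConjugation_inv]))
  by_contra h0
  have hbot := Submodule.finrank_eq_zero.mp (Nat.eq_zero_of_not_pos h0)
  rw [hbot, Submodule.mem_bot] at hmem
  exact hMne hmem

section Descent

variable {V : Type} [AddCommGroup V] [Module k V] (ρ : Representation k GQ V)

/-- A cocycle of the levels outside `S` vanishing on inertia at the primes of `S` outside `S₀` is a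
cocycle of the levels outside `S₀`. -/
theorem mem_Z1_levelsOutside {S₀ S : Finset ℕ} {c : GQ → V}
    (hc : ∀ g h, c (g * h) = ρ g (c h) + c g) {N₀ : Subgroup GQ} (hN₀ : IsOpen (N₀ : Set GQ))
    (hlc : ∀ g s, s ∈ N₀ → c (g * s) = c g)
    (hunr : ∀ q : ℕ, q.Prime → q ∉ S → ∀ A : ValuationSubring Qb, A.LiesOverPrime q →
      ∀ σ ∈ A.inertiaSubgroupIn ℚ, c σ = 0)
    (hS : ∀ q ∈ S, q ∉ S₀ → ∀ A : ValuationSubring Qb, A.LiesOverPrime q →
      ∀ σ ∈ A.inertiaSubgroupIn ℚ, c σ = 0) :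
    c ∈ Z1 (levelsOutside S₀) ρ := by
  have h1 : c 1 = 0 := by
    have h := hc 1 1
    rw [mul_one, map_one, Module.End.one_apply] at h
    simpa using h
  let N : Subgroup GQ :=
    { carrier := {s | c s = 0}
      one_mem' := h1
      mul_mem' := fun {a b} ha hb => by
        show c (a * b) = 0
        rw [hc, show c a = 0 from ha, show c b = 0 from hb, map_zero, add_zero]
      inv_mem' := fun {a} ha => by
        show c a⁻¹ = 0
        have h := hc a⁻¹ a
        rw [inv_mul_cancel, h1, show c a = 0 from ha, map_zero, zero_add] at h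
        exact h.symm }
  refine ⟨⟨N, ⟨Subgroup.isOpen_mono (H₁ := N₀) (fun s hs => ?_) hN₀, fun q hq hqS A hA σ hσ => ?_⟩,
    fun g s hs => by rw [hc, show c s = 0 from hs, map_zero, zero_add]⟩, hc⟩
  · show c s = 0
    rw [← one_mul s, hlc 1 s hs, h1]
  · by_cases h : q ∈ S
    · exact hS q h hqS A hA σ hσ
    · exact hunr q hq h A hA σ hσ

omit [Fact p.Prime] [CharP k p] in
/-- A cocycle which is a coboundary on a subgroup is one on its conjugates. -/
theorem coboundary_conj {c : GQ → V} (hc : ∀ g h, c (g * h) = ρ g (c h) + c g) {v : V} {g : GQ}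
    (τ : GQ) (h : c g = ρ g v - v) :
    c (τ * g * τ⁻¹) = ρ (τ * g * τ⁻¹) (ρ τ v - c τ) - (ρ τ v - c τ) := by
  have h1 : c 1 = 0 := by
    have h := hc 1 1
    rw [mul_one, map_one, Module.End.one_apply] at h
    simpa using h
  have h2 := hc τ τ⁻¹
  rw [mul_inv_cancel, h1] at h2
  have e : ρ τ (c τ⁻¹) = -c τ := eq_neg_of_add_eq_zero_left h2.symm
  have e1 : ρ τ⁻¹ (ρ τ v) = v := by
    rw [← Module.End.mul_apply, ← map_mul, inv_mul_cancel, map_one, Module.End.one_apply]
  have e2 : ρ τ⁻¹ (c τ) = -c τ⁻¹ := by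
    have h3 := hc τ⁻¹ τ
    rw [inv_mul_cancel, h1] at h3
    exact eq_neg_of_add_eq_zero_left h3.symm
  simp only [hc (τ * g), hc τ g, h, map_mul, Module.End.mul_apply, map_sub, e1, e2, map_neg]
  abel

end Descent

/-- The tangent data classified by a Selmer group with Taylor-Wiles primes allowed to ramify. -/
structure IsAdmissible (r : GQ →* Matrix (Fin 2) (Fin 2) k) (P : Places) (p : ℕ)
    (Smin S : Finset ℕ) (Pp : (GQ → Matrix (Fin 2) (Fin 2) k) → Prop) (c : GQ → ↥(sl2 k)) :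
    Prop where
  cocycle : ∀ g h, c (g * h) = adRep r g (c h) + c g
  lc : ∃ N : Subgroup GQ, IsOpen (N : Set GQ) ∧ ∀ g s, s ∈ N → c (g * s) = c g
  unramified : ∀ q : ℕ, q.Prime → q ∉ S → ∀ A : ValuationSubring Qb, A.LiesOverPrime q →
    ∀ σ ∈ A.inertiaSubgroupIn ℚ, c σ = 0
  minimal : ∀ q ∈ Smin, q ≠ p → ∃ v : ↥(sl2 k), ∀ σ ∈ (P.place q).inertiaSubgroupIn ℚ,
    c σ = adRep r σ v - v
  local_p : Pp fun σ => (c σ).1

variable {V₀ : Type} [AddCommGroup V₀] [Module k V₀]

/-- Unramified classes at a chosen place. -/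
def Places.unrAt (P : Places) (ρ : Representation k GQ V₀) (q : ℕ) : Submodule k (P.H1At ρ q) :=
  unrClasses ρ (P.place q)

variable (r : GQ →* Matrix (Fin 2) (Fin 2) k) (P : Places) {Smin : Finset ℕ}

/-- Local conditions: `Lp` at `p`, unramified in `Smin`, no condition elsewhere. -/
def localConds (p : ℕ) (Smin : Finset ℕ) (Lp : Submodule k (P.H1At (adRep r) p)) (q : ℕ) :
    Submodule k (P.H1At (adRep r) q) :=
  Function.update (β := fun q => Submodule k (P.H1At (adRep r) q))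
    (fun q => if q ∈ Smin then P.unrAt (adRep r) q else ⊤) p Lp q

variable {Lp : Submodule k (P.H1At (adRep r) p)}

omit [Fact p.Prime] [CharP k p] in
theorem localConds_self : localConds r P p Smin Lp p = Lp :=
  Function.update_self (β := fun q => Submodule k (P.H1At (adRep r) q)) _ _ _

omit [Fact p.Prime] [CharP k p] in
theorem localConds_mem {q : ℕ} (hq : q ∈ Smin) (hne : q ≠ p) :
    localConds r P p Smin Lp q = P.unrAt (adRep r) q :=
  (Function.update_of_ne (β := fun q => Submodule k (P.H1At (adRep r) q)) hne _ _).trans (if_pos hq)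

omit [Fact p.Prime] [CharP k p] in
theorem localConds_notMem (hpS : p ∈ Smin) {q : ℕ} (hq : q ∉ Smin) :
    localConds r P p Smin Lp q = ⊤ :=
  (Function.update_of_ne (β := fun q => Submodule k (P.H1At (adRep r) q))
    (fun h => hq (by rw [h]; exact hpS)) _ _).trans (if_neg hq)

variable (hker : IsOpen (r.ker : Set GQ))
  (hdet : ∀ (σ : GQ) (a : ℕ), (∀ μ : Qb, μ ^ p = 1 → σ μ = μ ^ a) → (r σ).det = (a : k))
  (hprime : ∀ q ∈ Smin, q.Prime)
  (hunr : ∀ q : ℕ, q.Prime → q ∉ Smin → ∀ A : ValuationSubring Qb, A.LiesOverPrime q →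
    ∀ σ ∈ A.inertiaSubgroupIn ℚ, r σ = 1)
  {d : ℕ} {qv : Fin d → ℕ} (hinj : Function.Injective qv)
  (hqv : ∀ i, (qv i).Prime ∧ qv i ∉ Smin ∧ p ≠ qv i ∧ p ∣ qv i - 1)

include hdet hunr hqv in
/-- The dual Selmer group with trivial conditions at detecting primes vanishes. -/
theorem selmerGroup_dual_eq_bot {A : Fin d → ValuationSubring Qb} {φ : Fin d → GQ}
    (hA : ∀ i, (A i).LiesOverPrime (qv i)) (hφ : ∀ i, (A i).IsFrobeniusAt (φ i) (qv i))
    (oc : ∀ q : ℕ, Submodule k (P.H1At (twRep r) q)) (hoc : ∀ i, oc (qv i) = ⊥)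
    (sec : H1 (levelsOutside Smin) (twRep r) →ₗ[k] ↥(Z1 (levelsOutside Smin) (twRep r)))
    (hsec : ∀ x, mk1 (levelsOutside Smin) (twRep r) (sec x) = x)
    (hdetect : ∀ v : ↥(selmerGroup P Smin (twRep r) oc),
      (∀ i, (((sec v.1).1 (φ i)).1 * r (φ i)).trace = 0) → v = 0) :
    selmerGroup P (Smin ∪ Finset.univ.image qv) (twRep r) oc = ⊥ := by
  classical
  have hp : p.Prime := Fact.out
  rw [eq_bot_iff]
  intro x hx
  obtain ⟨c, rfl⟩ := mk1_surjective x
  rw [mem_selmerGroup] at hx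
  have hcQ : ∀ i, ∃ w : ↥(sl2 k), ∀ σ ∈ P.dec (qv i), c.1 σ = twRep r σ w - w := by
    intro i
    have h := hx (qv i) (Finset.mem_union_right _ (Finset.mem_image_of_mem _ (Finset.mem_univ i)))
    rw [hoc, Submodule.mem_bot, locMap_mk1, mk1_eq_zero] at h
    obtain ⟨w, hw⟩ := h
    exact ⟨w, fun σ hσ => (congrFun hw ⟨σ, hσ⟩).symm⟩
  obtain ⟨N₀, hN₀, hN₀c⟩ := c.2.1
  have hc' : c.1 ∈ Z1 (levelsOutside Smin) (twRep r) := by
    refine mem_Z1_levelsOutside (S := Smin ∪ Finset.univ.image qv) _ c.2.2 hN₀.1 hN₀c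
      (fun q hq hqS A' hA' σ hσ => ?_) (fun q hq hqS A' hA' σ hσ => ?_)
    · rw [← one_mul σ, hN₀c 1 σ (hN₀.2 q hq hqS A' hA' hσ), Z1.map_one]
    · obtain ⟨i, -, rfl⟩ := Finset.mem_image.mp ((Finset.mem_union.mp hq).resolve_left hqS)
      obtain ⟨w, hw⟩ := hcQ i
      obtain ⟨τ, rfl⟩ := exists_smul_eq_of_liesOver (hqv i).1 (P.liesOver _ (hqv i).1) hA'
      have hσ0 := conj_mem_inertia (hqv i).1 hA' hσ τ⁻¹
      rw [inv_smul_smul, inv_inv] at hσ0
      have h := coboundary_conj (twRep r) c.2.2 τ (hw _ (inertia_le_decomposition hσ0))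
      rw [show τ * (τ⁻¹ * σ * τ) * τ⁻¹ = σ by group] at h
      have hrσ := hunr _ (hqv i).1 (hqv i).2.1 _ hA' σ hσ
      rw [h, sub_eq_zero]
      refine Subtype.ext ?_
      rw [coe_twRep]
      exact twAd_of_eq_one hrσ _
  let v : ↥(selmerGroup P Smin (twRep r) oc) :=
    ⟨mk1 (levelsOutside Smin) (twRep r) ⟨c.1, hc'⟩,
    (mem_selmerGroup P Smin (twRep r) oc _).mpr fun q hq => hx q (Finset.mem_union_left _ hq)⟩
  obtain ⟨m, hm⟩ := (mk1_eq_mk1 _ _ (sec v.1) ⟨c.1, hc'⟩).mp (hsec v.1)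
  have hv : v = 0 := hdetect v fun i => by
    obtain ⟨w, hw⟩ := hcQ i
    obtain ⟨τ, hτ⟩ := exists_smul_eq_of_liesOver (hqv i).1 (P.liesOver _ (hqv i).1) (hA i)
    have hD : τ⁻¹ * φ i * τ ∈ P.dec (qv i) := by
      show τ⁻¹ * φ i * τ ∈ MulAction.stabilizer GQ (P.place (qv i))
      rw [MulAction.mem_stabilizer_iff, mul_smul, mul_smul, hτ,
        MulAction.mem_stabilizer_iff.mp (hφ i).mem_decompositionSubgroup, ← hτ, inv_smul_smul]
    have h := coboundary_conj (twRep r) c.2.2 τ (hw _ hD)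
    rw [show τ * (τ⁻¹ * φ i * τ) * τ⁻¹ = φ i by group] at h
    have hval : (sec v.1).1 (φ i) = twRep r (φ i) (m + (twRep r τ w - c.1 τ)) -
        (m + (twRep r τ w - c.1 τ)) := by
      have e : twRep r (φ i) m - m = (sec v.1).1 (φ i) - c.1 (φ i) := congrFun hm (φ i)
      rw [sub_eq_iff_eq_add.mp e.symm, h, map_add]
      abel
    have hd : (r (φ i)).det = 1 := by
      rw [hdet (φ i) (qv i) fun μ hμ => frobenius_apply_rootOfUnity (m := 1) hp (hqv i).1
        (hqv i).2.2.1.symm (hA i) (hφ i) (by rwa [pow_one])]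
      obtain ⟨t, ht⟩ := (hqv i).2.2.2
      rw [show qv i = p * t + 1 by have := (hqv i).1.one_le; omega, Nat.cast_add, Nat.cast_mul,
        CharP.cast_eq_zero, zero_mul, zero_add, Nat.cast_one]
    rw [hval, Submodule.coe_sub, coe_twRep, twAd, hd, one_smul, Matrix.sub_mul,
      Matrix.mul_assoc _ (r (φ i)⁻¹), map_inv_mul_map, Matrix.mul_one, Matrix.trace_sub,
      Matrix.trace_mul_comm, sub_self]
  have hv0 : mk1 (levelsOutside Smin) (twRep r) ⟨c.1, hc'⟩ = 0 := congrArg Subtype.val hv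
  rw [mk1_eq_zero] at hv0
  rw [Submodule.mem_bot, mk1_eq_zero]
  exact hv0

include hker hprime hunr hqv in
/-- The local terms. -/
theorem finrank_localConds_le (hpS : p ∈ Smin) (hLpfin : FiniteDimensional k ↥Lp)
    (hLp : Module.finrank k ↥Lp ≤ Module.finrank k
      ↥(Representation.invariants ((adRep r).comp (P.dec p).subtype)) + 1)
    (hregAll : ∀ i, ∀ A : ValuationSubring Qb, A.LiesOverPrime (qv i) → ∀ φ : GQ,
      A.IsFrobeniusAt φ (qv i) → (r φ).trace ^ 2 ≠ 4 * (r φ).det)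
    {q : ℕ} (hq : q ∈ Smin ∪ Finset.univ.image qv) :
    FiniteDimensional k ↥(localConds r P p Smin Lp q) ∧
      Module.finrank k ↥(localConds r P p Smin Lp q) ≤
      Module.finrank k ↥(Representation.invariants ((adRep r).comp (P.dec q).subtype)) +
        ((if q = p then 1 else 0) + (if q ∈ Finset.univ.image qv then 1 else 0)) := by
  classical
  by_cases hqp' : q = p
  · subst hqp'
    rw [localConds_self, if_pos rfl]
    exact ⟨hLpfin, le_trans hLp (Nat.add_le_add_left (Nat.le_add_right _ _) _)⟩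
  rw [if_neg hqp', zero_add]
  by_cases hqS' : q ∈ Smin
  · rw [localConds_mem r P hqS' hqp']
    have h := finrank_unrClasses_le (adRep r) (P.place q) (hprime q hqS')
      (P.liesOver q (hprime q hqS')) (smooth_adRep r (L := allLevels) ⟨r.ker, hker, fun t ht => ht⟩)
    exact ⟨h.1, h.2.trans (Nat.le_add_right _ _)⟩
  · have hqQ := (Finset.mem_union.mp hq).resolve_left hqS'
    rw [localConds_notMem r P hpS hqS', if_pos hqQ, finrank_top]
    obtain ⟨i, -, rfl⟩ := Finset.mem_image.mp hqQ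
    have hA := P.liesOver _ (hqv i).1
    obtain ⟨ψ, hψ⟩ := Deform.exists_isFrobeniusAt (hqv i).1 hA
    have h := finrank_H1_twPrime (p := p) r (hqv i).1 (hqv i).2.2.1 hA (hqv i).2.2.2
      (hunr _ (hqv i).1 hqS' _ hA) hψ hker (hregAll i _ hA ψ hψ)
    exact ⟨Module.Finite.iff_fg.mpr h.1.fg_top, h.2⟩

include hker in
/-- The classes of admissible data lie in the Selmer group. -/
theorem mk1_mem_selmerGroup (hpS : p ∈ Smin) {Q : Finset ℕ}
    {Pp : (GQ → Matrix (Fin 2) (Fin 2) k) → Prop}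
    (hLpmem : ∀ (c : GQ → ↥(sl2 k)), (∀ g h, c (g * h) = adRep r g (c h) + c g) →
      Pp (fun σ => (c σ).1) → ∀ cD : ↥(Z1 (levelsOn (P.dec p)) ((adRep r).comp (P.dec p).subtype)),
        (∀ σ, cD.1 σ = c σ.1) →
          mk1 (levelsOn (P.dec p)) ((adRep r).comp (P.dec p).subtype) cD ∈ Lp)
    {κ : GQ → ↥(sl2 k)} (hκ : IsAdmissible r P p Smin (Smin ∪ Q) Pp κ)
    (hmem : κ ∈ Z1 (levelsOutside (Smin ∪ Q)) (adRep r)) :
    mk1 (levelsOutside (Smin ∪ Q)) (adRep r) ⟨κ, hmem⟩ ∈
      selmerGroup P (Smin ∪ Q) (adRep r) (localConds r P p Smin Lp) := by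
  rw [mem_selmerGroup]
  intro q hq
  rw [locMap_mk1]
  by_cases hqp' : q = p
  · subst hqp'
    rw [localConds_self]
    exact hLpmem κ hκ.cocycle hκ.local_p _ fun σ => rfl
  by_cases hqS' : q ∈ Smin
  · rw [localConds_mem r P hqS' hqp']
    obtain ⟨v, hv⟩ := hκ.minimal q hqS' hqp'
    exact mk1_mem_unrClasses (adRep r) (P.place q) (smooth_adRep r (L := allLevels) ⟨r.ker, hker, fun t ht => ht⟩)
      _ v fun σ hσ => hv σ.1 hσ
  · rw [localConds_notMem r P hpS hqS']
    exact Submodule.mem_top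

variable (hp2 : p ≠ 2) {L : Type} [Field L] [IsAlgClosed L] (j : k →+* L)
  (hbig : IsBig (mapRep j r)) (hpS : p ∈ Smin) {Pp : (GQ → Matrix (Fin 2) (Fin 2) k) → Prop}
  (hb : TangentBound (P.place p) r Pp)
  (GW : GreenbergWiles P Smin (adRep r) (twRep r) complexConjugation)

include hp2 hker hdet hbig hpS hprime hunr hb GW in
/-- Taylor-Wiles primes killing the dual Selmer group, and the resulting bound on the tangent
spaces. -/
theorem exists_twData (S : Finset ℕ) (hSmin : Smin ⊆ S) :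
    ∃ d : ℕ, ∀ n : ℕ, ∃ qv : Fin d → ℕ, Function.Injective qv ∧
      (∀ i, (qv i).Prime ∧ qv i ∉ S ∧ p ^ (n + 1) ∣ qv i - 1) ∧
      (∀ i, ∀ A : ValuationSubring Qb, A.LiesOverPrime (qv i) → ∀ φ : GQ,
        A.IsFrobeniusAt φ (qv i) → (r φ).trace ^ 2 ≠ 4 * (r φ).det) ∧
      ∀ (T : Type) [AddCommGroup T] [Module k T] (κ : T →ₗ[k] (GQ → ↥(sl2 k))),
        (∀ t, IsAdmissible r P p Smin (Smin ∪ Finset.univ.image qv) Pp (κ t)) →
        (∀ t v, (∀ g, κ t g = adRep r g v - v) → t = 0) →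
        FiniteDimensional k T ∧ Module.finrank k T ≤ d := by
  classical
  have hp : p.Prime := Fact.out
  have h2 : (2 : k) ≠ 0 := fun h0 => hp2 ((Nat.prime_dvd_prime_iff_eq hp Nat.prime_two).mp
    ((CharP.cast_eq_zero_iff k p 2).mp (by exact_mod_cast h0)))
  obtain ⟨Lp, hLpfin, hLp, hLpmem⟩ := exists_localP r hker hb
  let Lc := localConds r P p Smin Lp
  let oc : ∀ q : ℕ, Submodule k (P.H1At (twRep r) q) := fun q => GW.orth q (Lc q)
  have hWfin : FiniteDimensional k ↥(selmerGroup P Smin (twRep r) oc) :=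
    (GW.finite Smin subset_rfl hprime Lc).1
  obtain ⟨sec, hsec⟩ := (mk1 (levelsOutside Smin) (twRep r)).exists_rightInverse_of_surjective
    (LinearMap.range_eq_top.mpr mk1_surjective)
  have hsec' : ∀ x, mk1 (levelsOutside Smin) (twRep r) (sec x) = x :=
    fun x => LinearMap.congr_fun hsec x
  let ι : ↥(selmerGroup P Smin (twRep r) oc) →ₗ[k] (GQ → Matrix (Fin 2) (Fin 2) k) :=
    (((sl2 k).subtype.compLeft GQ).comp (Submodule.subtype _)).comp
      (sec.comp (Submodule.subtype _))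
  refine ⟨Module.finrank k ↥(selmerGroup P Smin (twRep r) oc), fun n => ?_⟩
  obtain ⟨qv, A, φ, hinj, hqv, hdetect⟩ := exists_twPrimes (p := p) hp2 r hker hdet j hbig n _ _
    rfl ι (fun v => isAdCocycle_of_mem r (sec v.1).2)
    (fun v => by
      obtain ⟨N, hN, h⟩ := (sec v.1).2.1
      exact ⟨N, hN.1, fun g s hs => congrArg Subtype.val (h g s hs)⟩)
    (fun v hv => by
      obtain ⟨m, hm, hv⟩ := hv
      refine Subtype.ext ?_
      rw [ZeroMemClass.coe_zero, ← hsec' v.1, mk1_eq_zero]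
      exact ⟨⟨m, hm⟩, funext fun g => Subtype.ext ((hv g).symm)⟩)
    (S ∪ {p})
  have hqS : ∀ i, qv i ∉ S := fun i h => (hqv i).2.1 (Finset.mem_union_left _ h)
  have hqv' : ∀ i, (qv i).Prime ∧ qv i ∉ Smin ∧ p ≠ qv i ∧ p ∣ qv i - 1 := fun i =>
    ⟨(hqv i).1, fun h => hqS i (hSmin h), fun h => (hqv i).2.2.1 h.symm,
      (dvd_pow_self p n.succ_ne_zero).trans (hqv i).2.2.2.2.2.1⟩
  have hregAll : ∀ i, ∀ B : ValuationSubring Qb, B.LiesOverPrime (qv i) → ∀ ψ : GQ,
      B.IsFrobeniusAt ψ (qv i) → (r ψ).trace ^ 2 ≠ 4 * (r ψ).det := by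
    intro i B hB ψ hψ
    obtain ⟨τ, hτ⟩ := exists_conj_frobenius r (hqv i).1 (hunr _ (hqv' i).1 (hqv' i).2.1)
      (hqv i).2.2.2.1 hB (hqv i).2.2.2.2.1 hψ
    have hd : (r τ).det * (r τ⁻¹).det = 1 := by
      rw [← Matrix.det_mul, map_mul_map_inv, Matrix.det_one]
    rw [hτ, trace_conj, Matrix.det_mul, Matrix.det_mul, mul_right_comm (r τ).det, hd, one_mul]
    exact (hqv i).2.2.2.2.2.2
  refine ⟨qv, hinj, fun i => ⟨(hqv i).1, hqS i, (hqv i).2.2.2.2.2.1⟩, hregAll, ?_⟩
  have hQprime : ∀ q ∈ Smin ∪ Finset.univ.image qv, q.Prime := by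
    intro q hq
    rcases Finset.mem_union.mp hq with hq | hq
    · exact hprime q hq
    · obtain ⟨i, -, rfl⟩ := Finset.mem_image.mp hq
      exact (hqv i).1
  have hdual := selmerGroup_dual_eq_bot r P hdet hunr hqv' (fun i => (hqv i).2.2.2.1)
    (fun i => (hqv i).2.2.2.2.1) oc
    (fun i => by
      show GW.orth _ (localConds r P p Smin Lp (qv i)) = ⊥
      rw [localConds_notMem r P hpS (hqv' i).2.1]
      exact GW.orth_top _ (hqv i).1)
    sec hsec' hdetect
  intro T _ _ κ hκ hinjκ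
  have hmem : ∀ t, κ t ∈ Z1 (levelsOutside (Smin ∪ Finset.univ.image qv)) (adRep r) := fun t => by
    obtain ⟨N₀, hN₀, hlc⟩ := (hκ t).lc
    exact mem_Z1_levelsOutside _ (hκ t).cocycle hN₀ hlc (hκ t).unramified
      fun q hq hq' => absurd hq hq'
  let cl : T →ₗ[k] H1 (levelsOutside (Smin ∪ Finset.univ.image qv)) (adRep r) :=
    (mk1 _ _).comp (κ.codRestrict _ hmem)
  have hclinj : Function.Injective cl := by
    rw [injective_iff_map_eq_zero]
    intro t ht
    obtain ⟨v, hv⟩ := (mk1_eq_zero _ _ _).mp ht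
    exact hinjκ t v fun g => (congrFun hv g).symm
  obtain ⟨hfd, hfs⟩ := GW.finite (Smin ∪ Finset.univ.image qv) Finset.subset_union_left hQprime Lc
  let cl' := cl.codRestrict (selmerGroup P (Smin ∪ Finset.univ.image qv) (adRep r) Lc)
    fun t => mk1_mem_selmerGroup r P hker hpS hLpmem (hκ t) (hmem t)
  have hcl'inj : Function.Injective cl' := fun a b h => hclinj (congrArg Subtype.val h)
  refine ⟨Module.Finite.of_injective cl' hcl'inj,
    (LinearMap.finrank_le_finrank_of_injective hcl'inj).trans ?_⟩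
  have hlocal := fun q (hq : q ∈ Smin ∪ Finset.univ.image qv) =>
    finrank_localConds_le r P hker hprime hunr hqv' hpS hLpfin hLp hregAll hq
  have hbound := GW.bound (Smin ∪ Finset.univ.image qv) Finset.subset_union_left hQprime Lc
    fun q hq => (hlocal q hq).1
  have hdual0 : Module.finrank k ↥(selmerGroup P (Smin ∪ Finset.univ.image qv) (twRep r)
      fun q => GW.orth q (Lc q)) = 0 := Submodule.finrank_eq_zero.mpr hdual
  have hinv0 : Module.finrank k ↥(adRep r).invariants = 0 :=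
    Submodule.finrank_eq_zero.mpr (invariants_adRep j (fun g => rfl) hbig h2)
  have hsum : ∑ q ∈ Smin ∪ Finset.univ.image qv, Module.finrank k ↥(Lc q) ≤
      ∑ q ∈ Smin ∪ Finset.univ.image qv,
        Module.finrank k ↥(Representation.invariants ((adRep r).comp (P.dec q).subtype)) +
      (1 + Module.finrank k ↥(selmerGroup P Smin (twRep r) oc)) := by
    refine (Finset.sum_le_sum fun q hq => (hlocal q hq).2).trans (le_of_eq ?_)
    rw [Finset.sum_add_distrib, Finset.sum_add_distrib, Finset.sum_ite_eq',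
      if_pos (Finset.mem_union_left _ hpS), Finset.sum_boole, Finset.filter_mem_eq_inter,
      Finset.inter_eq_right.mpr Finset.subset_union_right, Finset.card_image_of_injective _ hinj,
      Finset.card_univ, Fintype.card_fin]
    rfl
  have hc1 := one_le_finrank_fixed (p := p) r hdet
  omega

end FA.TW
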