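import Fermat.Agent.TW.Tangent

/-!
# The adjoint cocycle attached to a tangent vector
-/

set_option autoImplicit false

noncomputable section

open IsLocalRing Matrix FA.Deform DualNumber TrivSqZeroExt

namespace FA.TW

local notation "Qb" => AlgebraicClosure ℚ
local notation "GQ" => AlgebraicClosure ℚ ≃ₐ[ℚ] AlgebraicClosure ℚ

variable {k : Type} [Field k] {O : Type} [CommRing O] [Algebra O k] {R : Type} [CommRing R]
  [Algebra O R] {π : R →+* k} (hπ : π.comp (algebraMap O R) = algebraMap O k)

include hπ in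
theorem pi_algebraMap (c : O) : π (algebraMap O R c) = algebraMap O k c := RingHom.congr_fun hπ c

/-- The point with values in the dual numbers attached to a tangent vector. -/
def tgPoint (d : ↥(tangent π O)) : R →ₐ[O] DualNumber k where
  toFun x := inl (π x) + inr (d.1 x)
  map_one' := by
    have h := d.2.2.1 1 1
    rw [one_mul, map_one, one_mul, left_eq_add] at h
    simp [h]
  map_mul' x y := by
    refine TrivSqZeroExt.ext ?_ ?_
    · simp
    · rw [d.2.2.1 x y]
      simp
      ring
  map_zero' := by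
    have h := d.2.1 0 0
    rw [add_zero, left_eq_add] at h
    simp [h]
  map_add' x y := by refine TrivSqZeroExt.ext ?_ ?_ <;> simp [d.2.1, map_add]
  commutes' c := by
    rw [d.2.2.2, inr_zero, add_zero, pi_algebraMap hπ]
    rfl

@[simp] theorem fst_tgPoint (d : ↥(tangent π O)) (x : R) : (tgPoint hπ d x).fst = π x := by
  simp [tgPoint]

@[simp] theorem snd_tgPoint (d : ↥(tangent π O)) (x : R) : (tgPoint hπ d x).snd = d.1 x := by
  simp [tgPoint]

/-- Applying a tangent vector to the entries of a matrix is a derivation. -/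
theorem map_tangent_mul (d : ↥(tangent π O)) (A B : M2 R) :
    (A * B).map d.1 = A.map π * B.map d.1 + A.map d.1 * B.map π := by
  ext i j
  simp only [Matrix.map_apply, Matrix.mul_apply, Matrix.add_apply, Fin.sum_univ_two, d.2.1, d.2.2.1]
  ring

variable (rR : GQ →* M2 R) (rb : GQ →* M2 k)

/-- The values of the cocycle attached to a tangent vector. -/
def tgVal (d : ↥(tangent π O)) (σ : GQ) : M2 k := (rR σ).map d.1 * rb σ⁻¹

theorem tgVal_mul_rb (d : ↥(tangent π O)) (σ : GQ) :
    tgVal rR rb d σ * rb σ = (rR σ).map d.1 := by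
  rw [tgVal, Matrix.mul_assoc, map_inv_mul_map, Matrix.mul_one]

variable {rR rb} (hlift : mapRep π rR = rb)

include hlift in
theorem map_lift (σ : GQ) : (rR σ).map π = rb σ := by rw [← hlift]; rfl

include hlift in
theorem tgVal_mul (d : ↥(tangent π O)) (g h : GQ) :
    tgVal rR rb d (g * h) = rb g * tgVal rR rb d h * rb g⁻¹ + tgVal rR rb d g := by
  simp only [tgVal, map_mul, map_tangent_mul, map_lift hlift, _root_.mul_inv_rev, Matrix.add_mul,
    Matrix.mul_assoc]
  congr 2
  rw [← Matrix.mul_assoc (rb h) (rb h⁻¹), map_mul_map_inv, Matrix.one_mul]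

include hπ hlift in
theorem trace_tgVal (p : ℕ) (hp : algebraMap O k p = 0)
    (hdet : ∀ σ, ∃ (a : ℕ) (y : R), (rR σ).det = a + p * y) (d : ↥(tangent π O)) (σ : GQ) :
    (tgVal rR rb d σ).trace = 0 := by
  obtain ⟨a, y, hay⟩ := hdet σ
  have hnat : ∀ n : ℕ, d.1 (n : R) = 0 := fun n => by
    rw [← map_natCast (algebraMap O R) n, d.2.2.2]
  have hd0 : d.1 ((rR σ).det) = 0 := by
    rw [hay, d.2.1, d.2.2.1, hnat, hnat, show π (p : R) = 0 by
      rw [← map_natCast (algebraMap O R) p, pi_algebraMap hπ, hp]]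
    simp
  rw [Matrix.det_fin_two, ← tangentHom_apply, map_sub, tangentHom_apply, tangentHom_apply,
    d.2.2.1, d.2.2.1] at hd0
  have hb : ∀ i j, π (rR σ i j) = rb σ i j := fun i j => by rw [← hlift]; rfl
  simp only [hb] at hd0
  have hdb : (rb σ).det ≠ 0 := fun h0 => by
    have h1 := congrArg Matrix.det (map_mul_map_inv rb σ)
    rw [Matrix.det_mul, h0, zero_mul, Matrix.det_one] at h1
    exact zero_ne_one h1
  have hadj : (rb σ).adjugate = (rb σ).det • rb σ⁻¹ := by
    calc (rb σ).adjugate = (rb σ).adjugate * (rb σ * rb σ⁻¹) := by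
          rw [map_mul_map_inv, Matrix.mul_one]
      _ = _ := by rw [← Matrix.mul_assoc, Matrix.adjugate_mul, Matrix.smul_mul, Matrix.one_mul]
  have h0 : ((rR σ).map d.1 * (rb σ).adjugate).trace = 0 := by
    rw [Matrix.adjugate_fin_two, Matrix.trace_fin_two]
    simp [Matrix.mul_apply, Fin.sum_univ_two]
    linear_combination hd0
  rw [hadj, Matrix.mul_smul, Matrix.trace_smul, smul_eq_mul, mul_eq_zero] at h0
  exact h0.resolve_left hdb

variable (p : ℕ) (hp : algebraMap O k p = 0)
  (hdet : ∀ σ, ∃ (a : ℕ) (y : R), (rR σ).det = a + p * y)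

/-- The cocycle attached to a tangent vector, linear in the tangent vector. -/
def tgClass : ↥(tangent π O) →ₗ[k] (GQ → ↥(sl2 k)) where
  toFun d σ := ⟨tgVal rR rb d σ, trace_tgVal hπ hlift p hp hdet d σ⟩
  map_add' d d' := by
    refine funext fun σ => Subtype.ext ?_
    show ((rR σ).map (d.1 + d'.1)) * _ = (rR σ).map d.1 * _ + (rR σ).map d'.1 * _
    rw [← Matrix.add_mul]
    rfl
  map_smul' c d := by
    refine funext fun σ => Subtype.ext ?_
    show ((rR σ).map (c • d.1)) * _ = c • ((rR σ).map d.1 * _)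
    rw [← Matrix.smul_mul]
    rfl

@[simp] theorem coe_tgClass (d : ↥(tangent π O)) (σ : GQ) :
    ((tgClass hπ hlift p hp hdet d σ : ↥(sl2 k)) : M2 k) = tgVal rR rb d σ := rfl

theorem tgClass_mul (d : ↥(tangent π O)) (g h : GQ) :
    tgClass hπ hlift p hp hdet d (g * h) =
      adRep rb g (tgClass hπ hlift p hp hdet d h) + tgClass hπ hlift p hp hdet d g :=
  Subtype.ext (tgVal_mul hlift d g h)

variable [IsLocalRing R] (hsurj : Function.Surjective π) (hcont : IsContRep rR)

include hsurj hcont in
theorem tgClass_lc (d : ↥(tangent π O)) : ∃ N : Subgroup GQ, IsOpen (N : Set GQ) ∧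
    ∀ g s, s ∈ N →
      tgClass hπ hlift p hp hdet d (g * s) = tgClass hπ hlift p hp hdet d g := by
  obtain ⟨L, hL, hn⟩ := hcont 2
  refine ⟨L.fixingSubgroup, IntermediateField.fixingSubgroup_isOpen L, fun g s hs => ?_⟩
  have hs0 : tgVal rR rb d s = 0 := by
    have hmap : (rR s).map d.1 = 0 := by
      ext i j
      have h1 := tangent_eq_zero_of_pow_two hsurj d
        (hn s ((IntermediateField.mem_fixingSubgroup_iff L s).mp hs) i j)
      have hone : d.1 ((1 : M2 R) i j) = 0 := by
        rcases eq_or_ne i j with rfl | hne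
        · rw [Matrix.one_apply_eq, ← map_one (algebraMap O R), d.2.2.2]
        · rw [Matrix.one_apply_ne hne, ← map_zero (algebraMap O R), d.2.2.2]
      rw [Matrix.sub_apply, ← tangentHom_apply, map_sub, tangentHom_apply, tangentHom_apply, hone,
        sub_zero] at h1
      exact h1
    rw [tgVal, hmap, Matrix.zero_mul]
  rw [tgClass_mul, show tgClass hπ hlift p hp hdet d s = 0 from Subtype.ext hs0, map_zero, zero_add]

include hlift in
/-- The deformation attached to a tangent vector whose class is a coboundary is trivial. -/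
theorem conj_of_coboundary (d : ↥(tangent π O)) (m : ↥(sl2 k))
    (hm : ∀ σ, tgClass hπ hlift p hp hdet d σ = adRep rb σ m - m) :
    ∃ U : M2 (DualNumber k), IsUnit U ∧ ∀ σ, U * mapRep (tgPoint hπ d : R →+* DualNumber k) rR σ =
      mapRep (tgPoint hπ 0 : R →+* DualNumber k) rR σ * U := by
  let E := (inlHom k k).mapMatrix (m := Fin 2)
  let eps : M2 k → M2 (DualNumber k) := fun M => M.map inr
  have heps : ∀ M N : M2 k, eps M * eps N = 0 := fun M N => by
    ext i j <;> simp [eps, Matrix.mul_apply, Fin.sum_univ_two]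
  have hl : ∀ M N : M2 k, E M * eps N = eps (M * N) := fun M N => by
    ext i j <;> simp [E, eps, Matrix.mul_apply, Fin.sum_univ_two] <;> ring
  have hr : ∀ M N : M2 k, eps M * E N = eps (M * N) := fun M N => by
    ext i j <;> simp [E, eps, Matrix.mul_apply, Fin.sum_univ_two]
  have hadd : ∀ M N : M2 k, eps (M + N) = eps M + eps N := fun M N => by
    ext i j <;> simp [eps]
  have hdec : ∀ (e : ↥(tangent π O)) σ, mapRep (tgPoint hπ e : R →+* DualNumber k) rR σ =
      E (rb σ) + eps ((rR σ).map e.1) := fun e σ => by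
    refine Matrix.ext fun i j => TrivSqZeroExt.ext ?_ ?_
    · simp [E, eps, mapRep_apply, ← map_lift hlift σ]
    · simp [E, eps, mapRep_apply]
  refine ⟨1 + eps m.1, IsUnit.of_mul_eq_one (1 - eps m.1)
    (by rw [add_mul, one_mul, mul_sub, mul_one, heps]; abel), fun σ => ?_⟩
  have hz : (rR σ).map (0 : ↥(tangent π O)).1 = 0 := by ext i j; simp
  have h0 : eps (0 : M2 k) = 0 := by ext i j <;> simp [eps]
  rw [hdec, hdec, hz, h0, add_zero]
  have hσ : (rR σ).map d.1 = rb σ * m.1 - m.1 * rb σ := by
    rw [← tgVal_mul_rb rR rb d σ, show tgVal rR rb d σ = rb σ * m.1 * rb σ⁻¹ - m.1 from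
      congrArg Subtype.val (hm σ), Matrix.sub_mul, Matrix.mul_assoc _ (rb σ⁻¹), map_inv_mul_map,
      Matrix.mul_one]
  rw [hσ, add_mul, one_mul, mul_add, mul_add, mul_one, hr, hl, heps, add_zero, add_assoc, ← hadd,
    sub_add_cancel]

end FA.TW
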