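import Fermat.Agent.TW.Quotient
import Fermat.Agent.TW.TangentClass
import Fermat.Agent.TW.Selmer
import Fermat.Agent.Deform.TestAlgebra
import Mathlib.RingTheory.DualNumber

/-!
# From deformations to adjoint cocycles with local conditions
-/

set_option autoImplicit false

noncomputable section

open IsLocalRing FA.Deform FA.LocalDef Matrix TrivSqZeroExt

namespace FA.TW

local notation "Qb" => AlgebraicClosure ℚ
local notation "GQ" => AlgebraicClosure ℚ ≃ₐ[ℚ] AlgebraicClosure ℚ

/-- A tangent bound still holds when the zero class is allowed. -/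
theorem tangentBound_or_zero {k : Type} [Field k] {A : ValuationSubring Qb}
    {r : GQ →* Matrix (Fin 2) (Fin 2) k} {P : (GQ → Matrix (Fin 2) (Fin 2) k) → Prop}
    (h : TangentBound A r P) : TangentBound A r fun c => c = 0 ∨ P c := by
  obtain ⟨Z, h1, h2, h3, h4⟩ := h
  refine ⟨Z, h1, h2, h3, fun c hc hPc => ?_⟩
  rcases hPc with rfl | hPc
  · exact Z.zero_mem
  · exact h4 c hc hPc

/-- Every prime power root of unity is moved to a power of itself. -/
theorem exists_root_exponent {p : ℕ} (hp : p.Prime) (σ : GQ) :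
    ∃ a : ℕ, ∀ μ : Qb, μ ^ p = 1 → σ μ = μ ^ a := by
  obtain ⟨ζ, hζ⟩ := exists_primitiveRoot hp 1
  rw [pow_one] at hζ
  have : NeZero p := ⟨hp.ne_zero⟩
  obtain ⟨a, -, ha⟩ := hζ.eq_pow_of_pow_eq_one
    (show σ ζ ^ p = 1 by rw [← map_pow, hζ.pow_eq_one, map_one])
  refine ⟨a, fun μ hμ => ?_⟩
  obtain ⟨i, -, rfl⟩ := hζ.eq_pow_of_pow_eq_one hμ
  rw [map_pow, ← ha, ← pow_mul, ← pow_mul, mul_comm]

/-- A local ring whose maximal ideal is nilpotent is complete. -/
theorem isAdicComplete_of_pow_eq_bot {A : Type} [CommRing A] [IsLocalRing A] {n : ℕ}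
    (hn : maximalIdeal A ^ n = ⊥) : IsAdicComplete (maximalIdeal A) A :=
  { haus' := fun x hx => by
      have h := hx n
      rw [hn, Submodule.bot_smul, SModEq.bot] at h
      exact h
    prec' := fun f hf => ⟨f n, fun m => by
      rcases le_total m n with h | h
      · exact hf h
      · have h1 := hf h
        rw [hn, Submodule.bot_smul, SModEq.bot] at h1
        rw [← h1]⟩ }

section Lift

variable {k : Type} [Field k] {O : Type} [CommRing O] [Algebra O k] {R : Type} [CommRing R]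
  [Algebra O R] {π : R →+* k} (hπ : π.comp (algebraMap O R) = algebraMap O k)
  (hO : Function.Surjective (algebraMap O k))

include hπ hO in
theorem exists_pi_eq (a : k) :
    ∃ x : R, π x = a ∧ ∀ d : ↥(tangent π O), d.1 x = 0 := by
  obtain ⟨c, rfl⟩ := hO a
  exact ⟨algebraMap O R c, RingHom.congr_fun hπ c, fun d => d.2.2.2 c⟩

include hπ hO in
/-- A nonzero tangent vector gives a point surjecting onto the dual numbers. -/
theorem exists_coords {d : ↥(tangent π O)} (hd : d ≠ 0) (a c : k) :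
    ∃ x : R, π x = a ∧ d.1 x = c := by
  obtain ⟨x₀, hx₀⟩ : ∃ x, d.1 x ≠ 0 := by
    by_contra h
    push Not at h
    exact hd (Subtype.ext (funext h))
  obtain ⟨u, hu, hud⟩ := exists_pi_eq hπ hO (π x₀)
  set x₁ := x₀ - u with hx₁
  have h1 : π x₁ = 0 := by rw [hx₁, map_sub, hu, sub_self]
  have h1d : d.1 x₁ = d.1 x₀ := by
    rw [hx₁, ← tangentHom_apply, map_sub, tangentHom_apply, tangentHom_apply, hud, sub_zero]
  obtain ⟨w, hw, hwd⟩ := exists_pi_eq hπ hO a
  obtain ⟨t, ht, htd⟩ := exists_pi_eq hπ hO (c / d.1 x₀)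
  refine ⟨w + t * x₁, by rw [map_add, map_mul, h1, hw, mul_zero, add_zero], ?_⟩
  rw [d.2.1, d.2.2.1, hwd, htd, ht, h1, h1d, mul_zero, zero_add, add_zero, div_mul_cancel₀ _ hx₀]

include hπ hO in
theorem tgPoint_surjective {d : ↥(tangent π O)} (hd : d ≠ 0) :
    Function.Surjective (tgPoint hπ d) := fun z => by
  obtain ⟨x, hx, hxd⟩ := exists_coords hπ hO hd z.fst z.snd
  exact ⟨x, TrivSqZeroExt.ext (by rw [fst_tgPoint, hx]) (by rw [snd_tgPoint, hxd])⟩

end Lift

section Rep

variable {k : Type} [Field k] {O : Type} [CommRing O] [Algebra O k] {R : Type} [CommRing R]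
  [IsLocalRing R] [Algebra O R] {π : R →+* k} (hπ : π.comp (algebraMap O R) = algebraMap O k)
  (hO : Function.Surjective (algebraMap O k))
  (ρ : GaloisRepAdic R) (b : Module.Basis (Fin 2) R ρ.V) {rb : GQ →* M2 k}
  (hlift : mapRep π (matrixOf ρ b) = rb) (A : ValuationSubring Qb)

theorem repr_apply (σ : GQ) (v : ρ.V) : ⇑(b.repr (ρ.ρ σ v)) = matrixOf ρ b σ *ᵥ ⇑(b.repr v) :=
  (LinearMap.toMatrix_mulVec_repr b b (ρ.ρ σ) v).symm

theorem map_pi_mulVec (M : M2 R) (v : Fin 2 → R) :
    (fun i => π ((M *ᵥ v) i)) = M.map π *ᵥ fun i => π (v i) := by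
  funext i
  simp [Matrix.mulVec, dotProduct, Fin.sum_univ_two]

theorem map_tangent_mulVec (d : ↥(tangent π O)) (M : M2 R) (v : Fin 2 → R) :
    (fun i => d.1 ((M *ᵥ v) i)) =
      M.map π *ᵥ (fun i => d.1 (v i)) + M.map d.1 *ᵥ fun i => π (v i) := by
  funext i
  simp only [Matrix.mulVec, dotProduct, Fin.sum_univ_two, d.2.1, d.2.2.1, Matrix.map_apply,
    Pi.add_apply]
  ring

/-- The coordinates of a vector in the dual numbers. -/
def coords (d : ↥(tangent π O)) : ρ.V →+ (Fin 2 → k) × (Fin 2 → k) :=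
  AddMonoidHom.mk' (fun v => (fun i => π (b.repr v i), fun i => d.1 (b.repr v i))) fun v w =>
    Prod.ext (funext fun i => by simp) (funext fun i => by simp [d.2.1])

include hlift in
theorem coords_apply (d : ↥(tangent π O)) (σ : GQ) (v : ρ.V) :
    coords ρ b d (ρ.ρ σ v) = act2 rb (tgVal (matrixOf ρ b) rb d) σ (coords ρ b d v) := by
  show (_, _) = (_, _)
  simp only [repr_apply, coords, AddMonoidHom.mk'_apply, map_pi_mulVec, map_tangent_mulVec,
    map_lift hlift]
  congr 1
  rw [Matrix.mulVec_mulVec _ (tgVal _ _ d σ), tgVal_mul_rb]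

/-- Every finite level has an equivariant model. -/
def HasFlatModels : Prop :=
  ∀ I : Ideal R, Finite (R ⧸ I) → ∀ [Fintype (ρ.V ⧸ (I • (⊤ : Submodule R ρ.V)))],
    HasModel A (ρ.V ⧸ (I • (⊤ : Submodule R ρ.V))) fun σ x => ρ.levelAction I σ x

theorem hasModel_congr {V W : Type} [AddCommGroup V] [Fintype V] [AddCommGroup W] [Fintype W]
    {act : GQ → V → V} {act' : GQ → W → W} (e : V ≃+ W)
    (he : ∀ σ x, e (act σ x) = act' σ (e x)) (h : HasModel A V act) : HasModel A W act' := by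
  obtain ⟨M, hM⟩ := h
  let e' : W ≃ V := e.symm.toEquiv
  refine ⟨{ a := fun i x => M.a (e' i) (e' x)
            full := fun f => ?_
            int := fun i x => M.int _ _
            one := ?_
            mul := fun i j => ?_
            comul := fun i => ?_ }, fun σ hσ i x => ?_⟩
  · obtain ⟨c, hc⟩ := M.full fun y => f (e y)
    refine ⟨fun i => c (e' i), funext fun x => ?_⟩
    have h := congrFun hc (e' x)
    simp only [Finset.sum_apply, Pi.smul_apply, smul_eq_mul] at h ⊢
    rw [show e (e' x) = x from e.apply_symm_apply x] at h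
    rw [h]
    exact (Equiv.sum_comp e' fun i => c i * M.a i (e' x)).symm
  · obtain ⟨c, hc, h1⟩ := M.one
    exact ⟨fun i => c (e' i), fun i => hc _, fun x =>
      (h1 (e' x)).trans (Equiv.sum_comp e' fun i => c i * M.a i (e' x)).symm⟩
  · obtain ⟨c, hc, h1⟩ := M.mul (e' i) (e' j)
    exact ⟨fun i => c (e' i), fun i => hc _, fun x =>
      (h1 (e' x)).trans (Equiv.sum_comp e' fun l => c l * M.a l (e' x)).symm⟩
  · obtain ⟨c, hc, h1⟩ := M.comul (e' i)
    refine ⟨fun j l => c (e' j) (e' l), fun j l => hc _ _, fun x y => ?_⟩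
    show M.a (e' i) (e' (x + y)) = _
    rw [show e' (x + y) = e' x + e' y from map_add e.symm x y, h1,
      ← Equiv.sum_comp e' fun j => ∑ l, c j l * M.a j (e' x) * M.a l (e' y)]
    exact Finset.sum_congr rfl fun j _ => (Equiv.sum_comp e' _).symm
  · show σ (M.a (e' i) (e' x)) = M.a (e' i) (e' (act' σ x))
    rw [hM σ hσ]
    congr 1
    apply e.injective
    show e (act σ (e.symm x)) = e (e.symm (act' σ x))
    rw [he, e.apply_symm_apply, e.apply_symm_apply]

/-- Models transported along a surjection with kernel `I • ⊤`. -/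
theorem hasModel_of_level (hm : HasFlatModels ρ A) {I : Ideal R} (hI : Finite (R ⧸ I)) {W : Type}
    [AddCommGroup W] [Fintype W] (F : ρ.V →+ W) (hF : Function.Surjective F)
    (hker : ∀ v, F v = 0 ↔ v ∈ I • (⊤ : Submodule R ρ.V)) {act : GQ → W → W}
    (hact : ∀ σ v, F (ρ.ρ σ v) = act σ (F v)) : HasModel A W act := by
  let f : (ρ.V ⧸ (I • (⊤ : Submodule R ρ.V))) →+ W :=
    QuotientAddGroup.lift (I • (⊤ : Submodule R ρ.V)).toAddSubgroup F fun v hv => (hker v).mpr hv
  have hf : Function.Bijective f := by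
    refine ⟨(injective_iff_map_eq_zero _).mpr fun x hx => ?_, fun y => ?_⟩
    · obtain ⟨x, rfl⟩ := Submodule.Quotient.mk_surjective _ x
      exact (Submodule.Quotient.mk_eq_zero _).mpr ((hker x).mp hx)
    · obtain ⟨v, rfl⟩ := hF y
      exact ⟨Submodule.Quotient.mk v, rfl⟩
  let _ : Fintype (ρ.V ⧸ (I • (⊤ : Submodule R ρ.V))) :=
    Fintype.ofEquiv W (Equiv.ofBijective f hf).symm
  refine hasModel_congr A (AddEquiv.ofBijective f hf) (fun σ x => ?_) (hm I hI)
  obtain ⟨x, rfl⟩ := Submodule.Quotient.mk_surjective _ x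
  exact hact σ x

variable [Fintype k]

include hπ hO hlift in
/-- The class of a nonzero tangent vector of a flat deformation is flat. -/
theorem isFlatClass_tgVal (hm : HasFlatModels ρ A) {d : ↥(tangent π O)} (hd : d ≠ 0) :
    IsFlatClass A rb (tgVal (matrixOf ρ b) rb d) := by
  let φ : R →+* DualNumber k := (tgPoint hπ d).toRingHom
  have hfin : Finite (R ⧸ RingHom.ker φ) := by
    refine Finite.of_injective (fun x => ((φ.kerLift x).fst, (φ.kerLift x).snd)) fun x y h => ?_
    refine φ.kerLift_injective (TrivSqZeroExt.ext (congrArg Prod.fst h) (congrArg Prod.snd h))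
  refine hasModel_of_level ρ A hm hfin (coords ρ b d) (fun z => ?_) (fun v => ?_)
    fun σ v => coords_apply ρ b hlift d σ v
  · choose x hx hxd using fun i => exists_coords hπ hO hd (z.1 i) (z.2 i)
    refine ⟨∑ i, x i • b i, Prod.ext (funext fun i => ?_) (funext fun i => ?_)⟩
    · show π (b.repr _ i) = _
      rw [b.repr_sum_self, hx]
    · show d.1 (b.repr _ i) = _
      rw [b.repr_sum_self, hxd]
  · rw [mem_smul_top_iff_repr b]
    refine ⟨fun h i => TrivSqZeroExt.ext ?_ ?_, fun h => ?_⟩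
    · show (tgPoint hπ d (b.repr v i)).fst = _
      rw [fst_tgPoint]
      exact congrFun (congrArg Prod.fst h) i
    · show (tgPoint hπ d (b.repr v i)).snd = _
      rw [snd_tgPoint]
      exact congrFun (congrArg Prod.snd h) i
    · refine Prod.ext (funext fun i => ?_) (funext fun i => ?_)
      · have := congrArg TrivSqZeroExt.fst (h i)
        rwa [show φ (b.repr v i) = tgPoint hπ d (b.repr v i) from rfl, fst_tgPoint, fst_zero] at this
      · have := congrArg TrivSqZeroExt.snd (h i)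
        rwa [show φ (b.repr v i) = tgPoint hπ d (b.repr v i) from rfl, snd_tgPoint, snd_zero] at this

include hπ hO hlift in
/-- The residual representation of a flat deformation is flat. -/
theorem isFlatRes_of_models (hm : HasFlatModels ρ A) : IsFlatRes A rb := by
  have hfin : Finite (R ⧸ RingHom.ker π) := Finite.of_injective _ π.kerLift_injective
  refine hasModel_of_level ρ A hm hfin
    (AddMonoidHom.mk' (fun v => fun i => π (b.repr v i)) fun v w => funext fun i => by simp)
    (fun z => ?_) (fun v => ?_) fun σ v => ?_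
  · choose x hx using fun i => exists_pi_eq hπ hO (z i)
    refine ⟨∑ i, x i • b i, funext fun i => ?_⟩
    show π (b.repr _ i) = _
    rw [b.repr_sum_self, (hx i).1]
  · rw [mem_smul_top_iff_repr b]
    exact ⟨fun h i => congrFun h i, fun h => funext h⟩
  · show (fun i => π (b.repr (ρ.ρ σ v) i)) = _
    rw [repr_apply, map_pi_mulVec, map_lift hlift]
    rfl

omit [Fintype k]

include hπ hO hlift in
/-- The classes of a strict ordinary deformation. -/
theorem isStrictOrd_tgVal {p : ℕ} (hp : algebraMap O k p = 0) (hA : A.LiesOverPrime p)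
    (h : ρ.IsStrictOrdinaryAt p) :
    IsStrictOrdRes A p rb ∧ ∀ d : ↥(tangent π O),
      IsStrictOrdClass A p rb (tgVal (matrixOf ρ b) rb d) := by
  obtain ⟨L, ⟨b', rfl⟩, -, hI, hs⟩ := h.2 A hA
  set l : Fin 2 → R := fun i => b.repr (b' 0) i with hl
  set l₀ : Fin 2 → k := fun i => π (l i) with hl₀
  have hl₀ne : l₀ ≠ 0 := by
    intro h0
    have h1 : b'.repr (b' 0) 0 = 1 := by simp
    rw [← b.sum_repr (b' 0), map_sum, Finsupp.finsetSum_apply] at h1
    have := congrArg π h1
    rw [map_sum, map_one] at this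
    refine zero_ne_one (α := k) (Eq.trans ?_ this)
    refine (Finset.sum_eq_zero fun i _ => ?_).symm
    rw [map_smul, Finsupp.smul_apply, smul_eq_mul, map_mul, show π (b.repr (b' 0) i) = 0 from
      congrFun h0 i, zero_mul]
  -- relations on coordinates
  have hline : ∀ {v : ρ.V}, v ∈ R ∙ b' 0 → ∃ s : R, ∀ i, b.repr v i = s * l i := fun {v} hv => by
    obtain ⟨s, rfl⟩ := Submodule.mem_span_singleton.mp hv
    exact ⟨s, fun i => by rw [map_smul, Finsupp.smul_apply, smul_eq_mul]⟩
  have hker : ∀ (σ : GQ) (z : R), (∀ v, ρ.ρ σ v - z • v ∈ R ∙ b' 0) →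
      ∀ u' : Fin 2 → R, ∃ s : R, ∀ i, (matrixOf ρ b σ *ᵥ u') i - z * u' i = s * l i := by
    intro σ z hz u'
    obtain ⟨s, hs⟩ := hline (hz (∑ i, u' i • b i))
    refine ⟨s, fun i => ?_⟩
    rw [← hs i, map_sub, Finsupp.sub_apply, map_smul, Finsupp.smul_apply, smul_eq_mul,
      repr_apply, b.repr_sum_self]
  choose sec hsec hsecd using exists_pi_eq hπ hO
  -- reduction of the relations
  have hred : ∀ (σ : GQ) (z : R), (∀ v, ρ.ρ σ v - z • v ∈ R ∙ b' 0) → ∀ w : Fin 2 → k,
      ∃ s : R, rb σ *ᵥ w - π z • w = π s • l₀ ∧ ∀ d : ↥(tangent π O),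
        (matrixOf ρ b σ).map d.1 *ᵥ w - d.1 z • w = π s • (fun i => d.1 (l i)) + d.1 s • l₀ := by
    intro σ z hz w
    obtain ⟨s, hs⟩ := hker σ z hz fun i => sec (w i)
    have e0 : (fun i => π (sec (w i))) = w := funext fun i => hsec (w i)
    refine ⟨s, funext fun i => ?_, fun d => funext fun i => ?_⟩
    · have h1 := congrArg π (hs i)
      rw [map_sub, map_mul, map_mul, hsec,
        show π ((matrixOf ρ b σ *ᵥ fun i => sec (w i)) i) = (rb σ *ᵥ w) i from by
          rw [← e0, ← map_lift hlift σ, ← map_pi_mulVec, e0]] at h1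
      simpa using h1
    · have h1 := congrArg (tangentHom d) (hs i)
      rw [map_sub, tangentHom_apply, tangentHom_apply, tangentHom_apply, d.2.2.1 z, d.2.2.1 s,
        hsec, hsecd] at h1
      rw [show d.1 ((matrixOf ρ b σ *ᵥ fun i => sec (w i)) i) =
          ((matrixOf ρ b σ).map d.1 *ᵥ w) i from by
        rw [show d.1 ((matrixOf ρ b σ *ᵥ fun i => sec (w i)) i) = _ from
          congrFun (map_tangent_mulVec d (matrixOf ρ b σ) fun i => sec (w i)) i, Pi.add_apply,
          show (fun i => d.1 (sec (w i))) = 0 from funext fun i => hsecd (w i) d,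
          Matrix.mulVec_zero, Pi.zero_apply, zero_add, e0]] at h1
      simp only [Pi.sub_apply, Pi.add_apply, Pi.smul_apply, smul_eq_mul]
      linear_combination h1
  have hscal : ∀ σ ∈ A.decompositionSubgroup ℚ, ∃ x z : R,
      (∀ i, (matrixOf ρ b σ *ᵥ l) i = x * l i) ∧ (∀ v, ρ.ρ σ v - z • v ∈ R ∙ b' 0) ∧
      ∀ a : ℕ, (∀ μ : Qb, μ ^ p = 1 → σ μ = μ ^ a) → π x = a * π z ∧
        ∀ d : ↥(tangent π O), d.1 x = a * d.1 z := by
    intro σ hσ
    obtain ⟨x, z, hx, hz, ha⟩ := hs σ hσ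
    refine ⟨x, z, fun i => ?_, hz, fun a haμ => ?_⟩
    · have h1 := congrArg (fun v => b.repr v i) (hx _ (Submodule.mem_span_singleton_self _))
      simpa [repr_apply, l] using h1
    · obtain ⟨y, hy⟩ := Ideal.mem_span_singleton'.mp (ha 1 a (by simpa using haμ))
      rw [pow_one, ← map_natCast (algebraMap O R) p] at hy
      have hx' : x = (a : R) * z + y * algebraMap O R (p : O) := by linear_combination -hy
      have hπp : π (algebraMap O R (p : O)) = 0 := by rw [pi_algebraMap hπ, hp]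
      refine ⟨by rw [hx', map_add, map_mul, map_mul, map_natCast, hπp, mul_zero, add_zero],
        fun d => ?_⟩
      have hnat : d.1 (a : R) = 0 := by rw [← map_natCast (algebraMap O R) a, d.2.2.2]
      rw [hx', d.2.1, d.2.2.1, d.2.2.1, hπp, d.2.2.2, hnat, map_natCast]
      ring
  refine ⟨⟨l₀, hl₀ne, fun σ hσ => ?_, fun σ hσ v => ?_⟩,
    fun d => ⟨l₀, fun i => d.1 (l i), hl₀ne, fun σ hσ => ?_, fun σ hσ v => ?_⟩⟩
  · obtain ⟨x, z, hxl, hz, ha⟩ := hscal σ hσ
    refine ⟨π x, π z, ?_, fun v => ?_, fun a h' => (ha a h').1⟩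
    · funext i
      rw [← map_lift hlift σ, ← map_pi_mulVec]
      show π ((matrixOf ρ b σ *ᵥ l) i) = _
      rw [hxl, map_mul]
      rfl
    · obtain ⟨s, hs, -⟩ := hred σ z hz v
      exact ⟨π s, hs⟩
  · obtain ⟨s, hs, -⟩ := hred σ 1 (fun v => by rw [one_smul]; exact hI σ hσ v) v
    exact ⟨π s, by rwa [map_one, one_smul] at hs⟩
  · obtain ⟨x, z, hxl, hz, ha⟩ := hscal σ hσ
    refine ⟨π x, d.1 x, π z, d.1 z, ?_, fun v => ?_, fun a h' => ⟨(ha a h').1, (ha a h').2 d⟩⟩
    · have h1 := coords_apply ρ b hlift d σ (b' 0)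
      refine h1.symm.trans (Prod.ext (funext fun i => ?_) (funext fun i => ?_))
      · show π (b.repr (ρ.ρ σ (b' 0)) i) = _
        rw [repr_apply]
        show π ((matrixOf ρ b σ *ᵥ l) i) = π x * π (l i)
        rw [hxl, map_mul]
      · show d.1 (b.repr (ρ.ρ σ (b' 0)) i) = _
        rw [repr_apply]
        show d.1 ((matrixOf ρ b σ *ᵥ l) i) = π x * d.1 (l i) + d.1 x * π (l i)
        rw [hxl, d.2.2.1]
        ring
    · obtain ⟨s, hs, hsd⟩ := hred σ z hz v.1
      obtain ⟨t, ht, -⟩ := hred σ z hz v.2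
      refine ⟨π s, d.1 s + π t, Prod.ext hs ?_⟩
      show rb σ *ᵥ v.2 + tgVal (matrixOf ρ b) rb d σ *ᵥ (rb σ *ᵥ v.1) - (π z • v.2 + d.1 z • v.1) = _
      rw [Matrix.mulVec_mulVec, tgVal_mul_rb, add_sub_add_comm, ht, hsd d, add_smul]
      abel
  · obtain ⟨s, hs, hsd⟩ := hred σ 1 (fun v => by rw [one_smul]; exact hI σ hσ v) v.1
    obtain ⟨t, ht, -⟩ := hred σ 1 (fun v => by rw [one_smul]; exact hI σ hσ v) v.2
    rw [map_one, one_smul] at hs ht
    have hd1 : d.1 1 = 0 := by rw [← map_one (algebraMap O R), d.2.2.2]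
    have hsd' := hsd d
    rw [hd1, zero_smul, sub_zero] at hsd'
    refine ⟨π s, d.1 s + π t, Prod.ext hs ?_⟩
    show rb σ *ᵥ v.2 + tgVal (matrixOf ρ b) rb d σ *ᵥ (rb σ *ᵥ v.1) - v.2 = _
    rw [Matrix.mulVec_mulVec, tgVal_mul_rb, add_sub_right_comm, ht, hsd', add_smul]
    abel

end Rep

end FA.TW
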