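import Fermat.Agent.TW.Core
import Fermat.Agent.LocalDef.TangentStrict
import Fermat.Prelude.Def_GaloisRep_DeformationRingData
import Fermat.Prelude.Def_GaloisRep_StrictOrdinary
import Fermat.Prelude.Def_GaloisRep_Flat

/-!
# Taylor-Wiles primes for the strict ordinary and flat problems
-/

set_option autoImplicit false

noncomputable section

open IsLocalRing FA.Deform FA.LocalDef Polynomial

namespace FA.TW

local notation "Qb" => AlgebraicClosure ℚ
local notation "GQ" => AlgebraicClosure ℚ ≃ₐ[ℚ] AlgebraicClosure ℚ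

/-- The cocycle of a tangent vector is smooth. -/
theorem isSmoothClass_tgVal {k : Type} [Field k] {O R : Type} [CommRing O] [Algebra O k]
    [CommRing R] [IsLocalRing R] [Algebra O R] {π : R →+* k} (hsurj : Function.Surjective π)
    {rR : GQ →* Matrix (Fin 2) (Fin 2) R} (hcont : IsContRep rR)
    (rb : GQ →* Matrix (Fin 2) (Fin 2) k) (A : ValuationSubring Qb) (d : ↥(tangent π O)) :
    IsSmoothClass A (tgVal rR rb d) := by
  obtain ⟨L, hL, hn⟩ := hcont 2
  refine ⟨L.fixingSubgroup, IntermediateField.fixingSubgroup_isOpen L, fun s _ hs => ?_⟩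
  have hmap : (rR s).map d.1 = 0 := by
    ext i j
    have h1 := tangent_eq_zero_of_pow_two hsurj d
      (hn s ((IntermediateField.mem_fixingSubgroup_iff L s).mp hs) i j)
    have hone : d.1 ((1 : Matrix (Fin 2) (Fin 2) R) i j) = 0 := by
      rcases eq_or_ne i j with rfl | hne
      · rw [Matrix.one_apply_eq, ← map_one (algebraMap O R), d.2.2.2]
      · rw [Matrix.one_apply_ne hne, ← map_zero (algebraMap O R), d.2.2.2]
    rw [Matrix.sub_apply, ← tangentHom_apply, map_sub, tangentHom_apply, tangentHom_apply, hone,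
      sub_zero] at h1
    exact h1
  rw [tgVal, hmap, Matrix.zero_mul]

variable {O : Type} [CommRing O] [IsDomain O] [IsDiscreteValuationRing O]
  [IsAdicComplete (maximalIdeal O) O] [Finite (ResidueField O)]
  (p : ℕ) [Fact p.Prime] (hp2 : p ≠ 2) (hpO : (p : O) ∈ maximalIdeal O)
  (ρbar : ResidualGaloisRep (ResidueField O)) (habs : ρbar.IsAbsolutelyIrreducible)
  (hdet : (GaloisRepAdic.ofResidualGaloisRep ρbar).DetIsCyclotomic p)
  (hsplit : ∀ σ : GQ,
    ∃ α β : ResidueField O, LinearMap.charpoly (ρbar.ρ σ) = (X - C α) * (X - C β))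
  (hTW : ∀ G : Subgroup GQ, G.index = 2 →
    ∀ V : Submodule (AlgebraicClosure (ResidueField O))
      (ρbar.baseChange (AlgebraicClosure (ResidueField O))).V,
      (∀ σ ∈ G, ∀ x ∈ V, (ρbar.baseChange (AlgebraicClosure (ResidueField O))).ρ σ x ∈ V) →
        V = ⊥ ∨ V = ⊤)
  (S Smin : Finset ℕ) (hpSmin : p ∈ Smin) (hSmin : Smin ⊆ S) (hS : ∀ q ∈ S, q.Prime)
  (hmin : ∀ q : ℕ, q.Prime → q ≠ p → (q ∈ Smin ↔ ¬ ρbar.IsUnramifiedAt q))
  (P : Places)
  (GW : GreenbergWiles P Smin (adRep (resMatrix ρbar)) (twRep (resMatrix ρbar))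
    complexConjugation)

include hp2 hpO habs hdet hsplit hTW hpSmin hSmin hS hmin GW in
/-- The strict ordinary half. -/
theorem exists_twPrimes_strictOrdinary
    (hb : IsStrictOrdRes (P.place p) p (resMatrix ρbar) →
      TangentBound (P.place p) (resMatrix ρbar) fun c =>
        IsSmoothClass (P.place p) c ∧ IsStrictOrdClass (P.place p) p (resMatrix ρbar) c) :
    ∃ r : ℕ, ∀ n : ℕ, ∃ qv : Fin r → ℕ, Function.Injective qv ∧
      (∀ i, (qv i).Prime ∧ qv i ∉ S ∧ p ^ (n + 1) ∣ qv i - 1) ∧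
      (∀ i, ∀ A : ValuationSubring Qb, A.LiesOverPrime (qv i) →
        ∀ φ : GQ, A.IsFrobeniusAt φ (qv i) →
          ∃ α β : ResidueField O, α ≠ β ∧
            LinearMap.charpoly (ρbar.ρ φ) = (X - C α) * (X - C β)) ∧
      ∀ DQ : GaloisRep.DeformationRingData O ρbar (fun _A _ _ _ ρ =>
          GaloisRep.strictOrdinaryCondition O p (Smin ∪ Finset.univ.image qv) ρ ∧
            ∀ q ∈ Smin, q.Prime → q ≠ p → ρ.IsUnipotentOnInertiaAt q),
        ∃ γ : MvPowerSeries (Fin r) O →ₐ[O] DQ.R, Function.Surjective γ :=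
  exists_twPrimes_surjective p hp2 hpO ρbar habs hdet hsplit hTW S Smin hpSmin hSmin hS hmin P GW
    (fun _A _ _ ρ => ρ.IsStrictOrdinaryAt p)
    (fun _ _ _ _ _ _ φ hφ ρ _ h => isStrictOrdinaryAt_baseChange φ hφ ρ h)
    (IsStrictOrdRes (P.place p) p (resMatrix ρbar)) _
    (fun {R} _ _ _ {π} hπ ρ b hlift h => by
      have := isStrictOrd_tgVal hπ residue_surjective ρ b hlift (P.place p)
        (by rw [map_natCast, ← map_natCast (residue O), residue_eq_zero_iff]; exact hpO)
        (P.liesOver p Fact.out) h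
      have hsurj := Function.Surjective.of_comp (f := π) (g := algebraMap O _) (by
        rw [← RingHom.coe_comp, hπ]; exact residue_surjective)
      exact ⟨this.1, fun d _ =>
        ⟨isSmoothClass_tgVal hsurj (isContRep_matrixOf ρ b) _ _ d, this.2 d⟩⟩)
    hb

include hp2 hpO habs hdet hsplit hTW hpSmin hSmin hS hmin GW in
/-- The flat half. -/
theorem exists_twPrimes_flat [Fintype (ResidueField O)]
    (hb : IsFlatRes (P.place p) (resMatrix ρbar) →
      TangentBound (P.place p) (resMatrix ρbar) (IsFlatClass (P.place p) (resMatrix ρbar)))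
    (hbridge : ∀ {R : Type} [CommRing R] [IsLocalRing R] (ρ : GaloisRepAdic R),
      ρ.IsFlatAt p → HasFlatModels ρ (P.place p)) :
    ∃ r : ℕ, ∀ n : ℕ, ∃ qv : Fin r → ℕ, Function.Injective qv ∧
      (∀ i, (qv i).Prime ∧ qv i ∉ S ∧ p ^ (n + 1) ∣ qv i - 1) ∧
      (∀ i, ∀ A : ValuationSubring Qb, A.LiesOverPrime (qv i) →
        ∀ φ : GQ, A.IsFrobeniusAt φ (qv i) →
          ∃ α β : ResidueField O, α ≠ β ∧
            LinearMap.charpoly (ρbar.ρ φ) = (X - C α) * (X - C β)) ∧
      ∀ DQ : GaloisRep.DeformationRingData O ρbar (fun _A _ _ _ ρ =>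
          GaloisRep.flatCondition O p (Smin ∪ Finset.univ.image qv) ρ ∧
            ∀ q ∈ Smin, q.Prime → q ≠ p → ρ.IsUnipotentOnInertiaAt q),
        ∃ γ : MvPowerSeries (Fin r) O →ₐ[O] DQ.R, Function.Surjective γ :=
  exists_twPrimes_surjective p hp2 hpO ρbar habs hdet hsplit hTW S Smin hpSmin hSmin hS hmin P GW
    (fun _A _ _ ρ => ρ.IsFlatAt p)
    (fun _ _ _ _ _ _ φ hφ ρ hs h => isFlatAt_baseChange φ hφ ρ hs h)
    (IsFlatRes (P.place p) (resMatrix ρbar)) _
    (fun hπ ρ b hlift h =>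
      ⟨isFlatRes_of_models hπ residue_surjective ρ b hlift _ (hbridge ρ h),
        fun _ hd => isFlatClass_tgVal hπ residue_surjective ρ b hlift _ (hbridge ρ h) hd⟩)
    hb

end FA.TW
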