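import Fermat.Agent.TW.AdRep
import Fermat.Agent.TW.Frobenius
import Fermat.Agent.Local.Inertia
import Fermat.Agent.GalCoh.Coind
import Mathlib.Topology.Algebra.Group.ClosedSubgroup
import Fermat.Agent.GalCoh.Pair

/-!
# Levels of the Galois group of `ℚ` unramified outside a finite set, local groups, Selmer groups
-/

set_option autoImplicit false

noncomputable section

open FA.GalCoh
open scoped Pointwise

namespace FA.TW

local notation "Qb" => AlgebraicClosure ℚ
local notation "GQ" => AlgebraicClosure ℚ ≃ₐ[ℚ] AlgebraicClosure ℚ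

/-- Conjugates of inertia elements are inertia elements at the conjugate place. -/
theorem conj_mem_inertia {A : ValuationSubring Qb} {q : ℕ} (hq : q.Prime)
    (hA : A.LiesOverPrime q) {σ : GQ} (hσ : σ ∈ A.inertiaSubgroupIn ℚ) (τ : GQ) :
    τ * σ * τ⁻¹ ∈ (τ • A).inertiaSubgroupIn ℚ := by
  refine Local.mem_inertiaSubgroupIn_of_forall hq (FA.Density.liesOverPrime_smul hA τ) fun b => ?_
  rw [Deform.mem_primeAt, FA.Density.mem_nonunits_smul_iff]
  have h := (Local.inert_of_mem_inertiaSubgroupIn A hσ).sub_lt (τ⁻¹ (b : Qb))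
    ((A.valuation_le_one_iff _).mpr
      (by
        have := Deform.zbar_mem_valuationSubring A (τ⁻¹ • b)
        rwa [integralClosure.coe_smul, AlgEquiv.smul_def] at this))
  rw [A.mem_nonunits_iff]
  convert h using 2
  push_cast
  rw [integralClosure.coe_smul, AlgEquiv.smul_def, map_sub]
  simp [AlgEquiv.mul_apply, AlgEquiv.aut_inv]

/-- The open subgroups containing the inertia groups outside `S`. -/
def levelsOutside (S : Finset ℕ) : Levels GQ where
  carrier := {N | IsOpen (N : Set GQ) ∧ ∀ q : ℕ, q.Prime → q ∉ S → ∀ A : ValuationSubring Qb,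
    A.LiesOverPrime q → A.inertiaSubgroupIn ℚ ≤ N}
  top_mem := ⟨by simp, fun q _ _ A _ => le_top⟩
  inf_mem {N N'} h h' := ⟨by rw [Subgroup.coe_inf]; exact h.1.inter h'.1,
    fun q hq hqS A hA => le_inf (h.2 q hq hqS A hA) (h'.2 q hq hqS A hA)⟩
  exists_normal {N} h := by
    have hfi : N.FiniteIndex := by
      have : Finite (GQ ⧸ N) := Subgroup.quotient_finite_of_isOpen N h.1
      exact Subgroup.finiteIndex_of_finite_quotient
    refine ⟨N.normalCore, ⟨?_, fun q hq hqS A hA σ hσ => fun τ => ?_⟩, Subgroup.normalCore_le N,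
      Subgroup.normalCore_normal N⟩
    · exact Subgroup.isOpen_of_isClosed_of_finiteIndex _
        (Subgroup.normalCore_isClosed N (Subgroup.isClosed_of_isOpen N h.1))
    · refine h.2 q hq hqS (τ • A) (FA.Density.liesOverPrime_smul hA τ) ?_
      exact conj_mem_inertia hq hA hσ τ
  finiteIndex {N} h := by
    have : Finite (GQ ⧸ N) := Subgroup.quotient_finite_of_isOpen N h.1
    exact Subgroup.finiteIndex_of_finite_quotient

/-- All open subgroups. -/
def allLevels : Levels GQ where
  carrier := {N | IsOpen (N : Set GQ)}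
  top_mem := by simp
  inf_mem {N N'} h h' := by
    show IsOpen ((N ⊓ N' : Subgroup GQ) : Set GQ)
    rw [Subgroup.coe_inf]
    exact IsOpen.inter h h'
  exists_normal {N} h := by
    have h' : IsOpen (N : Set GQ) := h
    obtain ⟨U, hU⟩ := ProfiniteGrp.exist_openNormalSubgroup_sub_open_nhds_of_one h' N.one_mem
    exact ⟨U.toSubgroup, U.isOpen', hU, U.isNormal'⟩
  finiteIndex {N} h := by
    have : Finite (GQ ⧸ N) := Subgroup.quotient_finite_of_isOpen N h
    exact Subgroup.finiteIndex_of_finite_quotient

theorem compat_allLevels (S : Finset ℕ) : Compat (levelsOutside S) allLevels (MonoidHom.id GQ) :=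
  fun N hN => ⟨N, hN.1, le_rfl⟩

/-- All open subgroups of a subgroup. -/
def levelsOn (D : Subgroup GQ) : Levels D := Levels.sub allLevels D

theorem compat_subtype (S : Finset ℕ) (D : Subgroup GQ) :
    Compat (levelsOutside S) (levelsOn D) D.subtype :=
  fun N hN => ⟨N.subgroupOf D, ⟨N, hN.1, rfl⟩, le_rfl⟩

variable {k : Type} [Field k] {V W : Type} [AddCommGroup V] [Module k V] [AddCommGroup W]
  [Module k W]

/-- Localisation of classes at a subgroup. -/
def locMap (S : Finset ℕ) (ρ : Representation k GQ V) (D : Subgroup GQ) :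
    H1 (levelsOutside S) ρ →ₗ[k] H1 (levelsOn D) (ρ.comp D.subtype) :=
  map1 (compat_subtype S D) (Equi.res D.subtype ρ)

theorem locMap_mk1 (S : Finset ℕ) (ρ : Representation k GQ V) (D : Subgroup GQ)
    (c : ↥(Z1 (levelsOutside S) ρ)) :
    locMap S ρ D (mk1 _ ρ c) =
      mk1 (levelsOn D) (ρ.comp D.subtype) (mapZ1 (compat_subtype S D) (Equi.res D.subtype ρ) c) := rfl

/-- A choice of a place above every prime. -/
structure Places where
  place : ℕ → ValuationSubring Qb
  liesOver : ∀ q : ℕ, q.Prime → (place q).LiesOverPrime q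

/-- The decomposition group of the chosen place. -/
abbrev Places.dec (P : Places) (q : ℕ) : Subgroup GQ := (P.place q).decompositionSubgroup ℚ

theorem exists_places : Nonempty Places := by
  have : ∀ q : ℕ, ∃ A : ValuationSubring Qb, q.Prime → A.LiesOverPrime q := fun q => by
    by_cases hq : q.Prime
    · exact (Deform.exists_liesOverPrime hq).imp fun A hA _ => hA
    · exact ⟨⊤, fun h => absurd h hq⟩
  choose A hA using this
  exact ⟨⟨A, hA⟩⟩

/-- Local cohomology at the chosen place above `q`. -/
abbrev Places.H1At (P : Places) (ρ : Representation k GQ V) (q : ℕ) : Type :=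
  H1 (levelsOn (P.dec q)) (ρ.comp (P.dec q).subtype)

/-- The Selmer group of a family of local conditions at the primes of `S`. -/
def selmerGroup (P : Places) (S : Finset ℕ) (ρ : Representation k GQ V)
    (L : ∀ q : ℕ, Submodule k (P.H1At ρ q)) : Submodule k (H1 (levelsOutside S) ρ) :=
  ⨅ q ∈ S, (L q).comap (locMap S ρ (P.dec q))

theorem mem_selmerGroup (P : Places) (S : Finset ℕ) (ρ : Representation k GQ V)
    (L : ∀ q : ℕ, Submodule k (P.H1At ρ q)) (x : H1 (levelsOutside S) ρ) :
    x ∈ selmerGroup P S ρ L ↔ ∀ q ∈ S, locMap S ρ (P.dec q) x ∈ L q := by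
  simp [selmerGroup, Submodule.mem_iInf]

/-- The Greenberg-Wiles inequality for a dual pair unramified outside `S₀`: orthogonal complements
of local conditions exist, the complement of everything is zero, and the dimensions of the two
Selmer groups differ by at most the sum of the local terms, the term of the real place being
`-dim` of the fixed space of a complex conjugation. -/
structure GreenbergWiles (P : Places) (S₀ : Finset ℕ) (ρ : Representation k GQ V)
    (σ : Representation k GQ W) (c : GQ) where
  orth : ∀ q : ℕ, Submodule k (P.H1At ρ q) → Submodule k (P.H1At σ q)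
  orth_top : ∀ q : ℕ, q.Prime → orth q ⊤ = ⊥
  finite : ∀ S : Finset ℕ, S₀ ⊆ S → (∀ q ∈ S, q.Prime) →
    ∀ L : ∀ q : ℕ, Submodule k (P.H1At ρ q),
      FiniteDimensional k ↥(selmerGroup P S σ fun q => orth q (L q)) ∧
      FiniteDimensional k ↥(selmerGroup P S ρ L)
  bound : ∀ S : Finset ℕ, S₀ ⊆ S → (∀ q ∈ S, q.Prime) →
    ∀ L : ∀ q : ℕ, Submodule k (P.H1At ρ q), (∀ q ∈ S, FiniteDimensional k ↥(L q)) →
      Module.finrank k ↥(selmerGroup P S ρ L) + Module.finrank k ↥σ.invariants +
          Module.finrank k ↥(Representation.invariants (ρ.comp (Subgroup.zpowers c).subtype)) +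
          ∑ q ∈ S, Module.finrank k ↥(Representation.invariants (ρ.comp (P.dec q).subtype)) ≤
        Module.finrank k ↥(selmerGroup P S σ fun q => orth q (L q)) +
          Module.finrank k ↥ρ.invariants + ∑ q ∈ S, Module.finrank k ↥(L q)

end FA.TW
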