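import Mathlib.RingTheory.MvPowerSeries.Equiv
import Mathlib.RingTheory.MvPolynomial.Ideal
import Mathlib.RingTheory.AdicCompletion.RingHom
import Mathlib.RingTheory.DiscreteValuationRing.Basic
import Mathlib.RingTheory.LocalRing.ResidueField.Basic

/-!
# Presentations of complete local algebras by power series rings
-/

set_option autoImplicit false

noncomputable section

open IsLocalRing

namespace FA.TW

variable {O : Type} [CommRing O] {R : Type} [CommRing R] [IsLocalRing R] [Algebra O R]

/-- Polynomials in the ideal generated by a constant and the variables: their coefficients are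
divisible by the expected powers of the constant. -/
theorem coeff_mem_of_mem_pow {σ : Type} (ϖ : O) (n : ℕ) {t : MvPolynomial σ O}
    (ht : t ∈ (Ideal.span ({MvPolynomial.C ϖ} ∪ Set.range MvPolynomial.X :
      Set (MvPolynomial σ O))) ^ n) (x : σ →₀ ℕ) :
    t.coeff x ∈ Ideal.span {ϖ} ^ (n - Finsupp.degree x) := by
  classical
  induction n generalizing t x with
  | zero => simp
  | succ n ih =>
    rw [pow_succ'] at ht
    induction ht using Submodule.mul_induction_on' generalizing x with
    | mem_mul_mem a ha b hb =>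
      rw [MvPolynomial.coeff_mul]
      refine Ideal.sum_mem _ fun u hu => ?_
      rw [Finset.mem_antidiagonal] at hu
      have ha' : a.coeff u.1 ∈ Ideal.span {ϖ} ^ (1 - Finsupp.degree u.1) := by
        clear hu hb
        induction ha using Submodule.span_induction generalizing u with
        | mem y hy =>
          rcases hy with rfl | ⟨i, rfl⟩
          · rw [MvPolynomial.coeff_C]
            split_ifs with h
            · exact Ideal.pow_le_pow_right (Nat.sub_le 1 _)
                (by rw [pow_one]; exact Ideal.mem_span_singleton_self ϖ)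
            · exact Submodule.zero_mem _
          · rw [MvPolynomial.coeff_X]
            split_ifs with h
            · rw [← h, Finsupp.degree_single, Nat.sub_self, pow_zero, Ideal.one_eq_top]
              trivial
            · exact Submodule.zero_mem _
        | zero => simp
        | add y z _ _ hy hz => rw [MvPolynomial.coeff_add]; exact add_mem (hy u) (hz u)
        | smul r y _ hy =>
          rw [smul_eq_mul, MvPolynomial.coeff_mul]
          refine Ideal.sum_mem _ fun w hw => Ideal.mul_mem_left _ _ ?_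
          rw [Finset.mem_antidiagonal] at hw
          refine Ideal.pow_le_pow_right (Nat.sub_le_sub_left ?_ 1) (hy (w.2, u.2))
          rw [← hw, map_add]
          exact le_add_self
      have hb' := ih hb u.2
      have := Ideal.mul_mem_mul ha' hb'
      rw [← pow_add] at this
      refine Ideal.pow_le_pow_right ?_ this
      rw [← hu, map_add]
      omega
    | add y hy z hz ihy ihz => rw [MvPolynomial.coeff_add]; exact add_mem (ihy x) (ihz x)

variable {r : ℕ} (x : Fin r → R) (hx : ∀ i, x i ∈ maximalIdeal R)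

include hx in
theorem aeval_mem_maximalIdeal_pow {n : ℕ} {t : MvPolynomial (Fin r) O}
    (ht : t ∈ MvPolynomial.idealOfVars (Fin r) O ^ n) :
    MvPolynomial.aeval x t ∈ maximalIdeal R ^ n := by
  have h : (MvPolynomial.idealOfVars (Fin r) O).map (MvPolynomial.aeval x) ≤ maximalIdeal R := by
    rw [MvPolynomial.idealOfVars, Ideal.map_span, Ideal.span_le]
    rintro _ ⟨_, ⟨i, rfl⟩, rfl⟩
    rw [MvPolynomial.aeval_X]
    exact hx i
  have h1 := Ideal.mem_map_of_mem (MvPolynomial.aeval x) ht
  rw [Ideal.map_pow] at h1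
  exact Ideal.pow_right_mono h n h1

/-- The truncated evaluation map. -/
def evalTrunc (n : ℕ) : MvPowerSeries (Fin r) O →ₐ[O] R ⧸ maximalIdeal R ^ n :=
  (Ideal.Quotient.liftₐ (MvPolynomial.idealOfVars (Fin r) O ^ n)
    ((Ideal.Quotient.mkₐ O (maximalIdeal R ^ n)).comp (MvPolynomial.aeval x)) fun t ht => by
      rw [AlgHom.comp_apply, Ideal.Quotient.mkₐ_eq_mk, Ideal.Quotient.eq_zero_iff_mem]
      exact aeval_mem_maximalIdeal_pow x hx ht).comp
    ((MvPowerSeries.truncTotalAlgHom (Fin r) O n).restrictScalars O)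

theorem evalTrunc_apply (n : ℕ) (s : MvPowerSeries (Fin r) O) :
    evalTrunc x hx n s =
      Ideal.Quotient.mk (maximalIdeal R ^ n) (MvPolynomial.aeval x (s.truncTotal n)) := rfl


/-- The ideal generated by a constant and the variables. -/
def varIdeal (ϖ : O) (r : ℕ) : Ideal (MvPolynomial (Fin r) O) :=
  Ideal.span ({MvPolynomial.C ϖ} ∪ Set.range MvPolynomial.X)

include hx in
theorem map_varIdeal_le {ϖ : O} (hϖR : algebraMap O R ϖ ∈ maximalIdeal R) :
    (varIdeal ϖ r).map (MvPolynomial.aeval x) ≤ maximalIdeal R := by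
  rw [varIdeal, Ideal.map_span, Ideal.span_le]
  rintro _ ⟨t, ht | ⟨i, rfl⟩, rfl⟩
  · rw [Set.mem_singleton_iff.mp ht, MvPolynomial.aeval_C]
    exact hϖR
  · rw [MvPolynomial.aeval_X]
    exact hx i

include hx in
theorem pow_le_map_sup {ϖ : O} (hϖR : algebraMap O R ϖ ∈ maximalIdeal R)
    (hgen : maximalIdeal R ≤
      Ideal.span ({algebraMap O R ϖ} ∪ Set.range x) ⊔ maximalIdeal R ^ 2) (n : ℕ) :
    maximalIdeal R ^ n ≤ ((varIdeal ϖ r) ^ n).map (MvPolynomial.aeval x) ⊔
      maximalIdeal R ^ (n + 1) := by
  have hJle := map_varIdeal_le x hx hϖR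
  induction n with
  | zero => simp [Ideal.map_top]
  | succ n ih =>
    have h1 : maximalIdeal R ≤
        (varIdeal ϖ r).map (MvPolynomial.aeval x) ⊔ maximalIdeal R ^ 2 := by
      refine hgen.trans (sup_le_sup_right (Ideal.span_le.mpr ?_) _)
      rintro _ (rfl | ⟨i, rfl⟩)
      · have := Ideal.mem_map_of_mem (MvPolynomial.aeval x)
          (Ideal.subset_span (Or.inl rfl) : MvPolynomial.C ϖ ∈ varIdeal ϖ r)
        rwa [MvPolynomial.aeval_C] at this
      · have := Ideal.mem_map_of_mem (MvPolynomial.aeval x)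
          (Ideal.subset_span (Or.inr ⟨i, rfl⟩) :
            (MvPolynomial.X i : MvPolynomial (Fin r) O) ∈ varIdeal ϖ r)
        rwa [MvPolynomial.aeval_X] at this
    have hJn : ((varIdeal ϖ r) ^ n).map (MvPolynomial.aeval x) ≤ maximalIdeal R ^ n := by
      rw [Ideal.map_pow]; exact Ideal.pow_right_mono hJle n
    rw [pow_succ (maximalIdeal R) n, pow_succ (varIdeal ϖ r) n, Ideal.map_mul]
    refine (Ideal.mul_mono ih h1).trans ?_
    rw [Ideal.sup_mul, Ideal.mul_sup, Ideal.mul_sup]
    refine sup_le (sup_le le_sup_left ?_) (sup_le ?_ ?_) <;> refine le_sup_of_le_right ?_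
    · refine (Ideal.mul_mono_left hJn).trans ?_
      rw [← pow_add]
    · refine (Ideal.mul_mono_right hJle).trans ?_
      rw [← pow_succ]
    · rw [← pow_add]
      exact Ideal.pow_le_pow_right (by omega)

include hx in
theorem exists_approx {ϖ : O} (hϖR : algebraMap O R ϖ ∈ maximalIdeal R)
    (hres : Function.Surjective (residue R ∘ algebraMap O R))
    (hgen : maximalIdeal R ≤
      Ideal.span ({algebraMap O R ϖ} ∪ Set.range x) ⊔ maximalIdeal R ^ 2) (n : ℕ) {z : R}
    (hz : z ∈ maximalIdeal R ^ n) :
    ∃ t ∈ varIdeal ϖ r ^ n, z - MvPolynomial.aeval x t ∈ maximalIdeal R ^ (n + 1) := by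
  obtain ⟨a, ha, b, hb, rfl⟩ := Submodule.mem_sup.mp (pow_le_map_sup x hx hϖR hgen n hz)
  suffices h : ∃ t ∈ varIdeal ϖ r ^ n, a - MvPolynomial.aeval x t ∈ maximalIdeal R ^ (n + 1) by
    obtain ⟨t, ht, h⟩ := h
    exact ⟨t, ht, by rw [add_sub_right_comm]; exact add_mem h hb⟩
  clear hb hz
  induction ha using Submodule.span_induction with
  | mem y hy =>
    obtain ⟨t, ht, rfl⟩ := hy
    exact ⟨t, ht, by rw [sub_self]; exact Submodule.zero_mem _⟩
  | zero => exact ⟨0, Submodule.zero_mem _, by simp⟩
  | add y z _ _ hy hz =>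
    obtain ⟨t, ht, hy⟩ := hy
    obtain ⟨t', ht', hz⟩ := hz
    exact ⟨t + t', add_mem ht ht', by rw [map_add, add_sub_add_comm]; exact add_mem hy hz⟩
  | smul c y _ hy =>
    obtain ⟨t, ht, hy⟩ := hy
    obtain ⟨c₀, hc₀⟩ := hres (residue R c)
    have hc : c - algebraMap O R c₀ ∈ maximalIdeal R := by
      rw [← IsLocalRing.residue_eq_zero_iff, map_sub, sub_eq_zero]
      exact hc₀.symm
    refine ⟨MvPolynomial.C c₀ * t, Ideal.mul_mem_left _ _ ht, ?_⟩
    have ht' : MvPolynomial.aeval x t ∈ maximalIdeal R ^ n := by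
      have := Ideal.mem_map_of_mem (MvPolynomial.aeval x) ht
      rw [Ideal.map_pow] at this
      exact Ideal.pow_right_mono (map_varIdeal_le x hx hϖR) n this
    rw [map_mul, MvPolynomial.aeval_C, smul_eq_mul,
      show c * y - algebraMap O R c₀ * MvPolynomial.aeval x t =
        c * (y - MvPolynomial.aeval x t) + (c - algebraMap O R c₀) * MvPolynomial.aeval x t by ring]
    exact add_mem (Ideal.mul_mem_left _ _ hy) (by rw [pow_succ']; exact Ideal.mul_mem_mul hc ht')

/-- Coefficientwise limits of a Cauchy sequence of polynomials. -/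
theorem exists_coeff_limit [IsLocalRing O] [IsAdicComplete (maximalIdeal O) O]
    (u : ℕ → MvPolynomial (Fin r) O)
    (h : ∀ (a : Fin r →₀ ℕ) (n : ℕ),
      (u (n + 1)).coeff a - (u n).coeff a ∈ maximalIdeal O ^ (n - Finsupp.degree a)) :
    ∃ c : (Fin r →₀ ℕ) → O, ∀ a n,
      (u (n + Finsupp.degree a)).coeff a - c a ∈ maximalIdeal O ^ n := by
  suffices H : ∀ a : Fin r →₀ ℕ, ∃ c : O, ∀ n,
      (u (n + Finsupp.degree a)).coeff a - c ∈ maximalIdeal O ^ n by
    choose c hc using H
    exact ⟨c, hc⟩
  intro a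
  have hstep : ∀ {k n : ℕ}, k ≤ n →
      (u (k + Finsupp.degree a)).coeff a - (u (n + Finsupp.degree a)).coeff a ∈
        maximalIdeal O ^ k := by
    intro k n hkn
    induction n, hkn using Nat.le_induction with
    | base => rw [sub_self]; exact Submodule.zero_mem _
    | succ n hkn ih =>
      have := h a (n + Finsupp.degree a)
      rw [Nat.add_sub_cancel, show n + Finsupp.degree a + 1 = n + 1 + Finsupp.degree a by omega]
        at this
      have := sub_mem ih (Ideal.pow_le_pow_right hkn this)
      rwa [sub_sub_sub_cancel_right] at this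
  obtain ⟨c, hc⟩ := IsPrecomplete.prec (inferInstance : IsPrecomplete (maximalIdeal O) O)
    (f := fun n => (u (n + Finsupp.degree a)).coeff a) (fun {k n} hkn => by
      rw [SModEq.sub_mem, smul_eq_mul, Ideal.mul_top]
      exact hstep hkn)
  exact ⟨c, fun n => by have := hc n; rwa [SModEq.sub_mem, smul_eq_mul, Ideal.mul_top] at this⟩

include hx in
/-- Close coefficients give close values. -/
theorem aeval_sub_mem [IsLocalRing O] {n : ℕ}
    (hm : (maximalIdeal O).map (algebraMap O R) ≤ maximalIdeal R) (w : MvPolynomial (Fin r) O)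
    (h : ∀ a, Finsupp.degree a < n → w.coeff a ∈ maximalIdeal O ^ (n - Finsupp.degree a)) :
    MvPolynomial.aeval x w ∈ maximalIdeal R ^ n := by
  rw [MvPolynomial.aeval_def, MvPolynomial.eval₂_eq]
  refine Ideal.sum_mem _ fun a _ => ?_
  have hmon : ∏ i ∈ a.support, x i ^ a i ∈ maximalIdeal R ^ Finsupp.degree a := by
    rw [Finsupp.degree_apply, ← Finset.prod_pow_eq_pow_sum]
    exact Ideal.prod_mem_prod fun i _ => Ideal.pow_mem_pow (hx i) _
  rcases le_or_gt n (Finsupp.degree a) with hle | hlt
  · exact Ideal.mul_mem_left _ _ (Ideal.pow_le_pow_right hle hmon)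
  · have hcoef : algebraMap O R (w.coeff a) ∈ maximalIdeal R ^ (n - Finsupp.degree a) := by
      have := Ideal.mem_map_of_mem (algebraMap O R) (h a hlt)
      rw [Ideal.map_pow] at this
      exact Ideal.pow_right_mono hm _ this
    have := Ideal.mul_mem_mul hcoef hmon
    rwa [← pow_add, Nat.sub_add_cancel hlt.le] at this

variable [IsAdicComplete (maximalIdeal R) R]

include hx in
/-- A complete local algebra whose maximal ideal is generated modulo its square by a uniformiser
and `r` elements is a quotient of a power series ring in `r` variables. -/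
theorem exists_surjective_mvPowerSeries [IsLocalRing O] [IsAdicComplete (maximalIdeal O) O]
    {ϖ : O} (hϖ : maximalIdeal O = Ideal.span {ϖ}) (hϖR : algebraMap O R ϖ ∈ maximalIdeal R)
    (hres : Function.Surjective (residue R ∘ algebraMap O R))
    (hgen : maximalIdeal R ≤
      Ideal.span ({algebraMap O R ϖ} ∪ Set.range x) ⊔ maximalIdeal R ^ 2) :
    ∃ γ : MvPowerSeries (Fin r) O →ₐ[O] R, Function.Surjective γ := by
  classical
  have hm : (maximalIdeal O).map (algebraMap O R) ≤ maximalIdeal R := by
    rw [hϖ, Ideal.map_span, Set.image_singleton]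
    exact (Ideal.span_singleton_le_iff_mem _).mpr hϖR
  have hf : ∀ {k n : ℕ} (hle : k ≤ n), (Ideal.Quotient.factorₐ O
      (Ideal.pow_le_pow_right (I := maximalIdeal R) hle)).comp (evalTrunc x hx n) =
        evalTrunc x hx k := by
    intro k n hle
    refine AlgHom.ext fun s => ?_
    rw [AlgHom.comp_apply, evalTrunc_apply, evalTrunc_apply]
    refine Ideal.Quotient.eq.mpr ?_
    rw [← map_sub]
    exact aeval_mem_maximalIdeal_pow x hx
      (MvPowerSeries.truncTotal_sub_truncTotal_mem_pow_idealOfVars hle le_rfl s)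
  refine ⟨IsAdicComplete.liftAlgHom (maximalIdeal R) (evalTrunc x hx) hf, fun y => ?_⟩
  choose! T hT hT' using fun (n : ℕ) (z : R) (hz : z ∈ maximalIdeal R ^ n) =>
    exists_approx x hx hϖR hres hgen n hz
  let u : ℕ → MvPolynomial (Fin r) O := fun n =>
    Nat.rec 0 (fun n un => un + T n (y - MvPolynomial.aeval x un)) n
  have husucc : ∀ n, u (n + 1) = u n + T n (y - MvPolynomial.aeval x (u n)) := fun n => rfl
  have hu : ∀ n, y - MvPolynomial.aeval x (u n) ∈ maximalIdeal R ^ n := by
    intro n
    induction n with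
    | zero => simp
    | succ n ih =>
      rw [husucc, map_add, ← sub_sub]
      exact hT' n _ ih
  obtain ⟨c, hc⟩ := exists_coeff_limit u fun a n => by
    rw [husucc, MvPolynomial.coeff_add, add_sub_cancel_left, hϖ]
    exact coeff_mem_of_mem_pow ϖ n (hT n _ (hu n)) a
  let s : MvPowerSeries (Fin r) O := c
  refine ⟨s, (IsHausdorff.eq_iff_smodEq (I := maximalIdeal R)).mpr fun n => ?_⟩
  rw [SModEq.sub_mem, smul_eq_mul, Ideal.mul_top, ← Ideal.Quotient.eq,
    IsAdicComplete.mk_liftAlgHom, evalTrunc_apply, Ideal.Quotient.eq]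
  have h2 : MvPolynomial.aeval x (MvPowerSeries.truncTotal n s - u n) ∈ maximalIdeal R ^ n := by
    refine aeval_sub_mem x hx hm _ fun a hlt => ?_
    rw [MvPolynomial.coeff_sub, MvPowerSeries.coeff_truncTotal _ hlt, ← Ideal.neg_mem_iff, neg_sub]
    have := hc a (n - Finsupp.degree a)
    rw [Nat.sub_add_cancel hlt.le] at this
    exact this
  have e : MvPolynomial.aeval x (MvPowerSeries.truncTotal n s) - y =
      MvPolynomial.aeval x (MvPowerSeries.truncTotal n s - u n) -
        (y - MvPolynomial.aeval x (u n)) := by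
    rw [map_sub]; ring
  rw [e]
  exact sub_mem h2 (hu n)

end FA.TW
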