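import Fermat.Agent.TW.AdRep
import Fermat.Agent.TW.Presentation
import Fermat.Agent.TW.Primes
import Fermat.Prelude.Def_GaloisRep_DeformationRingData
import Fermat.Prelude.Def_GaloisRep_LocalConditions
import Mathlib.Algebra.DualNumber
import Mathlib.RingTheory.DualNumber

/-!
# The tangent space of a deformation ring inside adjoint cohomology
-/

set_option autoImplicit false

noncomputable section

open IsLocalRing Matrix FA.Deform

namespace FA.TW

section Algebra

variable {k : Type} [Field k] {R : Type} [CommRing R] (π : R →+* k)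
  (O : Type) [CommRing O] [Algebra O R]

/-- Derivations with values in the residue field, vanishing on the coefficient ring. -/
def tangent : Submodule k (R → k) where
  carrier := {d | (∀ x y, d (x + y) = d x + d y) ∧
    (∀ x y, d (x * y) = π x * d y + π y * d x) ∧ ∀ c : O, d (algebraMap O R c) = 0}
  zero_mem' := ⟨fun x y => by simp, fun x y => by simp, fun c => rfl⟩
  add_mem' {d d'} h h' := ⟨fun x y => by simp only [Pi.add_apply, h.1, h'.1]; ring,
    fun x y => by simp only [Pi.add_apply, h.2.1, h'.2.1]; ring,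
    fun c => by simp only [Pi.add_apply, h.2.2, h'.2.2, add_zero]⟩
  smul_mem' a d h := ⟨fun x y => by simp only [Pi.smul_apply, smul_eq_mul, h.1]; ring,
    fun x y => by simp only [Pi.smul_apply, smul_eq_mul, h.2.1]; ring,
    fun c => by simp only [Pi.smul_apply, smul_eq_mul, h.2.2, mul_zero]⟩

variable {π O}

/-- A tangent vector as an additive map. -/
def tangentHom (d : ↥(tangent π O)) : R →+ k := AddMonoidHom.mk' d.1 d.2.1

theorem tangentHom_apply (d : ↥(tangent π O)) (x : R) : tangentHom d x = d.1 x := rfl

theorem tangent_mul_eq_zero (d : ↥(tangent π O)) {x y : R} (hx : π x = 0) (hy : π y = 0) :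
    d.1 (x * y) = 0 := by rw [d.2.2.1, hx, hy, zero_mul, zero_mul, add_zero]

theorem tangent_mul_left (d : ↥(tangent π O)) {x y : R} (hy : π y = 0) :
    d.1 (x * y) = π x * d.1 y := by rw [d.2.2.1, hy, zero_mul, add_zero]

variable [IsLocalRing R]

theorem ker_eq_maximalIdeal (hsurj : Function.Surjective π) : RingHom.ker π = maximalIdeal R :=
  eq_maximalIdeal (RingHom.ker_isMaximal_of_surjective π hsurj)

theorem tangent_eq_zero_of_pow_two (hsurj : Function.Surjective π) (d : ↥(tangent π O)) {z : R}
    (hz : z ∈ maximalIdeal R ^ 2) : d.1 z = 0 := by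
  rw [← ker_eq_maximalIdeal hsurj, pow_two] at hz
  induction hz using Submodule.mul_induction_on' with
  | mem_mul_mem x hx y hy => exact tangent_mul_eq_zero d hx hy
  | add x _ y _ hx hy => rw [d.2.1, hx, hy, add_zero]

variable {red : O →+* k}

/-- Elements of the maximal ideal detect tangent vectors. -/
theorem exists_detect (hred : Function.Surjective red) (hπ : π.comp (algebraMap O R) = red)
    (r : ℕ) : ∀ W : Submodule k ↥(tangent π O), FiniteDimensional k W → Module.finrank k W ≤ r →
      ∃ x : Fin r → R, (∀ i, x i ∈ maximalIdeal R) ∧ ∀ d ∈ W, (∀ i, d.1 (x i) = 0) → d = 0 := by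
  have hsurj : Function.Surjective π := fun a => by
    obtain ⟨c, rfl⟩ := hred a
    exact ⟨algebraMap O R c, RingHom.congr_fun hπ c⟩
  induction r with
  | zero =>
    intro W _ hW
    refine ⟨finZeroElim, fun i => i.elim0, fun d hd _ => ?_⟩
    rw [Submodule.finrank_eq_zero.mp (Nat.le_zero.mp hW)] at hd
    exact (Submodule.mem_bot k).mp hd
  | succ r ih =>
    intro W _ hW
    by_cases hbot : W = ⊥
    · exact ⟨fun _ => 0, fun _ => Submodule.zero_mem _, fun d hd _ =>
        (Submodule.mem_bot k).mp (hbot ▸ hd)⟩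
    obtain ⟨d₀, hd₀, hne⟩ := Submodule.exists_mem_ne_zero_of_ne_bot hbot
    obtain ⟨y, hy⟩ : ∃ y, d₀.1 y ≠ 0 := by
      by_contra hc
      push Not at hc
      exact hne (Subtype.ext (funext hc))
    obtain ⟨c, hc⟩ := hred (π y)
    have hzero : d₀.1 (y - algebraMap O R c) = d₀.1 y := by
      rw [← tangentHom_apply, map_sub, tangentHom_apply, tangentHom_apply, d₀.2.2.2, sub_zero]
    have hmem : y - algebraMap O R c ∈ maximalIdeal R := by
      rw [← ker_eq_maximalIdeal hsurj, RingHom.mem_ker, map_sub, ← RingHom.comp_apply, hπ, hc,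
        sub_self]
    let ev : ↥(tangent π O) →ₗ[k] k :=
      { toFun := fun d => d.1 (y - algebraMap O R c)
        map_add' := fun _ _ => rfl
        map_smul' := fun _ _ => rfl }
    have hlt : W ⊓ LinearMap.ker ev < W := by
      refine lt_of_le_of_ne inf_le_left fun h => hy ?_
      have := (h.symm ▸ hd₀ : d₀ ∈ W ⊓ LinearMap.ker ev).2
      rw [← hzero]
      exact this
    have hfin : FiniteDimensional k ↥(W ⊓ LinearMap.ker ev) :=
      Submodule.finiteDimensional_of_le inf_le_left
    have := Submodule.finrank_lt_finrank_of_lt hlt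
    obtain ⟨x, hx, hdet⟩ := ih _ hfin (by omega)
    refine ⟨Fin.cons (y - algebraMap O R c) x, fun i => ?_, fun d hd h => ?_⟩
    · induction i using Fin.cases with
      | zero => exact hmem
      | succ i => exact hx i
    · have h0 : d.1 (y - algebraMap O R c) = 0 := by
        have := h 0
        rwa [Fin.cons_zero] at this
      refine hdet d ⟨hd, h0⟩ fun i => ?_
      simpa using h i.succ

/-- Elements detecting all tangent vectors generate the maximal ideal modulo its square and the
kernel of reduction. -/
theorem maximalIdeal_le_of_detect (hred : Function.Surjective red)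
    (hπ : π.comp (algebraMap O R) = red) {ϖ : O} (hϖ : RingHom.ker red = Ideal.span {ϖ}) {r : ℕ}
    (x : Fin r → R) (hdet : ∀ d : ↥(tangent π O), (∀ i, d.1 (x i) = 0) → d = 0) :
    maximalIdeal R ≤ Ideal.span ({algebraMap O R ϖ} ∪ Set.range x) ⊔ maximalIdeal R ^ 2 := by
  classical
  have hsurj : Function.Surjective π := fun a => by
    obtain ⟨c, rfl⟩ := hred a
    exact ⟨algebraMap O R c, RingHom.congr_fun hπ c⟩
  set I := Ideal.span ({algebraMap O R ϖ} ∪ Set.range x) ⊔ maximalIdeal R ^ 2
  intro z hz
  by_contra hzI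
  -- the quotient is an algebra over the residue field
  let f₀ : O →+* R ⧸ I := (Ideal.Quotient.mk I).comp (algebraMap O R)
  have hker : RingHom.ker red ≤ RingHom.ker f₀ := by
    rw [hϖ, Ideal.span_le, Set.singleton_subset_iff, SetLike.mem_coe, RingHom.mem_ker]
    exact Ideal.Quotient.eq_zero_iff_mem.mpr
      (Ideal.mem_sup_left (Ideal.subset_span (Or.inl rfl)))
  let f : k →+* R ⧸ I := (Ideal.Quotient.lift (RingHom.ker red) f₀ fun a ha => hker ha).comp
    (RingHom.quotientKerEquivOfSurjective hred).symm.toRingHom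
  have hf : ∀ c, f (red c) = f₀ c := fun c => by
    have h1 : (RingHom.quotientKerEquivOfSurjective hred).symm (red c) =
        Ideal.Quotient.mk (RingHom.ker red) c := by
      rw [RingEquiv.symm_apply_eq, RingHom.quotientKerEquivOfSurjective_apply_mk]
    show Ideal.Quotient.lift (RingHom.ker red) f₀ (fun a ha => hker ha)
      ((RingHom.quotientKerEquivOfSurjective hred).symm (red c)) = _
    rw [h1]
    exact Ideal.Quotient.lift_mk _ _ _
  have hI : I ≤ RingHom.ker π ⊔ RingHom.ker π := by
    refine le_sup_of_le_left (sup_le (Ideal.span_le.mpr ?_) ?_)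
    · rintro _ (rfl | ⟨i, rfl⟩)
      · rw [SetLike.mem_coe, RingHom.mem_ker, ← RingHom.comp_apply, hπ, ← RingHom.mem_ker, hϖ]
        exact Ideal.mem_span_singleton_self ϖ
      · by_contra hxi
        rw [SetLike.mem_coe, ker_eq_maximalIdeal hsurj, mem_maximalIdeal, mem_nonunits_iff,
          not_not] at hxi
        exact hzI (Ideal.eq_top_of_isUnit_mem I
          (Ideal.mem_sup_left (Ideal.subset_span (Or.inr ⟨i, rfl⟩))) hxi ▸ trivial)
    · rw [ker_eq_maximalIdeal hsurj]
      exact Ideal.pow_le_self two_ne_zero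
  rw [sup_idem] at hI
  let _ : Algebra k (R ⧸ I) := f.toAlgebra
  have hzbar : Ideal.Quotient.mk I z ∉ Submodule.span k {(1 : R ⧸ I)} := by
    rintro h
    obtain ⟨a, ha⟩ := Submodule.mem_span_singleton.mp h
    obtain ⟨c, rfl⟩ := hred a
    rw [Algebra.smul_def, mul_one, RingHom.algebraMap_toAlgebra, hf] at ha
    have h1 := hI (Ideal.Quotient.eq.mp ha)
    rw [RingHom.mem_ker, map_sub, ← RingHom.comp_apply, hπ,
      show π z = 0 by rwa [← ker_eq_maximalIdeal hsurj] at hz, sub_zero] at h1
    apply hzI
    rw [← Ideal.Quotient.eq_zero_iff_mem, ← ha, ← hf, h1, map_zero]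
  obtain ⟨φ, hφz, hφ⟩ := Submodule.exists_dual_map_eq_bot_of_notMem hzbar inferInstance
  have hφ1 : φ 1 = 0 := by
    have : φ 1 ∈ (Submodule.span k {(1 : R ⧸ I)}).map φ :=
      Submodule.mem_map_of_mem (Submodule.mem_span_singleton_self _)
    rwa [hφ, Submodule.mem_bot] at this
  have hsmul : ∀ (c : O) (w : R ⧸ I),
      φ (Ideal.Quotient.mk I (algebraMap O R c) * w) = red c * φ w := by
    intro c w
    rw [show Ideal.Quotient.mk I (algebraMap O R c) = f₀ c from rfl, ← hf,
      ← RingHom.algebraMap_toAlgebra f, ← Algebra.smul_def, map_smul, smul_eq_mul]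
  let d : ↥(tangent π O) := ⟨fun y => φ (Ideal.Quotient.mk I y),
    fun y w => by simp only [map_add], fun y w => by
      obtain ⟨a, ha⟩ := hred (π y)
      obtain ⟨b, hb⟩ := hred (π w)
      have hy : y - algebraMap O R a ∈ maximalIdeal R := by
        rw [← ker_eq_maximalIdeal hsurj, RingHom.mem_ker, map_sub, ← RingHom.comp_apply, hπ, ha,
          sub_self]
      have hw : w - algebraMap O R b ∈ maximalIdeal R := by
        rw [← ker_eq_maximalIdeal hsurj, RingHom.mem_ker, map_sub, ← RingHom.comp_apply, hπ, hb,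
          sub_self]
      have h0 : Ideal.Quotient.mk I ((y - algebraMap O R a) * (w - algebraMap O R b)) = 0 :=
        Ideal.Quotient.eq_zero_iff_mem.mpr
          (Ideal.mem_sup_right (by rw [pow_two]; exact Ideal.mul_mem_mul hy hw))
      have e : Ideal.Quotient.mk I (y * w) =
          Ideal.Quotient.mk I (algebraMap O R a) * Ideal.Quotient.mk I w +
            Ideal.Quotient.mk I (algebraMap O R b) * Ideal.Quotient.mk I y -
              Ideal.Quotient.mk I (algebraMap O R a) *
                (Ideal.Quotient.mk I (algebraMap O R b) * 1) := by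
        rw [mul_one, ← sub_eq_zero, ← h0]
        simp only [map_mul, map_sub]
        ring
      show φ (Ideal.Quotient.mk I (y * w)) = _
      rw [e, map_sub, map_add, hsmul, hsmul, hsmul, hsmul, hφ1, mul_zero, mul_zero, sub_zero, ha,
        hb],
    fun c => by
      show φ (Ideal.Quotient.mk I (algebraMap O R c)) = 0
      rw [← mul_one (Ideal.Quotient.mk I (algebraMap O R c)), hsmul, hφ1, mul_zero]⟩
  have hd : d = 0 := hdet d fun i => by
    show φ (Ideal.Quotient.mk I (x i)) = 0
    have hxi : x i ∈ I := Ideal.mem_sup_left (Ideal.subset_span (Or.inr ⟨i, rfl⟩))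
    rw [Ideal.Quotient.eq_zero_iff_mem.mpr hxi, map_zero]
  exact hφz (congrFun (congrArg Subtype.val hd) z)

end Algebra

/-- A ring whose tangent space has dimension at most `r` is a quotient of power series in `r`
variables. -/
theorem exists_surjective_of_tangent {O : Type} [CommRing O] [IsDomain O]
    [IsDiscreteValuationRing O] [IsAdicComplete (maximalIdeal O) O]
    {R : Type} [CommRing R] [IsLocalRing R] [IsAdicComplete (maximalIdeal R) R] [Algebra O R]
    (hres : Function.Surjective (residue R ∘ algebraMap O R))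
    (π : R →+* ResidueField O) (hπ : π.comp (algebraMap O R) = residue O)
    [FiniteDimensional (ResidueField O) ↥(tangent π O)] {r : ℕ}
    (hr : Module.finrank (ResidueField O) ↥(tangent π O) ≤ r) :
    ∃ γ : MvPowerSeries (Fin r) O →ₐ[O] R, Function.Surjective γ := by
  obtain ⟨x, hx, hdet⟩ := exists_detect (residue_surjective (R := O)) hπ r ⊤ inferInstance
    (by rwa [finrank_top])
  obtain ⟨ϖ, hϖ⟩ := IsPrincipalIdealRing.principal (maximalIdeal O)
  have hϖ' : maximalIdeal O = Ideal.span {ϖ} := hϖ
  have hker : RingHom.ker (residue O) = Ideal.span {ϖ} := (ker_residue (R := O)).trans hϖ'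
  refine exists_surjective_mvPowerSeries x hx hϖ' ?_ hres
    (maximalIdeal_le_of_detect residue_surjective hπ hker x fun d hd => hdet d Submodule.mem_top hd)
  rw [← ker_eq_maximalIdeal (π := π) (fun a => by
    obtain ⟨c, rfl⟩ := residue_surjective a
    exact ⟨algebraMap O R c, RingHom.congr_fun hπ c⟩), RingHom.mem_ker, ← RingHom.comp_apply, hπ,
    ← RingHom.mem_ker, hker]
  exact Ideal.mem_span_singleton_self ϖ

end FA.TW
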