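import Fermat.Agent.TW.Translate
import Fermat.Agent.TW.Residual
import Fermat.Agent.TW.Presentation
import Fermat.Prelude.Def_GaloisRep_DeformationRingData

/-!
# Taylor-Wiles primes for a deformation problem
-/

set_option autoImplicit false

noncomputable section

open IsLocalRing FA.Deform FA.LocalDef TrivSqZeroExt Polynomial

namespace FA.TW

local notation "Qb" => AlgebraicClosure ℚ
local notation "GQ" => AlgebraicClosure ℚ ≃ₐ[ℚ] AlgebraicClosure ℚ

section Setting

variable {O : Type} [CommRing O] [IsLocalRing O] {ρbar : ResidualGaloisRep (ResidueField O)}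

/-- A basis adapted to the residual representation, and the reduction map. -/
theorem exists_setting {R : Type} [CommRing R] [IsLocalRing R] [Algebra O R]
    [IsLocalHom (algebraMap O R)] (hres : Function.Surjective (residue R ∘ algebraMap O R))
    (ρ : GaloisRepAdic R)
    (hρ : ρ.residual.IsEquiv (ρbar.baseChangeAlong (ResidueField.map (algebraMap O R)))) :
    ∃ (π : R →+* ResidueField O) (b : Module.Basis (Fin 2) R ρ.V),
      π.comp (algebraMap O R) = algebraMap O (ResidueField O) ∧ Function.Surjective π ∧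
      mapRep π (matrixOf ρ b) = resMatrix ρbar := by
  set j := ResidueField.map (algebraMap O R)
  have hj : Function.Bijective j := ⟨RingHom.injective j, fun y => by
    obtain ⟨c, hc⟩ := hres y
    exact ⟨residue O c, hc⟩⟩
  let e := RingEquiv.ofBijective j hj
  let π : R →+* ResidueField O := e.symm.toRingHom.comp (residue R)
  have hπ : π.comp (algebraMap O R) = algebraMap O (ResidueField O) := RingHom.ext fun c => by
    show e.symm (residue R (algebraMap O R c)) = residue O c
    rw [RingEquiv.symm_apply_eq]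
    rfl
  obtain ⟨r, hc, ⟨eq⟩, hr⟩ := exists_conj_of_residual ρbar j ρ hρ
  let b : Module.Basis (Fin 2) R ρ.V :=
    (Pi.basisFun R (Fin 2) : Module.Basis (Fin 2) R (ofMatrix r hc).V).map eq.toLinearEquiv.symm
  have hb : matrixOf ρ b = r := by
    refine MonoidHom.ext fun σ => ?_
    rw [← matrixOf_ofMatrix r hc]
    refine Matrix.ext fun i l => (LinearMap.toMatrix_apply b b (ρ.ρ σ) i l).trans
      (Eq.trans ?_ (LinearMap.toMatrix_apply _ _ _ i l).symm)
    have hbl : eq.toLinearEquiv (b l) =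
        (Pi.basisFun R (Fin 2) : Module.Basis (Fin 2) R (ofMatrix r hc).V) l := by
      show eq.toLinearEquiv (eq.toLinearEquiv.symm _) = _
      exact LinearEquiv.apply_symm_apply _ _
    show (Pi.basisFun R (Fin 2) : Module.Basis (Fin 2) R (ofMatrix r hc).V).repr
      (eq.toLinearEquiv (ρ.ρ σ (b l))) i = _
    rw [eq.map_apply, hbl]
    rfl
  refine ⟨π, b, hπ, e.symm.surjective.comp residue_surjective, MonoidHom.ext fun σ => ?_⟩
  refine Matrix.ext fun i l => ?_
  rw [hb]
  show e.symm (residue R (r σ i l)) = _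
  rw [RingEquiv.symm_apply_eq]
  exact congrFun (congrFun (DFunLike.congr_fun hr σ) i) l

end Setting

section Tangent

variable {O : Type} [CommRing O] [IsDomain O] [IsDiscreteValuationRing O]
  [IsAdicComplete (maximalIdeal O) O] [Finite (ResidueField O)]
  {ρbar : ResidualGaloisRep (ResidueField O)}

theorem maximalIdeal_dualNumber_sq (k : Type) [Field k] :
    maximalIdeal (DualNumber k) ^ 2 = ⊥ := by
  rw [DualNumber.maximalIdeal_eq_span_singleton_eps, Ideal.span_singleton_pow, pow_two,
    DualNumber.eps_mul_eps, Ideal.span_singleton_eq_bot]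

theorem fst_eq_zero_iff {k : Type} [Field k] (z : DualNumber k) :
    z ∈ maximalIdeal (DualNumber k) ↔ z.fst = 0 := by
  rw [mem_maximalIdeal, mem_nonunits_iff, TrivSqZeroExt.isUnit_iff_isUnit_fst, isUnit_iff_ne_zero,
    not_not]

variable {R : Type} [CommRing R] [IsLocalRing R] [Algebra O R] {π : R →+* ResidueField O}
  (hπ : π.comp (algebraMap O R) = algebraMap O (ResidueField O)) (hsurj : Function.Surjective π)

include hsurj in
theorem isLocalHom_tgPoint (d : ↥(tangent π O)) :
    IsLocalHom (tgPoint hπ d : R →+* DualNumber (ResidueField O)) := ⟨fun x hx => by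
  by_contra hx'
  have h1 : π x = 0 := by
    rw [← RingHom.mem_ker, ker_eq_maximalIdeal hsurj]
    exact hx'
  have h2 := TrivSqZeroExt.isUnit_iff_isUnit_fst.mp hx
  rw [show ((tgPoint hπ d : R →+* DualNumber (ResidueField O)) x).fst = π x from
    fst_tgPoint hπ d x, h1] at h2
  exact not_isUnit_zero h2⟩

end Tangent

section Injective

variable {O : Type} [CommRing O] [IsDomain O] [IsDiscreteValuationRing O]
  [IsAdicComplete (maximalIdeal O) O] [Finite (ResidueField O)]
  {ρbar : ResidualGaloisRep (ResidueField O)}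
  {D : ∀ ⦃A : Type⦄ [CommRing A] [IsLocalRing A] [Algebra O A], GaloisRepAdic A → Prop}
  (DQ : GaloisRep.DeformationRingData O ρbar D)
  {π : DQ.R →+* ResidueField O}
  (hπ : π.comp (algebraMap O DQ.R) = algebraMap O (ResidueField O))
  (hsurj : Function.Surjective π) {b : Module.Basis (Fin 2) DQ.R DQ.ρ.V}
  (hlift : mapRep π (matrixOf DQ.ρ b) = resMatrix ρbar)
  {p : ℕ} (hp : algebraMap O (ResidueField O) p = 0)
  (hdet : ∀ σ, ∃ (a : ℕ) (y : DQ.R), (matrixOf DQ.ρ b σ).det = a + p * y)
  (hquot : ∀ (φ : DQ.R →ₐ[O] DualNumber (ResidueField O))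
    (hφ : IsLocalHom (φ : DQ.R →+* DualNumber (ResidueField O))), Function.Surjective φ →
    D (DQ.ρ.baseChangeAlong (φ : DQ.R →+* DualNumber (ResidueField O)) hφ))

include hsurj hquot in
/-- A tangent vector whose class is a coboundary vanishes. -/
theorem tgClass_eq_coboundary (d : ↥(tangent π O)) (m : ↥(sl2 (ResidueField O)))
    (hm : ∀ σ, tgClass hπ hlift p hp hdet d σ = adRep (resMatrix ρbar) σ m - m) : d = 0 := by
  by_contra hd
  obtain ⟨U, hU, hUr⟩ := conj_of_coboundary hπ hlift p hp hdet d m hm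
  have hO : Function.Surjective (algebraMap O (ResidueField O)) := residue_surjective
  have hφsurj := tgPoint_surjective hπ hO hd
  have : Finite (DualNumber (ResidueField O)) :=
    Finite.of_injective (fun z => (z.fst, z.snd)) fun x y h =>
      TrivSqZeroExt.ext (congrArg Prod.fst h) (congrArg Prod.snd h)
  have : IsAdicComplete (maximalIdeal (DualNumber (ResidueField O)))
      (DualNumber (ResidueField O)) :=
    isAdicComplete_of_pow_eq_bot (maximalIdeal_dualNumber_sq _)
  have : IsNoetherianRing (DualNumber (ResidueField O)) := inferInstance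
  have halg : IsLocalHom (algebraMap O (DualNumber (ResidueField O))) := ⟨fun x hx => by
    have h2 := TrivSqZeroExt.isUnit_iff_isUnit_fst.mp hx
    exact (inferInstance : IsLocalHom (residue O)).map_nonunit x h2⟩
  have hres : Function.Surjective
      (residue (DualNumber (ResidueField O)) ∘ algebraMap O (DualNumber (ResidueField O))) := by
    intro y
    obtain ⟨z, rfl⟩ := residue_surjective y
    obtain ⟨c, hc⟩ := residue_surjective z.fst
    refine ⟨c, ?_⟩
    rw [Function.comp_apply, ← sub_eq_zero, ← map_sub, residue_eq_zero_iff, fst_eq_zero_iff,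
      fst_sub]
    exact sub_eq_zero.mpr hc
  have hcont : ∀ e : ↥(tangent π O),
      IsContRep (mapRep (tgPoint hπ e : DQ.R →+* DualNumber (ResidueField O))
        (matrixOf DQ.ρ b)) := fun e =>
    haveI := isLocalHom_tgPoint hπ hsurj e
    (isContRep_matrixOf DQ.ρ b).map _
  have hequiv : ∀ e : ↥(tangent π O),
      (DQ.ρ.baseChangeAlong (tgPoint hπ e : DQ.R →+* DualNumber (ResidueField O))
        (isLocalHom_tgPoint hπ hsurj e)).IsEquiv (ofMatrix _ (hcont e)) := fun e => by
    obtain ⟨e1⟩ := isEquiv_ofMatrix_matrixOf DQ.ρ b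
    obtain ⟨e2⟩ := baseChange_ofMatrix_isEquiv
      (tgPoint hπ e : DQ.R →+* DualNumber (ResidueField O)) (isLocalHom_tgPoint hπ hsurj e)
      (isContRep_matrixOf DQ.ρ b) (hcont e)
    exact ⟨(e1.baseChangeAlong _ _).trans e2⟩
  have hresd : (DQ.ρ.baseChangeAlong (tgPoint hπ d : DQ.R →+* DualNumber (ResidueField O))
      (isLocalHom_tgPoint hπ hsurj d)).residual.IsEquiv
      (ρbar.baseChangeAlong (ResidueField.map (algebraMap O (DualNumber (ResidueField O))))) := by
    obtain ⟨e1⟩ := hequiv d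
    obtain ⟨e2⟩ := residual_ofMatrix_isEquiv ρbar
      (ResidueField.map (algebraMap O (DualNumber (ResidueField O)))) (hcont d) (by
        refine MonoidHom.ext fun σ => Matrix.ext fun i l => ?_
        show residue _ (tgPoint hπ d (matrixOf DQ.ρ b σ i l)) = ResidueField.map _ _
        rw [← congrFun (congrFun (DFunLike.congr_fun hlift σ) i) l]
        obtain ⟨c, hc⟩ := residue_surjective (π (matrixOf DQ.ρ b σ i l))
        show _ = ResidueField.map _ (π (matrixOf DQ.ρ b σ i l))
        rw [← hc, ResidueField.map_residue, ← sub_eq_zero, ← map_sub, residue_eq_zero_iff,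
          fst_eq_zero_iff, fst_sub, fst_tgPoint, ← hc]
        exact sub_self _)
    exact ⟨e1.residual.trans e2⟩
  obtain ⟨φ, -, huniq⟩ := DQ.universal (DualNumber (ResidueField O)) hres
    (DQ.ρ.baseChangeAlong (tgPoint hπ d : DQ.R →+* DualNumber (ResidueField O))
      (isLocalHom_tgPoint hπ hsurj d))
    (hquot (tgPoint hπ d) (isLocalHom_tgPoint hπ hsurj d) hφsurj) hresd
  have h1 := huniq (tgPoint hπ d) ⟨isLocalHom_tgPoint hπ hsurj d,
    ⟨GaloisRepAdic.Equiv.refl _⟩⟩
  have h2 := huniq (tgPoint hπ 0) ⟨isLocalHom_tgPoint hπ hsurj 0, by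
    obtain ⟨e0⟩ := hequiv 0
    obtain ⟨ed⟩ := hequiv d
    obtain ⟨em⟩ := (isEquiv_ofMatrix_iff (hcont d) (hcont 0)).mpr ⟨U, hU, hUr⟩
    exact ⟨(e0.trans em.symm).trans ed.symm⟩⟩
  refine hd (Subtype.ext (funext fun x => ?_))
  have h3 := congrArg TrivSqZeroExt.snd (AlgHom.congr_fun (h1.trans h2.symm) x)
  rwa [snd_tgPoint, snd_tgPoint] at h3

end Injective

section Main

variable {O : Type} [CommRing O] [IsDomain O] [IsDiscreteValuationRing O]
  [IsAdicComplete (maximalIdeal O) O] [Finite (ResidueField O)]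

/-- The main construction: Taylor-Wiles primes for the deformation problem with a condition `X` at
`p` whose tangent classes satisfy a property `Pp` with a tangent bound. -/
theorem exists_twPrimes_surjective (p : ℕ) [Fact p.Prime] (hp2 : p ≠ 2)
    (hpO : (p : O) ∈ maximalIdeal O) (ρbar : ResidualGaloisRep (ResidueField O))
    (habs : ρbar.IsAbsolutelyIrreducible)
    (hdet : (GaloisRepAdic.ofResidualGaloisRep ρbar).DetIsCyclotomic p)
    (hsplit : ∀ σ : GQ,
      ∃ α β : ResidueField O, LinearMap.charpoly (ρbar.ρ σ) = (X - C α) * (X - C β))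
    (hTW : ∀ G : Subgroup GQ, G.index = 2 →
      ∀ V : Submodule (AlgebraicClosure (ResidueField O))
        (ρbar.baseChange (AlgebraicClosure (ResidueField O))).V,
        (∀ σ ∈ G, ∀ x ∈ V, (ρbar.baseChange (AlgebraicClosure (ResidueField O))).ρ σ x ∈ V) →
          V = ⊥ ∨ V = ⊤)
    (S Smin : Finset ℕ) (hpSmin : p ∈ Smin) (hSmin : Smin ⊆ S) (hS : ∀ q ∈ S, q.Prime)
    (hmin : ∀ q : ℕ, q.Prime → q ≠ p → (q ∈ Smin ↔ ¬ ρbar.IsUnramifiedAt q))
    (P : Places)
    (GW : GreenbergWiles P Smin (adRep (resMatrix ρbar)) (twRep (resMatrix ρbar))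
      complexConjugation)
    (Xc : ∀ ⦃A : Type⦄ [CommRing A] [IsLocalRing A], GaloisRepAdic A → Prop)
    (hXq : ∀ ⦃A B : Type⦄ [CommRing A] [IsLocalRing A] [CommRing B] [IsLocalRing B]
      (φ : A →+* B) (hφ : IsLocalHom φ) (ρ : GaloisRepAdic A), Function.Surjective φ →
        Xc ρ → Xc (ρ.baseChangeAlong φ hφ))
    (Q₀ : Prop) (Pp : (GQ → Matrix (Fin 2) (Fin 2) (ResidueField O)) → Prop)
    (hXc : ∀ {R : Type} [CommRing R] [IsLocalRing R] [Algebra O R] {π : R →+* ResidueField O}
      (_ : π.comp (algebraMap O R) = algebraMap O (ResidueField O)) (ρ : GaloisRepAdic R)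
      (b : Module.Basis (Fin 2) R ρ.V), mapRep π (matrixOf ρ b) = resMatrix ρbar → Xc ρ →
        Q₀ ∧ ∀ d : ↥(tangent π O), d ≠ 0 → Pp (tgVal (matrixOf ρ b) (resMatrix ρbar) d))
    (hb : Q₀ → TangentBound (P.place p) (resMatrix ρbar) Pp) :
    ∃ r : ℕ, ∀ n : ℕ, ∃ qv : Fin r → ℕ, Function.Injective qv ∧
      (∀ i, (qv i).Prime ∧ qv i ∉ S ∧ p ^ (n + 1) ∣ qv i - 1) ∧
      (∀ i, ∀ A : ValuationSubring Qb, A.LiesOverPrime (qv i) →
        ∀ φ : GQ, A.IsFrobeniusAt φ (qv i) →
          ∃ α β : ResidueField O, α ≠ β ∧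
            LinearMap.charpoly (ρbar.ρ φ) = (X - C α) * (X - C β)) ∧
      ∀ DQ : GaloisRep.DeformationRingData O ρbar (fun _A _ _ _ ρ =>
          (ρ.DetIsCyclotomic p ∧ Xc ρ ∧
            ∀ q : ℕ, q.Prime → q ∉ Smin ∪ Finset.univ.image qv → ρ.IsUnramifiedAt q) ∧
          ∀ q ∈ Smin, q.Prime → q ≠ p → ρ.IsUnipotentOnInertiaAt q),
        ∃ γ : MvPowerSeries (Fin r) O →ₐ[O] DQ.R, Function.Surjective γ := by
  classical
  have hp : p.Prime := Fact.out
  have hpk : ((p : ℕ) : ResidueField O) = 0 := by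
    rw [← map_natCast (residue O), residue_eq_zero_iff]
    exact hpO
  have : CharP (ResidueField O) p := (CharP.charP_iff_prime_eq_zero hp).mpr hpk
  by_cases hQ : Q₀
  swap
  · refine ⟨0, fun n => ⟨Fin.elim0, fun i => i.elim0, fun i => i.elim0, fun i => i.elim0,
      fun DQ => ?_⟩⟩
    obtain ⟨π, b, hπ, -, hlift⟩ := exists_setting DQ.residue_surjective DQ.ρ DQ.residual_isEquiv
    exact absurd (hXc hπ DQ.ρ b hlift DQ.isOfType.1.2.1).1 hQ
  set rb := resMatrix ρbar with hrb
  have hunr : ∀ q : ℕ, q.Prime → q ∉ Smin → ∀ A : ValuationSubring Qb, A.LiesOverPrime q →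
      ∀ σ ∈ A.inertiaSubgroupIn ℚ, rb σ = 1 := by
    intro q hq hqS A hA σ hσ
    have hqp : q ≠ p := fun h => hqS (h ▸ hpSmin)
    have h := (not_not.mp (fun h => hqS ((hmin q hq hqp).mpr h)) : ρbar.IsUnramifiedAt q)
    exact (resMatrix_eq_one_iff ρbar σ).mpr (h A hA σ hσ)
  have hprime : ∀ q ∈ Smin, q.Prime := fun q hq => hS q (hSmin hq)
  obtain ⟨r, hr⟩ := exists_twData (p := p) rb P (isOpen_ker_resMatrix ρbar)
    (det_resMatrix ρbar hdet) hprime hunr hp2 (algebraMap _ (AlgebraicClosure (ResidueField O)))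
    (isBig_resMatrix ρbar habs hTW) hpSmin (tangentBound_or_zero (hb hQ)) GW S hSmin
  refine ⟨r, fun n => ?_⟩
  obtain ⟨qv, hinj, hqv, hreg, hbound⟩ := hr n
  refine ⟨qv, hinj, hqv, fun i A hA φ hφ => ?_, fun DQ => ?_⟩
  · obtain ⟨α, β, hαβ⟩ := hsplit φ
    exact ⟨α, β, ne_of_regular ρbar (hreg i A hA φ hφ) hαβ, hαβ⟩
  obtain ⟨π, b, hπ, hsurj, hlift⟩ := exists_setting DQ.residue_surjective DQ.ρ DQ.residual_isEquiv
  obtain ⟨⟨hdetρ, hXρ, hunrρ⟩, huniρ⟩ := DQ.isOfType
  set rR := matrixOf DQ.ρ b with hrR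
  have hpO' : algebraMap O (ResidueField O) p = 0 := by rw [map_natCast]; exact hpk
  have hdetR : ∀ σ, ∃ (a : ℕ) (y : DQ.R), (rR σ).det = a + p * y := by
    intro σ
    obtain ⟨a, ha⟩ := exists_root_exponent hp σ
    obtain ⟨y, hy⟩ := Ideal.mem_span_singleton'.mp (hdetρ.2 1 σ a (by simpa using ha))
    refine ⟨a, y, ?_⟩
    rw [hrR, matrixOf_apply, LinearMap.det_toMatrix, mul_comm]
    rw [pow_one] at hy
    linear_combination -hy
  have hone : ∀ σ, DQ.ρ.ρ σ = 1 → rR σ = 1 := fun σ h => by
    rw [hrR, matrixOf_apply, h]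
    exact LinearMap.toMatrix_one b
  let κ := tgClass hπ hlift p hpO' hdetR
  have hκ : ∀ t, IsAdmissible rb P p Smin (Smin ∪ Finset.univ.image qv)
      (fun c => c = 0 ∨ Pp c) (κ t) := by
    intro t
    refine ⟨tgClass_mul hπ hlift p hpO' hdetR t,
      tgClass_lc hπ hlift p hpO' hdetR hsurj (isContRep_matrixOf DQ.ρ b) t, ?_, ?_, ?_⟩
    · intro q hq hqS A hA σ hσ
      refine Subtype.ext ?_
      show tgVal rR rb t σ = 0
      have h1 : rR σ = 1 := hone σ (hunrρ q hq hqS A hA σ hσ)
      have h2 : (rR σ).map t.1 = 0 := by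
        rw [h1]
        refine Matrix.ext fun i l => ?_
        rcases eq_or_ne i l with rfl | hne
        · rw [Matrix.map_apply, Matrix.one_apply_eq, ← map_one (algebraMap O DQ.R), t.2.2.2]; rfl
        · rw [Matrix.map_apply, Matrix.one_apply_ne hne, ← map_zero (algebraMap O DQ.R), t.2.2.2]; rfl
      rw [tgVal, h2, Matrix.zero_mul]
    · intro q hq hqp
      have hqprime := hprime q hq
      have hA := P.liesOver q hqprime
      have hram : ∃ σ ∈ (P.place q).inertiaSubgroupIn ℚ, rb σ ≠ 1 := by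
        have h := (hmin q hqprime hqp).mp hq
        unfold ResidualGaloisRep.IsUnramifiedAt at h
        push Not at h
        obtain ⟨A', hA', σ, hσ, hne⟩ := h
        obtain ⟨τ, hτ⟩ := exists_smul_eq_of_liesOver hqprime hA' hA
        refine ⟨τ * σ * τ⁻¹, hτ ▸ conj_mem_inertia hqprime hA' hσ τ, fun h1 => hne ?_⟩
        rw [← resMatrix_eq_one_iff]
        show rb σ = 1
        calc rb σ = rb τ⁻¹ * rb (τ * σ * τ⁻¹) * rb τ := by
              rw [← map_mul, ← map_mul]; congr 1; group
          _ = 1 := by rw [h1, Matrix.mul_one, map_inv_mul_map]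
      let r' : GQ →* Matrix (Fin 2) (Fin 2) (DualNumber (ResidueField O)) :=
        mapRep (tgPoint hπ t : DQ.R →+* DualNumber (ResidueField O)) rR
      have hr' : IsOpen (r'.ker : Set GQ) := by
        obtain ⟨L, hL, hn⟩ := isContRep_matrixOf DQ.ρ b 2
        refine Subgroup.isOpen_mono (H₁ := L.fixingSubgroup) (fun σ hσ => ?_)
          (IntermediateField.fixingSubgroup_isOpen L)
        refine MonoidHom.mem_ker.mpr (Matrix.ext fun i l => ?_)
        have h1 := hn σ ((IntermediateField.mem_fixingSubgroup_iff L σ).mp hσ) i l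
        have h2 : tgPoint hπ t ((matrixOf DQ.ρ b σ - 1) i l) = 0 := by
          refine TrivSqZeroExt.ext ?_ ?_
          · rw [fst_tgPoint, fst_zero, ← RingHom.mem_ker, ker_eq_maximalIdeal hsurj]
            exact Ideal.pow_le_self two_ne_zero h1
          · rw [snd_tgPoint, snd_zero]
            exact tangent_eq_zero_of_pow_two hsurj t h1
        rw [Matrix.sub_apply, map_sub, sub_eq_zero] at h2
        show tgPoint hπ t (rR σ i l) = _
        rw [hrR, h2]
        rcases eq_or_ne i l with rfl | hne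
        · simp
        · simp [Matrix.one_apply_ne hne]
      have hfst : ∀ σ, (r' σ).map fst = rb σ := fun σ => by
        refine Matrix.ext fun i l => ?_
        show (tgPoint hπ t (rR σ i l)).fst = _
        rw [fst_tgPoint]
        exact congrFun (congrFun (DFunLike.congr_fun hlift σ) i) l
      obtain ⟨m, hm, hmσ⟩ := exists_coboundary_of_unipotent (p := p) hp2 hqprime hqp.symm hA rb r'
        hr' hfst hram fun σ hσ => by
          have h := huniρ q hq hqprime hqp (P.place q) hA σ hσ
          rw [← LinearMap.charpoly_toMatrix (DQ.ρ.ρ σ) b, ← matrixOf_apply, ← hrR,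
            Matrix.charpoly_fin_two] at h
          have h0 := congrArg (fun f => coeff f 0) h
          have h1 := congrArg (fun f => coeff f 1) h
          simp [sub_sq, coeff_C, coeff_X, coeff_X_pow, coeff_one] at h0 h1
          constructor
          · rw [show r' σ = (tgPoint hπ t : DQ.R →+* DualNumber (ResidueField O)).mapMatrix (rR σ)
              from rfl, RingHom.mapMatrix_apply, ← AddMonoidHom.map_trace,
              show (rR σ).trace = 2 from h1]
            exact map_ofNat _ 2
          · rw [show r' σ = (tgPoint hπ t : DQ.R →+* DualNumber (ResidueField O)).mapMatrix (rR σ)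
              from rfl, ← RingHom.map_det, h0, map_one]
      refine ⟨⟨m, hm⟩, fun σ hσ => Subtype.ext ?_⟩
      show tgVal rR rb t σ = rb σ * m * rb σ⁻¹ - m
      have h3 : (rR σ).map t.1 = rb σ * m - m * rb σ := by
        rw [← hmσ σ hσ]
        refine Matrix.ext fun i l => ?_
        exact (snd_tgPoint hπ t (rR σ i l)).symm
      rw [tgVal, h3, Matrix.sub_mul, Matrix.mul_assoc m, map_mul_map_inv, Matrix.mul_one]
    · rcases eq_or_ne t 0 with rfl | ht
      · refine Or.inl (funext fun σ => ?_)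
        show ((κ 0) σ).1 = 0
        rw [map_zero]
        rfl
      · exact Or.inr ((hXc hπ DQ.ρ b hlift hXρ).2 t ht)
  have hinjκ : ∀ t v, (∀ g, κ t g = adRep rb g v - v) → t = 0 := fun t v hv =>
    tgClass_eq_coboundary DQ hπ hsurj hlift hpO' hdetR
      (fun φ hφ hφs =>
        ⟨⟨detIsCyclotomic_baseChange _ hφ DQ.ρ hdetρ, hXq _ hφ DQ.ρ hφs hXρ, fun q hq hqS =>
          isUnramifiedAt_baseChange _ hφ DQ.ρ (hunrρ q hq hqS)⟩, fun q hq hqP hne =>
          isUnipotentOnInertiaAt_baseChange _ hφ DQ.ρ (huniρ q hq hqP hne)⟩)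
      t v hv
  obtain ⟨hfin, hle⟩ := hbound ↥(tangent π O) κ hκ hinjκ
  exact exists_surjective_of_tangent DQ.residue_surjective π hπ hle

end Main

end FA.TW
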