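import Fermat.Agent.TW.Assemble
import Fermat.Agent.LocalDef.TangentSS
import Fermat.Agent.LocalDef.FlatBridge

/-!
# Taylor-Wiles primes: both halves from the Greenberg-Wiles formula
-/

set_option autoImplicit false

noncomputable section

open IsLocalRing FA.Deform FA.LocalDef Polynomial

namespace FA.TW

local notation "Qb" => AlgebraicClosure ℚ
local notation "GQ" => AlgebraicClosure ℚ ≃ₐ[ℚ] AlgebraicClosure ℚ

variable {O : Type} [CommRing O] [IsDomain O] [IsDiscreteValuationRing O]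
  [IsAdicComplete (maximalIdeal O) O] [Finite (ResidueField O)]
  (p : ℕ) [Fact p.Prime] (hp2 : p ≠ 2) (hpO : (p : O) ∈ maximalIdeal O)
  (ρbar : ResidualGaloisRep (ResidueField O)) (habs : ρbar.IsAbsolutelyIrreducible)
  (hdet : (GaloisRepAdic.ofResidualGaloisRep ρbar).DetIsCyclotomic p)
  (hsplit : ∀ σ : GQ,
    ∃ α β : ResidueField O, LinearMap.charpoly (ρbar.ρ σ) = (X - C α) * (X - C β))
  (hTW : ∀ G : Subgroup GQ, G.index = 2 →
    ∀ V : Submodule (AlgebraicClosure (ResidueField O))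
      (ρbar.baseChange (AlgebraicClosure (ResidueField O))).V,
      (∀ σ ∈ G, ∀ x ∈ V, (ρbar.baseChange (AlgebraicClosure (ResidueField O))).ρ σ x ∈ V) →
        V = ⊥ ∨ V = ⊤)
  (S Smin : Finset ℕ) (hpSmin : p ∈ Smin) (hSmin : Smin ⊆ S) (hS : ∀ q ∈ S, q.Prime)
  (hmin : ∀ q : ℕ, q.Prime → q ≠ p → (q ∈ Smin ↔ ¬ ρbar.IsUnramifiedAt q))
  (P : Places)
  (GW : GreenbergWiles P Smin (adRep (resMatrix ρbar)) (twRep (resMatrix ρbar))
    complexConjugation)

include hp2 hpO habs hdet hsplit hTW hpSmin hSmin hS hmin GW in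
/-- Both halves, given the Greenberg-Wiles formula. -/
theorem exists_twPrimes_of_greenbergWiles :
    (∃ r : ℕ, ∀ n : ℕ, ∃ qv : Fin r → ℕ, Function.Injective qv ∧
      (∀ i, (qv i).Prime ∧ qv i ∉ S ∧ p ^ (n + 1) ∣ qv i - 1) ∧
      (∀ i, ∀ A : ValuationSubring Qb, A.LiesOverPrime (qv i) →
        ∀ φ : GQ, A.IsFrobeniusAt φ (qv i) →
          ∃ α β : ResidueField O, α ≠ β ∧
            LinearMap.charpoly (ρbar.ρ φ) = (X - C α) * (X - C β)) ∧
      ∀ DQ : GaloisRep.DeformationRingData O ρbar (fun _A _ _ _ ρ =>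
          GaloisRep.strictOrdinaryCondition O p (Smin ∪ Finset.univ.image qv) ρ ∧
            ∀ q ∈ Smin, q.Prime → q ≠ p → ρ.IsUnipotentOnInertiaAt q),
        ∃ γ : MvPowerSeries (Fin r) O →ₐ[O] DQ.R, Function.Surjective γ) ∧
    (∃ r : ℕ, ∀ n : ℕ, ∃ qv : Fin r → ℕ, Function.Injective qv ∧
      (∀ i, (qv i).Prime ∧ qv i ∉ S ∧ p ^ (n + 1) ∣ qv i - 1) ∧
      (∀ i, ∀ A : ValuationSubring Qb, A.LiesOverPrime (qv i) →
        ∀ φ : GQ, A.IsFrobeniusAt φ (qv i) →
          ∃ α β : ResidueField O, α ≠ β ∧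
            LinearMap.charpoly (ρbar.ρ φ) = (X - C α) * (X - C β)) ∧
      ∀ DQ : GaloisRep.DeformationRingData O ρbar (fun _A _ _ _ ρ =>
          GaloisRep.flatCondition O p (Smin ∪ Finset.univ.image qv) ρ ∧
            ∀ q ∈ Smin, q.Prime → q ≠ p → ρ.IsUnipotentOnInertiaAt q),
        ∃ γ : MvPowerSeries (Fin r) O →ₐ[O] DQ.R, Function.Surjective γ) := by
  have hp : p.Prime := Fact.out
  have hA := P.liesOver p hp
  have hpk : ((p : ℕ) : ResidueField O) = 0 := by
    rw [← map_natCast (residue O), residue_eq_zero_iff]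
    exact hpO
  have : CharP (ResidueField O) p := (CharP.charP_iff_prime_eq_zero hp).mpr hpk
  letI : Fintype (ResidueField O) := Fintype.ofFinite _
  have hDet : DetOmega (P.place p) p (resMatrix ρbar) := fun σ _ a ha =>
    det_resMatrix ρbar hdet σ a ha
  exact ⟨exists_twPrimes_strictOrdinary p hp2 hpO ρbar habs hdet hsplit hTW S Smin hpSmin hSmin hS
      hmin P GW
      (fun h => tangentBound_strictOrd hp2 hA _ (isOpen_ker_resMatrix ρbar) hDet h),
    exists_twPrimes_flat p hp2 hpO ρbar habs hdet hsplit hTW S Smin hpSmin hSmin hS hmin P GW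
      (fun h => tangentBound_flat hp2 hA _ hDet h)
      (fun ρ h I hI => hasModel_of_isFlatAt ρ hA h I hI)⟩

end FA.TW
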