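import Fermat.Agent.TW.Matrix2
import Mathlib.GroupTheory.Index
import Mathlib.NumberTheory.LegendreSymbol.Basic
import Mathlib.FieldTheory.Finite.Basic

/-!
# Vanishing of `H¹` of the twisted adjoint representation

For a finite subgroup of `GL₂(k)`, `k` of odd characteristic `p`, acting irreducibly and with
determinant hitting a non-square of `𝔽_p`, every cocycle with values in `ad⁰ ⊗ det` is a coboundary.
-/

set_option autoImplicit false

noncomputable section

open Matrix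
open scoped Classical

namespace FA.TW

variable {k : Type*} [Field k] {G : Type*} [Group G]
  (ρ : G →* Matrix (Fin 2) (Fin 2) k)

/-- The twisted adjoint action. -/
def twAd (g : G) (m : Matrix (Fin 2) (Fin 2) k) : Matrix (Fin 2) (Fin 2) k :=
  (ρ g).det • (ρ g * m * ρ g⁻¹)

theorem twAd_one (m : Matrix (Fin 2) (Fin 2) k) : twAd ρ 1 m = m := by
  simp [twAd]

theorem twAd_add (g : G) (m n : Matrix (Fin 2) (Fin 2) k) :
    twAd ρ g (m + n) = twAd ρ g m + twAd ρ g n := by
  simp [twAd, mul_add, add_mul]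

theorem twAd_sub (g : G) (m n : Matrix (Fin 2) (Fin 2) k) :
    twAd ρ g (m - n) = twAd ρ g m - twAd ρ g n := by
  simp [twAd, mul_sub, sub_mul, smul_sub]

theorem twAd_smul (g : G) (a : k) (m : Matrix (Fin 2) (Fin 2) k) :
    twAd ρ g (a • m) = a • twAd ρ g m := by
  simp [twAd, smul_smul, mul_comm]

theorem twAd_sum {ι : Type*} (s : Finset ι) (g : G) (f : ι → Matrix (Fin 2) (Fin 2) k) :
    twAd ρ g (∑ i ∈ s, f i) = ∑ i ∈ s, twAd ρ g (f i) :=
  map_sum (AddMonoidHom.mk' (twAd ρ g) (twAd_add ρ g)) f s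

theorem twAd_mul (g h : G) (m : Matrix (Fin 2) (Fin 2) k) :
    twAd ρ (g * h) m = twAd ρ g (twAd ρ h m) := by
  simp only [twAd, map_mul, Matrix.det_mul, _root_.mul_inv_rev, Matrix.mul_smul, Matrix.smul_mul,
    smul_smul, Matrix.mul_assoc]

theorem map_mul_map_inv (g : G) : ρ g * ρ g⁻¹ = 1 := by
  rw [← map_mul, mul_inv_cancel, map_one]

theorem map_inv_mul_map (g : G) : ρ g⁻¹ * ρ g = 1 := by
  rw [← map_mul, inv_mul_cancel, map_one]

/-- Cocycles for the twisted adjoint action with values in trace zero matrices. -/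
structure IsAdCocycle (ψ : G → Matrix (Fin 2) (Fin 2) k) : Prop where
  trace_eq : ∀ g, (ψ g).trace = 0
  map_mul : ∀ g h, ψ (g * h) = ψ g + twAd ρ g (ψ h)

variable {ρ} {ψ : G → Matrix (Fin 2) (Fin 2) k}

theorem IsAdCocycle.map_one (h : IsAdCocycle ρ ψ) : ψ 1 = 0 := by
  have := h.map_mul 1 1
  rwa [one_mul, twAd_one, left_eq_add] at this

theorem IsAdCocycle.sub_coboundary (h : IsAdCocycle ρ ψ) {m : Matrix (Fin 2) (Fin 2) k}
    (hm : m.trace = 0) : IsAdCocycle ρ fun g => ψ g - (twAd ρ g m - m) := by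
  refine ⟨fun g => ?_, fun g g' => ?_⟩
  · rw [Matrix.trace_sub, h.trace_eq, Matrix.trace_sub, twAd, Matrix.trace_smul,
      Matrix.trace_mul_cycle, map_inv_mul_map, one_mul, hm, smul_zero, sub_zero, sub_zero]
  · rw [h.map_mul, twAd_mul, twAd_sub, twAd_sub]
    abel

/-- A cocycle vanishing on a subgroup of index prime to the characteristic is a coboundary. -/
theorem exists_coboundary_of_vanish [Finite G] (h : IsAdCocycle ρ ψ) (P : Subgroup G)
    (hP : ∀ g ∈ P, ψ g = 0) (hidx : (P.index : k) ≠ 0) :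
    ∃ m : Matrix (Fin 2) (Fin 2) k, m.trace = 0 ∧ ∀ g, ψ g = twAd ρ g m - m := by
  have := Fintype.ofFinite (G ⧸ P)
  set S := ∑ x : G ⧸ P, ψ x.out
  refine ⟨(-(P.index : k)⁻¹) • S, ?_, fun g => ?_⟩
  · rw [Matrix.trace_smul, Matrix.trace_sum, Finset.sum_eq_zero fun x _ => h.trace_eq _, smul_zero]
  have key : ∀ x : G ⧸ P, ψ g + twAd ρ g (ψ x.out) = ψ (g • x).out := by
    intro x
    rw [← h.map_mul]
    obtain ⟨n, hn⟩ := QuotientGroup.mk_out_eq_mul P (g * x.out)
    have : (g • x).out = g * x.out * (n : G) := by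
      rw [← hn]
      congr 1
      conv_lhs => rw [← QuotientGroup.out_eq' x]
      rfl
    rw [this, h.map_mul (g * x.out), hP _ n.2, twAd, Matrix.mul_zero, Matrix.zero_mul, smul_zero,
      add_zero]
  have hsum : (P.index : k) • ψ g + twAd ρ g S = S := by
    rw [twAd_sum, show (P.index : k) • ψ g = ∑ _x : G ⧸ P, ψ g by
      rw [Finset.sum_const, Finset.card_univ, ← Nat.card_eq_fintype_card, Nat.cast_smul_eq_nsmul]; rfl,
      ← Finset.sum_add_distrib, Finset.sum_congr rfl fun x _ => key x]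
    exact Fintype.sum_equiv (MulAction.toPerm g) _ _ fun x => rfl
  rw [twAd_smul, ← smul_sub]
  have : twAd ρ g S - S = -((P.index : k) • ψ g) := by
    conv_lhs => arg 2; rw [← hsum]
    abel
  rw [this, neg_smul_neg, smul_smul, inv_mul_cancel₀ hidx, one_smul]

variable (p : ℕ) [Fact p.Prime] [CharP k p]

theorem orderOf_cast_ne_zero {g : G} (h : ¬ p ∣ orderOf g) : (orderOf g : k) ≠ 0 := by
  rwa [Ne, CharP.cast_eq_zero_iff k p]

/-- The invariant attached to semisimple elements of determinant one. -/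
theorem trace_mul_eq_zero (h : IsAdCocycle ρ ψ) {g : G} (hdet : (ρ g).det = 1)
    (hg : ¬ p ∣ orderOf g) : (ψ g * ρ g).trace = 0 := by
  have hd : ∀ i : ℕ, (ρ (g ^ i)).det = 1 := fun i => by
    rw [MonoidHom.map_pow, Matrix.det_pow, hdet, one_pow]
  have hn : ∀ n : ℕ, (ψ (g ^ n) * ρ g).trace = n * (ψ g * ρ g).trace := fun n => by
    induction n with
    | zero => simp [h.map_one]
    | succ n ih =>
      rw [pow_succ g n, h.map_mul, add_mul, Matrix.trace_add, ih, twAd, hd, one_smul]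
      have : ρ (g ^ n)⁻¹ * ρ g = ρ g * ρ (g ^ n)⁻¹ := by
        rw [← MonoidHom.map_mul, ← MonoidHom.map_mul, ((Commute.refl g).pow_left n).inv_left.eq]
      rw [Matrix.mul_assoc (ρ (g ^ n) * ψ g), this, ← Matrix.mul_assoc,
        Matrix.mul_assoc (ρ (g ^ n)) (ψ g), Matrix.trace_mul_cycle, map_inv_mul_map, Matrix.one_mul]
      push_cast
      ring
  have := hn (orderOf g)
  rw [pow_orderOf_eq_one, h.map_one, Matrix.zero_mul, Matrix.trace_zero, eq_comm, mul_eq_zero] at this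
  exact this.resolve_left (orderOf_cast_ne_zero p hg)

theorem upperU_conj (x β α γ : k) :
    upperU x * !![β, α; γ, -β] * upperU (-x) =
      !![β + x * γ, α - 2 * x * β - x ^ 2 * γ; γ, -β - x * γ] := by
  ext i j
  fin_cases i <;> fin_cases j <;> simp [upperU, Matrix.mul_apply, Fin.sum_univ_two] <;> ring

theorem eq_of_trace_eq_zero {M : Matrix (Fin 2) (Fin 2) k} (h : M.trace = 0) :
    M = !![M 0 0, M 0 1; M 1 0, -M 0 0] := by
  rw [Matrix.trace_fin_two] at h
  ext i j
  fin_cases i <;> fin_cases j <;> simp [eq_neg_of_add_eq_zero_right h]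

/-- A stable line for an upper triangular element. -/
theorem lower_left_eq_zero_of_commute {M : Matrix (Fin 2) (Fin 2) k} {x : k} (hx : x ≠ 0)
    (h : M * upperU x = upperU x * M) : M 1 0 = 0 := by
  have h00 := congrFun (congrFun h 0) 0
  simp [upperU, Matrix.mul_apply, Fin.sum_univ_two] at h00
  exact h00.resolve_left hx

variable [Finite G]

/-- The vanishing theorem in adapted coordinates. -/
theorem exists_coboundary_core (hp2 : p ≠ 2) (hinj : Function.Injective ρ)
    (hdet : ∀ a : (ZMod p)ˣ, ∃ g, (ρ g).det = ZMod.castHom (dvd_refl p) k (a : ZMod p))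
    {u v : G} {x₀ y : k} (hx₀ : x₀ ≠ 0) (hy : y ≠ 0) (hu : ρ u = upperU x₀) (hv : ρ v = lowerV y)
    (h : IsAdCocycle ρ ψ) :
    ∃ m : Matrix (Fin 2) (Fin 2) k, m.trace = 0 ∧ ∀ g, ψ g = twAd ρ g m - m := by
  have hp : p.Prime := Fact.out
  have h2 : (2 : k) ≠ 0 := fun h2 => hp2 (by
    have : ((2 : ℕ) : k) = 0 := by exact_mod_cast h2
    exact ((Nat.prime_dvd_prime_iff_eq hp Nat.prime_two).mp ((CharP.cast_eq_zero_iff k p 2).mp this)))
  have hup : u ^ p = 1 := hinj (by
    have : ∀ n : ℕ, ρ u ^ n = upperU ((n : k) * x₀) := fun n => by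
      induction n with
      | zero => simp [upperU_zero]
      | succ n ih => rw [pow_succ, ih, hu, upperU_mul]; congr 1; push_cast; ring
    rw [map_one, MonoidHom.map_pow, this, CharP.cast_eq_zero, zero_mul, upperU_zero])
  -- the unipotent subgroup
  let P : Subgroup G :=
    { carrier := {g | ∃ x, ρ g = upperU x}
      one_mem' := ⟨0, by rw [map_one, upperU_zero]⟩
      mul_mem' := fun {a b} ⟨x, hx⟩ ⟨z, hz⟩ => ⟨x + z, by rw [map_mul, hx, hz, upperU_mul]⟩
      inv_mem' := fun {a} ⟨x, hx⟩ => ⟨-x, by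
        have h1 := congrArg (ρ a⁻¹ * ·) (congrArg (· * upperU (-x)) hx)
        simp only [upperU_mul, add_neg_cancel, upperU_zero, mul_one, ← mul_assoc,
          map_inv_mul_map, one_mul] at h1
        exact h1.symm⟩ }
  have huP : u ∈ P := ⟨x₀, hu⟩
  -- it is a Sylow subgroup
  obtain ⟨Q, hPQ⟩ : ∃ Q : Sylow p G, (P : Subgroup G) ≤ Q := by
    refine IsPGroup.exists_le_sylow fun ⟨g, x, hx⟩ => ⟨1, Subtype.ext (hinj ?_)⟩
    have : ∀ n : ℕ, ρ g ^ n = upperU ((n : k) * x) := fun n => by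
      induction n with
      | zero => simp [upperU_zero]
      | succ n ih => rw [pow_succ, ih, hx, upperU_mul]; congr 1; push_cast; ring
    show ρ (g ^ p ^ 1) = ρ 1
    rw [map_one, pow_one, MonoidHom.map_pow, this, CharP.cast_eq_zero, zero_mul, upperU_zero]
  have hpow : ∀ g ∈ (Q : Subgroup G), ∃ n : ℕ, ρ g ^ p ^ n = 1 := fun g hg => by
    obtain ⟨n, hn⟩ := Q.2 ⟨g, hg⟩
    exact ⟨n, by rw [← MonoidHom.map_pow, show g ^ p ^ n = 1 from congrArg Subtype.val hn, map_one]⟩
  have hQP : (Q : Subgroup G) = P := by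
    refine le_antisymm (fun g hg => ?_) hPQ
    have : Nontrivial (Q : Subgroup G) := by
      refine ⟨⟨⟨u, hPQ huP⟩, 1, fun h1 => hx₀ (upperU_inj ?_)⟩⟩
      rw [upperU_zero, ← hu, show u = 1 from congrArg Subtype.val h1, map_one]
    have := Q.2.center_nontrivial
    obtain ⟨⟨⟨z, hz⟩, hzc⟩, hz1⟩ := exists_ne (1 : Subgroup.center (Q : Subgroup G))
    have hcomm : ∀ w ∈ (Q : Subgroup G), w * z = z * w := fun w hw =>
      congrArg Subtype.val (Subgroup.mem_center_iff.mp hzc ⟨w, hw⟩)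
    obtain ⟨n, hn⟩ := hpow z hz
    have hzU := eq_upperU_of_pow p (lower_left_eq_zero_of_commute hx₀ (by
      rw [← hu, ← map_mul, ← map_mul, hcomm u (hPQ huP)])) hn
    have hz0 : ρ z 0 1 ≠ 0 := fun h0 => hz1 (Subtype.ext (Subtype.ext (hinj (by
      show ρ z = ρ 1
      rw [map_one, hzU, h0, upperU_zero]))))
    obtain ⟨n, hn⟩ := hpow g hg
    exact ⟨_, eq_upperU_of_pow p (lower_left_eq_zero_of_commute hz0 (by
      rw [← hzU, ← map_mul, ← map_mul, hcomm g hg])) hn⟩
  have hidx : (P.index : k) ≠ 0 := by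
    rw [Ne, CharP.cast_eq_zero_iff k p, ← hQP]
    exact Q.not_dvd_index
  -- the cocycle on the unipotent subgroup
  let A : Set k := {x | ∃ g, ρ g = upperU x}
  have hA0 : (0 : k) ∈ A := ⟨1, by rw [map_one, upperU_zero]⟩
  have hAadd : ∀ x ∈ A, ∀ z ∈ A, x + z ∈ A := fun x ⟨a, ha⟩ z ⟨b, hb⟩ =>
    ⟨a * b, by rw [map_mul, ha, hb, upperU_mul]⟩
  have hAneg : ∀ x ∈ A, -x ∈ A := fun x ⟨a, ha⟩ => by
    obtain ⟨z, hz⟩ := P.inv_mem ⟨x, ha⟩
    have := map_mul_map_inv ρ a
    rw [ha, hz, upperU_mul, ← upperU_zero] at this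
    exact ⟨a⁻¹, by rw [hz, eq_neg_of_add_eq_zero_right (upperU_inj this)]⟩
  have hAnsmul : ∀ (n : ℕ), ∀ x ∈ A, (n : k) * x ∈ A := fun n x hx => by
    induction n with
    | zero => simpa using hA0
    | succ n ih => push_cast; rw [add_mul, one_mul]; exact hAadd _ ih _ hx
  have hex : ∀ x : k, ∃ M : Matrix (Fin 2) (Fin 2) k, ∀ g, ρ g = upperU x → ψ g = M := fun x => by
    by_cases hx : x ∈ A
    · obtain ⟨g, hg⟩ := hx
      exact ⟨ψ g, fun g' hg' => by rw [hinj (hg'.trans hg.symm)]⟩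
    · exact ⟨0, fun g hg => absurd ⟨g, hg⟩ hx⟩
  choose F hF using hex
  set β := fun x => F x 0 0
  set α := fun x => F x 0 1
  set γ := fun x => F x 1 0
  have hFm : ∀ x ∈ A, F x = !![β x, α x; γ x, -β x] := fun x ⟨g, hg⟩ => by
    refine eq_of_trace_eq_zero ?_
    rw [← hF x g hg]
    exact h.trace_eq g
  have hrec : ∀ x ∈ A, ∀ z ∈ A,
      β (x + z) = β x + β z + x * γ z ∧
      α (x + z) = α x + α z - 2 * x * β z - x ^ 2 * γ z ∧ γ (x + z) = γ x + γ z := by
    rintro x ⟨a, ha⟩ z ⟨b, hb⟩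
    have h1 : F (x + z) = F x + upperU x * F z * upperU (-x) := by
      rw [← hF (x + z) (a * b) (by rw [map_mul, ha, hb, upperU_mul]), h.map_mul, hF x a ha,
        hF z b hb, twAd, ha]
      have : ρ a⁻¹ = upperU (-x) := by
        obtain ⟨w, hw⟩ := P.inv_mem ⟨x, ha⟩
        have := map_mul_map_inv ρ a
        rw [ha, hw, upperU_mul, ← upperU_zero] at this
        rw [hw, eq_neg_of_add_eq_zero_right (upperU_inj this)]
      rw [this, show (upperU x : Matrix (Fin 2) (Fin 2) k).det = 1 by simp [upperU, Matrix.det_fin_two],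
        one_smul]
    rw [hFm x ⟨a, ha⟩, hFm z ⟨b, hb⟩, upperU_conj] at h1
    refine ⟨?_, ?_, ?_⟩
    · show F (x + z) 0 0 = _
      rw [h1]; simp; ring
    · show F (x + z) 0 1 = _
      rw [h1]; simp; ring
    · show F (x + z) 1 0 = _
      rw [h1]; simp
  have hF0 : F 0 = 0 := by rw [← hF 0 1 (by rw [map_one, upperU_zero]), h.map_one]
  have hβ0 : β 0 = 0 := by simp [β, hF0]
  have hα0 : α 0 = 0 := by simp [α, hF0]
  have hγ0 : γ 0 = 0 := by simp [γ, hF0]
  have hx₀A : x₀ ∈ A := ⟨u, hu⟩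
  set c := γ x₀ / x₀
  have hγ : ∀ x ∈ A, γ x = c * x := fun x hx => by
    have h1 := (hrec x hx x₀ hx₀A).1
    have h2' := (hrec x₀ hx₀A x hx).1
    rw [add_comm x₀ x] at h2'
    rw [show c * x = γ x₀ * x / x₀ by simp [c]; ring, eq_div_iff hx₀]
    linear_combination h1 - h2'
  clear_value c
  set c' := (β x₀ - c * x₀ ^ 2 / 2) / x₀
  have hβ : ∀ x ∈ A, β x = c * x ^ 2 / 2 + c' * x := fun x hx => by
    have h1 := (hrec x hx x₀ hx₀A).2.1
    have h2' := (hrec x₀ hx₀A x hx).2.1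
    rw [add_comm x₀ x] at h2'
    rw [hγ x hx] at h2'
    rw [hγ x₀ hx₀A] at h1
    have h3 : 2 * (x * β x₀) + x ^ 2 * (c * x₀) = 2 * (x₀ * β x) + x₀ ^ 2 * (c * x) := by
      linear_combination h1 - h2'
    simp only [c']
    field_simp
    linear_combination -h3
  clear_value c'
  have h3c : c ≠ 0 → (3 : k) ≠ 0 := fun hc h3 => by
    -- in characteristic three the relation `u³ = 1` forces `c = 0`
    have e1 := hrec x₀ hx₀A x₀ hx₀A
    have e2 := hrec (x₀ + x₀) (hAadd _ hx₀A _ hx₀A) x₀ hx₀A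
    rw [show x₀ + x₀ + x₀ = 0 by linear_combination x₀ * h3, hα0, e1.2.1, hγ x₀ hx₀A] at e2
    have : (5 : k) * (c * x₀ ^ 3) = 0 := by
      linear_combination e2.2.1 - (-α x₀ + 2 * x₀ * β x₀) * h3
    rcases mul_eq_zero.mp this with h5 | h5
    · exact h2 (by linear_combination h5 - h3)
    · exact mul_ne_zero hc (pow_ne_zero 3 hx₀) h5
  set α₀ := fun x => α x + c / 3 * x ^ 3 + c' * x ^ 2
  have hα₀add : ∀ x ∈ A, ∀ z ∈ A, α₀ (x + z) = α₀ x + α₀ z := fun x hx z hz => by
    simp only [α₀]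
    rw [(hrec x hx z hz).2.1, hβ z hz, hγ z hz]
    rcases eq_or_ne c 0 with hc | hc
    · rw [hc]; field_simp; ring
    · have := h3c hc
      field_simp
      ring
  have hα₀nsmul : ∀ (n : ℕ), ∀ x ∈ A, α₀ ((n : k) * x) = n * α₀ x := fun n x hx => by
    induction n with
    | zero => simp [α₀, hα0]
    | succ n ih =>
      push_cast
      rw [add_mul, one_mul, hα₀add _ (hAnsmul n x hx) _ hx, ih]; ring
  -- the relation from the semisimple elements `u_x v`
  obtain ⟨K₁, K₀, hrel⟩ : ∃ K₁ K₀ : k, ∀ x ∈ A, x ≠ 0 → 4 + x * y ≠ 0 →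
      c * (x ^ 3 * y / 6 + x ^ 2) + α₀ x * y + K₁ * x + K₀ = 0 := by
    obtain ⟨w₀, w₁, w₂, hW⟩ : ∃ w₀ w₁ w₂, ψ v = !![w₀, w₁; w₂, -w₀] :=
      ⟨_, _, _, eq_of_trace_eq_zero (h.trace_eq v)⟩
    refine ⟨w₂ - w₀ * y, w₁ * y, fun x ⟨a, ha⟩ hx h4 => ?_⟩
    have hainv : ρ a⁻¹ * ρ a = 1 := map_inv_mul_map ρ a
    have hdetav : (ρ (a * v)).det = 1 := by
      rw [map_mul, Matrix.det_mul, ha, hv]; simp [upperU, lowerV, Matrix.det_fin_two]
    have hss : ¬ p ∣ orderOf (a * v) := by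
      refine not_dvd_orderOf p ρ hinj ?_
      rw [hdetav, map_mul, ha, hv]
      simp only [upperU, lowerV, Matrix.trace_fin_two, Matrix.mul_apply, Fin.sum_univ_two]
      simp only [Matrix.of_apply, Matrix.cons_val', Matrix.cons_val_zero, Matrix.cons_val_one,
        Matrix.cons_val_fin_one]
      intro hbad
      refine mul_ne_zero (mul_ne_zero hx hy) h4 ?_
      linear_combination hbad
    have h0 := trace_mul_eq_zero p h hdetav hss
    rw [h.map_mul, add_mul, Matrix.trace_add, twAd, ha, hF x a ha, hFm x ⟨a, ha⟩,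
      show (upperU x : Matrix (Fin 2) (Fin 2) k).det = 1 by simp [upperU, Matrix.det_fin_two],
      one_smul, map_mul, ha] at h0
    rw [Matrix.mul_assoc (upperU x * ψ v), ← Matrix.mul_assoc (ρ a⁻¹), ← ha, hainv, Matrix.one_mul,
      ha, Matrix.mul_assoc (upperU x), Matrix.trace_mul_comm (upperU x), Matrix.mul_assoc, hW,
      hv] at h0
    simp only [upperU, lowerV, Matrix.trace_fin_two, Matrix.mul_apply, Fin.sum_univ_two,
      Matrix.of_apply, Matrix.cons_val', Matrix.cons_val_zero, Matrix.cons_val_one,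
      Matrix.cons_val_fin_one] at h0
    simp only [α₀]
    rw [hβ x ⟨a, ha⟩, hγ x ⟨a, ha⟩] at h0
    rcases eq_or_ne c 0 with hc | hc
    · rw [hc] at h0 ⊢
      linear_combination h0
    · have h3 := h3c hc
      have h6 : (6 : k) ≠ 0 := by
        rw [show (6 : k) = 2 * 3 by norm_num]; exact mul_ne_zero h2 h3
      field_simp at h0 ⊢
      linear_combination 9 * h0
  -- elements outside the line through `x₀`
  set e := ZMod.castHom (dvd_refl p) k
  have he : Function.Injective e := e.injective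
  have heA : ∀ a : ZMod p, e a * x₀ ∈ A := fun a => by
    have := hAnsmul a.val x₀ hx₀A
    rwa [show ((a.val : ℕ) : k) = e a by rw [← map_natCast e, ZMod.natCast_zmod_val]] at this
  -- if `x₁` is off that line, some `a x₁ + b x₀` avoids any given `4 p²` bad values
  have hgrid : ∀ x₁ : k, (¬ ∃ a, x₁ = e a * x₀) → ∀ a b a' b' : ZMod p,
      e a * x₁ + e b * x₀ = e a' * x₁ + e b' * x₀ → a = a' ∧ b = b' := by
    intro x₁ hx₁ a b a' b' hab
    have ha : a = a' := by
      by_contra hne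
      refine hx₁ ⟨(a - a')⁻¹ * (b' - b), ?_⟩
      rw [map_mul, map_inv₀, map_sub, map_sub]
      have : e a - e a' ≠ 0 := by rw [← map_sub]; exact (map_ne_zero e).mpr (sub_ne_zero.mpr hne)
      field_simp
      linear_combination hab
    subst ha
    exact ⟨rfl, he (mul_right_cancel₀ hx₀ (by linear_combination hab))⟩
  have hmemA : ∀ x₁ ∈ A, ∀ a b : ZMod p, e a * x₁ + e b * x₀ ∈ A := fun x₁ hx₁ a b => by
    have := hAnsmul a.val x₁ hx₁
    rw [show ((a.val : ℕ) : k) = e a by rw [← map_natCast e, ZMod.natCast_zmod_val]] at this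
    exact hAadd _ this _ (heA b)
  have hp3 : 3 ≤ p := by have := hp.two_le; omega
  have hp4 : c ≠ 0 → 5 ≤ p := fun hc => by
    rcases (show p = 3 ∨ p = 4 ∨ 5 ≤ p by omega) with rfl | rfl | h5
    · exact absurd (by exact_mod_cast CharP.cast_eq_zero k 3) (h3c hc)
    · exact absurd hp (by decide)
    · exact h5
  have hpick : ∀ x₁ ∈ A, (¬ ∃ a, x₁ = e a * x₀) → ∀ bad : Finset k, bad.card < p ^ 2 →
      ∃ x ∈ A, x ∉ bad := by
    intro x₁ hx₁ hoff bad hbad
    by_contra hcon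
    push Not at hcon
    have hle : (Finset.univ : Finset (ZMod p × ZMod p)).card ≤ bad.card :=
      Finset.card_le_card_of_injOn (fun ab => e ab.1 * x₁ + e ab.2 * x₀)
        (fun ab _ => hcon _ (hmemA x₁ hx₁ ab.1 ab.2))
        (fun ab _ cd _ hh => Prod.ext (hgrid x₁ hoff _ _ _ _ hh).1 (hgrid x₁ hoff _ _ _ _ hh).2)
    rw [Finset.card_univ, Fintype.card_prod, ZMod.card, ← sq] at hle
    omega
  -- the quadratic part vanishes
  have hc0 : c = 0 := by
    by_contra hc
    have h5 := hp4 hc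
    obtain ⟨δ, hδ⟩ := FiniteField.exists_nonsquare (F := ZMod p) (by rwa [ZMod.ringChar_zmod_n])
    have hδ0 : δ ≠ 0 := fun h0 => hδ (h0 ▸ IsSquare.zero)
    obtain ⟨g₀, hg₀⟩ := hdet (Units.mk0 δ hδ0)
    -- move `g₀` into the normaliser of `P` without changing its determinant
    let D : Subgroup G := ((Matrix.detMonoidHom (n := Fin 2) (R := k)).comp ρ).ker
    have hPD : (Q : Subgroup G) ≤ D := fun g hg => by
      obtain ⟨x, hx⟩ := hQP ▸ hg
      show (ρ g).det = 1
      rw [hx]; simp [upperU, Matrix.det_fin_two]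
    have hsup := Sylow.normalizer_sup_eq_top' Q hPD
    obtain ⟨b, hb, d, hd, hbd⟩ :=
      (Subgroup.mem_sup_of_normal_right).mp (hsup ▸ Subgroup.mem_top g₀)
    have hdetb : (ρ b).det = e δ := by
      have h1 := congrArg Matrix.det (congrArg ρ hbd)
      rw [map_mul, Matrix.det_mul, show (ρ d).det = 1 from hd, mul_one, hg₀] at h1
      exact h1
    obtain ⟨x', hx'⟩ : b * u * b⁻¹ ∈ P := by
      rw [← hQP]
      exact (Subgroup.mem_normalizer_iff.mp hb u).mp (hPQ huP)
    have hbu : ρ b * upperU x₀ = upperU x' * ρ b := by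
      rw [← hu, ← hx', ← map_mul, ← map_mul, inv_mul_cancel_right]
    have hx'0 : x' ≠ 0 := fun h0 => hx₀ (upperU_inj (by
      rw [h0, upperU_zero] at hbu
      have := congrArg (ρ b⁻¹ * ·) hbu
      simp only [← Matrix.mul_assoc, map_inv_mul_map, Matrix.one_mul] at this
      rw [this, upperU_zero]))
    have hb10 : ρ b 1 0 = 0 := by
      have h11 := congrFun (congrFun hbu 1) 1
      simp [upperU, Matrix.mul_apply, Fin.sum_univ_two] at h11
      exact h11.resolve_right hx₀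
    set a₀ := ρ b 0 0
    set d₀ := ρ b 1 1
    have hx'eq : a₀ * x₀ = x' * d₀ := by
      have h01 := congrFun (congrFun hbu 0) 1
      simp [upperU, Matrix.mul_apply, Fin.sum_univ_two] at h01
      linear_combination h01
    have hδeq : a₀ * d₀ = e δ := by
      rw [← hdetb, Matrix.det_fin_two, hb10]; ring
    have hd₀ : d₀ ≠ 0 := fun h0 => hδ0 (he (by rw [map_zero, ← hδeq, h0, mul_zero]))
    have ha₀ : a₀ ≠ 0 := fun h0 => hδ0 (he (by rw [map_zero, ← hδeq, h0, zero_mul]))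
    -- compare the lowest entries of `ψ (b u)`
    have hγ' : d₀ * γ x' = e δ * (d₀ / a₀) * γ x₀ * d₀ := by
      have e1 := h.map_mul (b * u * b⁻¹) b
      rw [inv_mul_cancel_right, h.map_mul b u, hF x' _ hx', hF x₀ u hu, twAd, twAd, hdetb, hx',
        show (upperU x' : Matrix (Fin 2) (Fin 2) k).det = 1 by simp [upperU, Matrix.det_fin_two],
        one_smul] at e1
      have e2 := congrArg (fun M => (M * ρ b) 1 0) e1
      simp only [add_mul, Matrix.smul_mul, Matrix.mul_assoc (ρ b * F x₀), map_inv_mul_map,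
        Matrix.mul_one] at e2
      have hinv : ρ (b * u * b⁻¹)⁻¹ = upperU (-x') := by
        obtain ⟨w, hw⟩ := P.inv_mem ⟨x', hx'⟩
        have := map_mul_map_inv ρ (b * u * b⁻¹)
        rw [hx', hw, upperU_mul, ← upperU_zero] at this
        rw [hw, eq_neg_of_add_eq_zero_right (upperU_inj this)]
      rw [hinv, eq_of_trace_eq_zero (h.trace_eq b), upperU_conj, hFm x' ⟨_, hx'⟩,
        hFm x₀ hx₀A] at e2
      simp [Matrix.mul_apply, Matrix.vecMul, dotProduct, Fin.sum_univ_two, hb10] at e2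
      field_simp
      linear_combination (-1 : k) * e2
    have hoff : ¬ ∃ a, x' = e a * x₀ := by
      rintro ⟨t, ht⟩
      refine hδ ⟨t, he ?_⟩
      rw [hγ x' ⟨_, hx'⟩, hγ x₀ hx₀A] at hγ'
      have h1 : x' * a₀ = e δ * d₀ * x₀ := by
        field_simp at hγ'
        linear_combination hγ'
      rw [map_mul]
      rw [ht] at h1 hx'eq
      have ha : a₀ = e t * d₀ := mul_right_cancel₀ hx₀ (by linear_combination hx'eq)
      refine mul_left_cancel₀ (mul_ne_zero hd₀ hx₀) ?_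
      rw [ha] at h1
      linear_combination -h1
    have hA₁ : x' ∈ A := ⟨_, hx'⟩
    have h25 : 25 ≤ p ^ 2 := by nlinarith
    -- second differences
    obtain ⟨x, hx, hxbad⟩ := hpick x' hA₁ hoff {0, -4 / y, -2 / y}
      (lt_of_le_of_lt Finset.card_le_three (by omega))
    simp only [Finset.mem_insert, Finset.mem_singleton, not_or] at hxbad
    obtain ⟨z, hz, hzbad⟩ := hpick x' hA₁ hoff {0, x, -x, -4 / y - x, x + 4 / y}
      (lt_of_le_of_lt Finset.card_le_five (by omega))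
    simp only [Finset.mem_insert, Finset.mem_singleton, not_or] at hzbad
    have hxz : x - z ∈ A := by rw [sub_eq_add_neg]; exact hAadd _ hx _ (hAneg _ hz)
    have hok : ∀ w : k, w ≠ -4 / y → 4 + w * y ≠ 0 := fun w hw h0 => hw (by
      field_simp; linear_combination h0)
    have r1 := hrel x hx hxbad.1 (hok x hxbad.2.1)
    have r2 := hrel (x + z) (hAadd _ hx _ hz)
      (fun h0 => hzbad.2.2.1 (by linear_combination h0))
      (hok _ fun h0 => hzbad.2.2.2.1 (by linear_combination h0))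
    have r3 := hrel (x - z) hxz (fun h0 => hzbad.2.1 (by linear_combination -h0))
      (hok _ fun h0 => hzbad.2.2.2.2 (by linear_combination -h0))
    have hadd1 := hα₀add x hx z hz
    have hadd2 := hα₀add (x - z) hxz z hz
    rw [sub_add_cancel] at hadd2
    have h6 : (6 : k) ≠ 0 := by
      rw [show (6 : k) = 2 * 3 by norm_num]; exact mul_ne_zero h2 (h3c hc)
    field_simp at r1 r2 r3
    have : 6 * (c * z ^ 2 * (x * y + 2)) = 0 := by
      linear_combination r2 + r3 - 2 * r1 + (6 * y) * hadd2 - (6 * y) * hadd1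
    simp only [mul_eq_zero, h6, hc, pow_eq_zero_iff two_ne_zero, hzbad.1, false_or] at this
    exact hxbad.2.2 (by field_simp; linear_combination this)
  -- hence the last part is linear
  set lam := α₀ x₀ / x₀
  have hlin : ∀ x ∈ A, α₀ x = lam * x := by
    intro x hx
    by_cases hline : ∃ a, x = e a * x₀
    · obtain ⟨a, rfl⟩ := hline
      rw [show e a = ((a.val : ℕ) : k) by rw [← map_natCast e, ZMod.natCast_zmod_val],
        hα₀nsmul _ _ hx₀A]
      simp only [lam]; field_simp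
    have h9 : 9 ≤ p ^ 2 := by nlinarith
    obtain ⟨a₁, ha₁, hb₁⟩ := hpick x hx hline {0, -4 / y}
      (lt_of_le_of_lt Finset.card_le_two (by omega))
    simp only [Finset.mem_insert, Finset.mem_singleton, not_or] at hb₁
    obtain ⟨a₂, ha₂, hb₂⟩ := hpick x hx hline {0, -4 / y, -a₁, -4 / y - a₁}
      (lt_of_le_of_lt Finset.card_le_four (by omega))
    simp only [Finset.mem_insert, Finset.mem_singleton, not_or] at hb₂
    have hok : ∀ w : k, w ≠ -4 / y → 4 + w * y ≠ 0 := fun w hw h0 => hw (by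
      field_simp; linear_combination h0)
    have r1 := hrel a₁ ha₁ hb₁.1 (hok _ hb₁.2)
    have r2 := hrel a₂ ha₂ hb₂.1 (hok _ hb₂.2.1)
    have r3 := hrel (a₁ + a₂) (hAadd _ ha₁ _ ha₂)
      (fun h0 => hb₂.2.2.1 (by linear_combination h0))
      (hok _ fun h0 => hb₂.2.2.2 (by linear_combination h0))
    simp only [hc0, zero_mul, zero_add] at r1 r2 r3
    have hK₀ : K₀ = 0 := by
      linear_combination r1 + r2 - r3 + y * hα₀add a₁ ha₁ a₂ ha₂
    have hgood : ∀ w ∈ A, w ≠ 0 → w ≠ -4 / y → α₀ w = -(K₁ / y) * w := fun w hw hw0 hw4 => by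
      have := hrel w hw hw0 (hok w hw4)
      simp only [hc0, zero_mul, zero_add, hK₀, add_zero] at this
      field_simp
      linear_combination this
    have hall : ∀ w ∈ A, α₀ w = -(K₁ / y) * w := by
      intro w hw
      obtain ⟨z, hz, hzb⟩ := hpick x hx hline {0, -4 / y, w, w + 4 / y}
        (lt_of_le_of_lt Finset.card_le_four (by omega))
      simp only [Finset.mem_insert, Finset.mem_singleton, not_or] at hzb
      have hwz : w - z ∈ A := by rw [sub_eq_add_neg]; exact hAadd _ hw _ (hAneg _ hz)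
      have h1 := hα₀add z hz (w - z) hwz
      rw [add_sub_cancel, hgood z hz hzb.1 hzb.2.1, hgood (w - z) hwz
        (fun h0 => hzb.2.2.1 (by linear_combination -h0))
        (fun h0 => hzb.2.2.2 (by linear_combination -h0))] at h1
      linear_combination h1
    simp only [lam]
    rw [hall x hx, hall x₀ hx₀A]
    field_simp
  -- subtract a coboundary
  set m : Matrix (Fin 2) (Fin 2) k := !![-lam / 2, 0; c', lam / 2]
  have hmtr : m.trace = 0 := by simp [m, Matrix.trace_fin_two]; ring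
  have hvan : ∀ g ∈ P, ψ g - (twAd ρ g m - m) = 0 := by
    rintro g ⟨x, hx⟩
    have hinv : ρ g⁻¹ = upperU (-x) := by
      obtain ⟨w, hw⟩ := P.inv_mem ⟨x, hx⟩
      have := map_mul_map_inv ρ g
      rw [hx, hw, upperU_mul, ← upperU_zero] at this
      rw [hw, eq_neg_of_add_eq_zero_right (upperU_inj this)]
    have hm : m = !![-lam / 2, 0; c', -(-lam / 2)] := by simp [m, neg_div]
    rw [hF x g hx, hFm x ⟨g, hx⟩, twAd, hx, hinv, hm, upperU_conj,
      show (upperU x : Matrix (Fin 2) (Fin 2) k).det = 1 by simp [upperU, Matrix.det_fin_two],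
      one_smul, hβ x ⟨g, hx⟩, hγ x ⟨g, hx⟩, hc0]
    have ha : α x = lam * x - c' * x ^ 2 := by
      have := hlin x ⟨g, hx⟩
      simp only [α₀, hc0] at this
      linear_combination this
    rw [ha]
    ext i j
    fin_cases i <;> fin_cases j <;> simp <;> field_simp <;> ring
  obtain ⟨m', hm', hψ'⟩ := exists_coboundary_of_vanish (h.sub_coboundary hmtr) P hvan hidx
  refine ⟨m + m', by rw [Matrix.trace_add, hmtr, hm', add_zero], fun g => ?_⟩
  have := hψ' g
  rw [sub_eq_iff_eq_add] at this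
  rw [this, twAd_add]
  abel

/-- Vanishing of `H¹(G, ad⁰ ⊗ det)`. -/
theorem exists_adCoboundary (hp2 : p ≠ 2) (hinj : Function.Injective ρ)
    (hirr : ∀ w : Fin 2 → k, w ≠ 0 → ∃ g, ∀ a : k, ρ g *ᵥ w ≠ a • w)
    (hdet : ∀ a : (ZMod p)ˣ, ∃ g, (ρ g).det = ZMod.castHom (dvd_refl p) k (a : ZMod p))
    (h : IsAdCocycle ρ ψ) :
    ∃ m : Matrix (Fin 2) (Fin 2) k, m.trace = 0 ∧ ∀ g, ψ g = twAd ρ g m - m := by
  have hp : p.Prime := Fact.out
  by_cases hdvd : p ∣ Nat.card G
  swap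
  · refine exists_coboundary_of_vanish h ⊥
      (fun g hg => by rw [Subgroup.mem_bot.mp hg, h.map_one]) ?_
    rwa [Subgroup.index_bot, Ne, CharP.cast_eq_zero_iff k p]
  obtain ⟨u₀, hu₀⟩ := exists_prime_orderOf_dvd_card' p hdvd
  set N := ρ u₀ - 1 with hN
  have hN0 : N ≠ 0 := fun h0 => hp.ne_one (by
    rw [← hu₀, orderOf_eq_one_iff]
    exact hinj (by rw [map_one]; exact sub_eq_zero.mp h0))
  have hNp : N ^ p = 0 := by
    rw [hN, sub_pow_char_of_commute p (Commute.one_right _), one_pow, ← MonoidHom.map_pow,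
      show u₀ ^ p = 1 by rw [← hu₀]; exact pow_orderOf_eq_one u₀, map_one, sub_self]
  have hnil : IsNilpotent N := ⟨p, hNp⟩
  have hN2 : N * N = 0 := by
    have h1 := Matrix.aeval_self_charpoly N
    rw [Matrix.charpoly_fin_two] at h1
    have htr : N.trace = 0 := (Matrix.isNilpotent_trace_of_isNilpotent hnil).eq_zero
    have hd : N.det = 0 := by
      have := congrArg Matrix.det hNp
      rw [Matrix.det_pow, Matrix.det_zero] at this
      exact eq_zero_of_pow_eq_zero this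
    simpa [htr, hd, sq] using h1
  obtain ⟨w, hw⟩ : ∃ w, N *ᵥ w ≠ 0 := by
    by_contra hcon
    push Not at hcon
    exact hN0 (Matrix.ext_of_mulVec_single fun j => by rw [hcon, Matrix.zero_mulVec])
  set e₁ := N *ᵥ w
  have hNe₁ : N *ᵥ e₁ = 0 := by rw [Matrix.mulVec_mulVec, hN2, Matrix.zero_mulVec]
  obtain ⟨g, hg⟩ := hirr e₁ hw
  set e₂ := ρ g *ᵥ e₁
  let B : Matrix (Fin 2) (Fin 2) k := !![e₁ 0, e₂ 0; e₁ 1, e₂ 1]
  have hB : B.det ≠ 0 := fun h0 => by
    simp [B, Matrix.det_fin_two] at h0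
    by_cases h00 : e₁ 0 = 0
    · have h11 : e₁ 1 ≠ 0 := fun h1 => hw (funext fun i => by fin_cases i <;> assumption)
      rw [h00, zero_mul, zero_sub, neg_eq_zero] at h0
      refine hg (e₂ 1 / e₁ 1) (funext fun i => ?_)
      fin_cases i
      · show e₂ 0 = e₂ 1 / e₁ 1 * e₁ 0
        rw [h00, mul_zero, (mul_eq_zero.mp h0).resolve_right h11]
      · show e₂ 1 = e₂ 1 / e₁ 1 * e₁ 1
        rw [div_mul_cancel₀ _ h11]
    · refine hg (e₂ 0 / e₁ 0) (funext fun i => ?_)
      fin_cases i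
      · show e₂ 0 = e₂ 0 / e₁ 0 * e₁ 0
        rw [div_mul_cancel₀ _ h00]
      · show e₂ 1 = e₂ 0 / e₁ 0 * e₁ 1
        field_simp
        linear_combination h0
  have hBu : IsUnit B.det := isUnit_iff_ne_zero.mpr hB
  let ρ' : G →* Matrix (Fin 2) (Fin 2) k :=
    { toFun := fun x => B⁻¹ * ρ x * B
      map_one' := by rw [map_one, Matrix.mul_one, Matrix.nonsing_inv_mul _ hBu]
      map_mul' := fun a b => by
        rw [map_mul]
        simp only [Matrix.mul_assoc]
        rw [← Matrix.mul_assoc B B⁻¹, Matrix.mul_nonsing_inv _ hBu, Matrix.one_mul] }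
  have hback : ∀ M : Matrix (Fin 2) (Fin 2) k, B * (B⁻¹ * M * B) * B⁻¹ = M := fun M => by
    simp only [Matrix.mul_assoc, Matrix.mul_nonsing_inv _ hBu, Matrix.mul_one]
    rw [← Matrix.mul_assoc, Matrix.mul_nonsing_inv _ hBu, Matrix.one_mul]
  have hconj : ∀ x, B * ρ' x * B⁻¹ = ρ x := fun x => hback (ρ x)
  have hinj' : Function.Injective ρ' := fun a b hab => hinj (by rw [← hconj a, ← hconj b, hab])
  have hdet' : ∀ x, (ρ' x).det = (ρ x).det := fun x => by
    show (B⁻¹ * ρ x * B).det = _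
    exact Matrix.det_conj' ((Matrix.isUnit_iff_isUnit_det B).mpr hBu) (ρ x)
  set ψ' := fun x => B⁻¹ * ψ x * B
  have hψ' : IsAdCocycle ρ' ψ' := by
    refine ⟨fun x => ?_, fun a b => ?_⟩
    · rw [Matrix.trace_mul_cycle, Matrix.mul_nonsing_inv _ hBu, Matrix.one_mul, h.trace_eq]
    · simp only [ψ', twAd, h.map_mul, hdet', Matrix.mul_add, Matrix.add_mul, Matrix.mul_smul,
        Matrix.smul_mul]
      congr 2
      show _ = B⁻¹ * ρ a * B * (B⁻¹ * ψ b * B) * (B⁻¹ * ρ a⁻¹ * B)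
      simp only [Matrix.mul_assoc]
      rw [← Matrix.mul_assoc B B⁻¹ (ψ b * _), Matrix.mul_nonsing_inv _ hBu, Matrix.one_mul,
        ← Matrix.mul_assoc B B⁻¹, Matrix.mul_nonsing_inv _ hBu, Matrix.one_mul]
  -- the matrices of `u₀` and of its conjugate in the new basis
  have hNe₂ : ∃ x₀ : k, x₀ ≠ 0 ∧ N *ᵥ e₂ = x₀ • e₁ := by
    -- write `w = a e₁ + b e₂`
    set cf := B⁻¹ *ᵥ w
    have hwc : w = cf 0 • e₁ + cf 1 • e₂ := by
      have : B *ᵥ cf = w := by
        rw [Matrix.mulVec_mulVec, Matrix.mul_nonsing_inv _ hBu, Matrix.one_mulVec]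
      rw [← this]
      funext i
      fin_cases i <;> simp [B, Matrix.mulVec, dotProduct, Fin.sum_univ_two, mul_comm]
    have hb : cf 1 ≠ 0 ∧ e₁ = cf 1 • (N *ᵥ e₂) := by
      have h1 : e₁ = cf 1 • (N *ᵥ e₂) := by
        show N *ᵥ w = _
        rw [hwc, Matrix.mulVec_add, Matrix.mulVec_smul, Matrix.mulVec_smul, hNe₁, smul_zero,
          zero_add]
      exact ⟨fun h0 => hw (by show e₁ = 0; rw [h1, h0, zero_smul]), h1⟩
    exact ⟨(cf 1)⁻¹, inv_ne_zero hb.1, by conv_rhs => rw [hb.2, inv_smul_smul₀ hb.1]⟩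
  obtain ⟨x₀, hx₀, hNe₂⟩ := hNe₂
  have hue₁ : ρ u₀ *ᵥ e₁ = e₁ := by
    rw [show ρ u₀ = N + 1 by rw [hN, sub_add_cancel], Matrix.add_mulVec, hNe₁, zero_add,
      Matrix.one_mulVec]
  have hue₂ : ρ u₀ *ᵥ e₂ = x₀ • e₁ + e₂ := by
    rw [show ρ u₀ = N + 1 by rw [hN, sub_add_cancel], Matrix.add_mulVec, hNe₂, Matrix.one_mulVec]
  have hU : ρ' u₀ = upperU x₀ := by
    show B⁻¹ * ρ u₀ * B = _
    rw [Matrix.mul_assoc, show ρ u₀ * B = B * upperU x₀ by
      have a0 := congrFun hue₁ 0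
      have a1 := congrFun hue₁ 1
      have b0 := congrFun hue₂ 0
      have b1 := congrFun hue₂ 1
      simp [Matrix.mulVec, dotProduct, Fin.sum_univ_two] at a0 a1 b0 b1
      ext i j
      fin_cases i <;> fin_cases j <;>
        simp [B, upperU, Matrix.mul_apply, Fin.sum_univ_two] <;>
        first | linear_combination a0 | linear_combination a1 | linear_combination b0 |
          linear_combination b1,
      ← Matrix.mul_assoc, Matrix.nonsing_inv_mul _ hBu, Matrix.one_mul]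
  set v := g * u₀ * g⁻¹
  have hve₂ : ρ v *ᵥ e₂ = e₂ := by
    show ρ (g * u₀ * g⁻¹) *ᵥ (ρ g *ᵥ e₁) = _
    rw [Matrix.mulVec_mulVec, ← map_mul, inv_mul_cancel_right, map_mul, ← Matrix.mulVec_mulVec,
      hue₁]
  have hV0 : ρ' v 0 1 = 0 ∧ ρ' v 1 1 = 1 := by
    have h1 : ρ' v *ᵥ ![0, 1] = ![0, 1] := by
      have hB2 : B *ᵥ ![0, 1] = e₂ := by
        funext i; fin_cases i <;> simp [B, Matrix.mulVec, dotProduct, Fin.sum_univ_two]
      show (B⁻¹ * ρ v * B) *ᵥ _ = _
      rw [← Matrix.mulVec_mulVec, hB2, ← Matrix.mulVec_mulVec, hve₂, ← hB2, Matrix.mulVec_mulVec,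
        Matrix.nonsing_inv_mul _ hBu, Matrix.one_mulVec]
    have a0 := congrFun h1 0
    have a1 := congrFun h1 1
    simp [Matrix.mulVec, dotProduct, Fin.sum_univ_two] at a0 a1
    exact ⟨a0, a1⟩
  have hV00 : ρ' v 0 0 = 1 := by
    have h1 : (ρ' v).det = 1 := by
      rw [hdet']
      show (ρ (g * u₀ * g⁻¹)).det = 1
      rw [map_mul, Matrix.det_mul, map_mul, Matrix.det_mul, mul_right_comm, ← Matrix.det_mul,
        ← map_mul, mul_inv_cancel, map_one, Matrix.det_one, one_mul, ← hdet' u₀, hU]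
      simp [upperU, Matrix.det_fin_two]
    rw [Matrix.det_fin_two, hV0.1, hV0.2] at h1
    linear_combination h1
  have hV : ρ' v = lowerV (ρ' v 1 0) := by
    ext i j; fin_cases i <;> fin_cases j <;> simp [lowerV, hV0.1, hV0.2, hV00]
  have hy : ρ' v 1 0 ≠ 0 := fun h0 => by
    have h1 : v = 1 := hinj' (by rw [hV, h0, map_one]; simp [lowerV, Matrix.one_fin_two])
    have hu1 : u₀ = 1 := by
      have : g * u₀ * g⁻¹ = 1 := h1
      exact mul_left_cancel (a := g) (by rw [mul_one]; exact mul_inv_eq_one.mp this)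
    exact hp.ne_one (by rw [← hu₀, hu1, orderOf_one])
  obtain ⟨m, hm, hψm⟩ := exists_coboundary_core p hp2 hinj'
    (fun a => (hdet a).imp fun x hx => by rw [hdet', hx]) hx₀ hy hU hV hψ'
  refine ⟨B * m * B⁻¹, ?_, fun x => ?_⟩
  · rw [Matrix.trace_mul_cycle, Matrix.nonsing_inv_mul _ hBu, Matrix.one_mul, hm]
  · rw [← hback (ψ x), show B⁻¹ * ψ x * B = ψ' x from rfl, hψm x]
    simp only [twAd, hdet', Matrix.mul_sub, Matrix.sub_mul, Matrix.mul_smul, Matrix.smul_mul]
    congr 2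
    show B * (B⁻¹ * ρ x * B * m * (B⁻¹ * ρ x⁻¹ * B)) * B⁻¹ = _
    simp only [Matrix.mul_assoc, Matrix.mul_nonsing_inv _ hBu, Matrix.mul_one]
    rw [← Matrix.mul_assoc B B⁻¹, Matrix.mul_nonsing_inv _ hBu, Matrix.one_mul]

end FA.TW
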