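import Fermat.Agent.TW.Irreducible
import Fermat.Agent.TW.AdjointH1
import Fermat.Agent.Deform.MatrixRep
import Fermat.Agent.GalCoh.Pair

/-!
# The adjoint representation on trace zero matrices and its twist by the determinant
-/

set_option autoImplicit false

noncomputable section

open Matrix FA.GalCoh

namespace FA.TW

variable {k : Type} [Field k] {G : Type} [Group G] (r : G →* Matrix (Fin 2) (Fin 2) k)

variable (k) in
/-- Trace zero matrices. -/
abbrev sl2 : Submodule k (Matrix (Fin 2) (Fin 2) k) :=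
  LinearMap.ker (Matrix.traceLinearMap (Fin 2) k k)

theorem mem_sl2 {M : Matrix (Fin 2) (Fin 2) k} : M ∈ sl2 k ↔ M.trace = 0 := Iff.rfl

theorem trace_conj (g : G) (M : Matrix (Fin 2) (Fin 2) k) :
    (r g * M * r g⁻¹).trace = M.trace := by
  rw [Matrix.trace_mul_cycle, map_inv_mul_map, Matrix.one_mul]

/-- The adjoint representation. -/
def adRep : Representation k G ↥(sl2 k) where
  toFun g := (LinearMap.mulLeftRight k (r g, r g⁻¹)).restrict fun M hM => by
    rw [mem_sl2, LinearMap.mulLeftRight_apply, trace_conj]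
    exact hM
  map_one' := by
    refine LinearMap.ext fun M => Subtype.ext ?_
    show r 1 * M.1 * r 1⁻¹ = M.1
    simp
  map_mul' g h := by
    refine LinearMap.ext fun M => Subtype.ext ?_
    show r (g * h) * M.1 * r (g * h)⁻¹ = r g * (r h * M.1 * r h⁻¹) * r g⁻¹
    simp only [map_mul, _root_.mul_inv_rev, Matrix.mul_assoc]

@[simp] theorem coe_adRep (g : G) (M : ↥(sl2 k)) :
    ((adRep r g M : ↥(sl2 k)) : Matrix (Fin 2) (Fin 2) k) = r g * M.1 * r g⁻¹ := rfl

/-- The determinant character. -/
def detU : G →* kˣ := (Matrix.detMonoidHom.comp r).toHomUnits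

@[simp] theorem coe_detU (g : G) : (detU r g : k) = (r g).det := rfl

/-- The adjoint representation twisted by the determinant. -/
def twRep : Representation k G ↥(sl2 k) := (adRep r).twist (detU r)

@[simp] theorem coe_twRep (g : G) (M : ↥(sl2 k)) :
    ((twRep r g M : ↥(sl2 k)) : Matrix (Fin 2) (Fin 2) k) = twAd r g M.1 := rfl

/-- Cocycles of the twisted representation, as matrix valued functions. -/
theorem isAdCocycle_of_mem {L : Levels G} {c : G → ↥(sl2 k)} (hc : c ∈ Z1 L (twRep r)) :
    IsAdCocycle r fun g => (c g).1 :=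
  ⟨fun g => (c g).2, fun g h => by
    have := congrArg Subtype.val (hc.2 g h)
    rw [Submodule.coe_add, coe_twRep] at this
    rw [this, add_comm]⟩

theorem smooth_adRep {L : Levels G} (h : ∃ N ∈ L.carrier, ∀ s ∈ N, r s = 1) :
    Smooth L (adRep r) := by
  obtain ⟨N, hN, h⟩ := h
  refine ⟨N, hN, fun s hs => LinearMap.ext fun M => Subtype.ext ?_⟩
  rw [coe_adRep, h s hs, h s⁻¹ (N.inv_mem hs), Matrix.one_mul, Matrix.mul_one]
  rfl

theorem smooth_twRep {L : Levels G} (h : ∃ N ∈ L.carrier, ∀ s ∈ N, r s = 1) :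
    Smooth L (twRep r) := by
  obtain ⟨N, hN, h⟩ := h
  refine ⟨N, hN, fun s hs => LinearMap.ext fun M => Subtype.ext ?_⟩
  rw [coe_twRep, twAd, h s hs, h s⁻¹ (N.inv_mem hs), Matrix.det_one, one_smul, Matrix.one_mul,
    Matrix.mul_one]
  rfl

/-- The trace form on trace zero matrices. -/
def traceForm : ↥(sl2 k) →ₗ[k] ↥(sl2 k) →ₗ[k] k :=
  LinearMap.mk₂ k (fun M N => (M.1 * N.1).trace)
    (fun M M' N => by simp [add_mul])
    (fun c M N => by simp)
    (fun M N N' => by simp [mul_add])
    (fun c M N => by simp)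

theorem traceForm_apply (M N : ↥(sl2 k)) : traceForm M N = (M.1 * N.1).trace := rfl

theorem traceForm_flip : (traceForm (k := k)).flip = traceForm :=
  LinearMap.ext fun M => LinearMap.ext fun N => Matrix.trace_mul_comm N.1 M.1

theorem traceForm_injective (h2 : (2 : k) ≠ 0) : Function.Injective (traceForm (k := k)) := by
  rw [injective_iff_map_eq_zero]
  intro M hM
  have e := fun N => LinearMap.congr_fun hM N
  have htr : M.1 0 0 + M.1 1 1 = 0 := by rw [← Matrix.trace_fin_two]; exact M.2
  have h01 := e ⟨!![0, 0; 1, 0], by simp [Matrix.trace_fin_two]⟩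
  have h10 := e ⟨!![0, 1; 0, 0], by simp [Matrix.trace_fin_two]⟩
  have h00 := e ⟨!![1, 0; 0, -1], by simp [Matrix.trace_fin_two]⟩
  simp [traceForm_apply, Matrix.trace_fin_two, Matrix.mul_apply, Fin.sum_univ_two] at h01 h10 h00
  have hz : M.1 0 0 = 0 := by
    have : (2 : k) * M.1 0 0 = 0 := by linear_combination h00 + htr
    exact (mul_eq_zero.mp this).resolve_left h2
  refine Subtype.ext (Matrix.ext fun i j => ?_)
  rw [ZeroMemClass.coe_zero, Matrix.zero_apply]
  fin_cases i <;> fin_cases j
  · exact hz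
  · exact h01
  · exact h10
  · show M.1 1 1 = 0
    linear_combination htr - hz

/-- The dual pair formed by the adjoint representation and its twist. -/
def adPair (L : Levels G) (h : ∃ N ∈ L.carrier, ∀ s ∈ N, r s = 1) (h2 : (2 : k) ≠ 0) :
    DPair L (detU r) (adRep r) (twRep r) where
  β := traceForm
  bil := fun g M N => by
    rw [traceForm_apply, chr_apply, traceForm_apply, coe_adRep, coe_twRep, twAd, coe_detU,
      Matrix.mul_smul, Matrix.trace_smul, smul_eq_mul]
    congr 1
    rw [Matrix.mul_assoc (r g * M.1), ← Matrix.mul_assoc (r g⁻¹) (r g * N.1),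
      ← Matrix.mul_assoc (r g⁻¹) (r g), map_inv_mul_map, Matrix.one_mul, ← Matrix.mul_assoc,
      Matrix.mul_assoc (r g) M.1, trace_conj]
  inj_left := traceForm_injective h2
  inj_right := by rw [traceForm_flip]; exact traceForm_injective h2
  fin_left := inferInstance
  fin_right := inferInstance
  smooth_left := smooth_adRep r h
  smooth_right := smooth_twRep r h

variable {r}

/-- Over a field over which the representation is big, trace zero matrices have no vector fixed
up to scalars. -/
theorem eq_zero_of_semi_invariant {L : Type} [Field L] [IsAlgClosed L] (j : k →+* L)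
    {r' : G →* Matrix (Fin 2) (Fin 2) L} (hr' : ∀ g, r' g = j.mapMatrix (r g)) (hbig : IsBig r')
    (h2 : (2 : k) ≠ 0) {M : Matrix (Fin 2) (Fin 2) k} (htr : M.trace = 0)
    (h : ∀ g, ∃ c : k, r g * M = c • (M * r g)) : M = 0 := by
  by_contra hM
  have h2L : (2 : L) ≠ 0 := by
    rw [← map_ofNat j 2]
    exact fun h0 => h2 (j.injective (by rw [h0, map_zero]))
  refine hbig.no_adjoint_line h2L (X := j.mapMatrix M) (fun h0 => hM (Matrix.ext fun a b =>
    j.injective (by rw [Matrix.zero_apply, map_zero]; exact congrFun (congrFun h0 a) b)))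
    ?_ fun g => ?_
  · rw [Matrix.trace_fin_two] at htr ⊢
    rw [RingHom.mapMatrix_apply, Matrix.map_apply, Matrix.map_apply, ← map_add, htr, map_zero]
  · obtain ⟨c, hc⟩ := h g
    refine ⟨j c, ?_⟩
    rw [hr', ← map_mul, ← map_mul, hc, RingHom.mapMatrix_apply, RingHom.mapMatrix_apply,
      Matrix.map_smul' _ _ _ (map_mul j)]

theorem invariants_adRep {L : Type} [Field L] [IsAlgClosed L] (j : k →+* L)
    {r' : G →* Matrix (Fin 2) (Fin 2) L} (hr' : ∀ g, r' g = j.mapMatrix (r g)) (hbig : IsBig r')
    (h2 : (2 : k) ≠ 0) : (adRep r).invariants = ⊥ := by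
  rw [eq_bot_iff]
  intro M hM
  refine Subtype.ext (eq_zero_of_semi_invariant j hr' hbig h2 M.2 fun g => ⟨1, ?_⟩)
  have := congrArg Subtype.val (hM g)
  rw [coe_adRep] at this
  rw [one_smul]
  conv_rhs => rw [← this, Matrix.mul_assoc, map_inv_mul_map, Matrix.mul_one]

theorem invariants_twRep {L : Type} [Field L] [IsAlgClosed L] (j : k →+* L)
    {r' : G →* Matrix (Fin 2) (Fin 2) L} (hr' : ∀ g, r' g = j.mapMatrix (r g)) (hbig : IsBig r')
    (h2 : (2 : k) ≠ 0) : (twRep r).invariants = ⊥ := by
  rw [eq_bot_iff]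
  intro M hM
  refine Subtype.ext (eq_zero_of_semi_invariant j hr' hbig h2 M.2 fun g => ⟨(r g).det⁻¹, ?_⟩)
  have := congrArg Subtype.val (hM g)
  rw [coe_twRep] at this
  have hd : (r g).det ≠ 0 := fun h0 => by
    have h1 := congrArg Matrix.det (map_mul_map_inv r g)
    rw [Matrix.det_mul, h0, zero_mul, Matrix.det_one] at h1
    exact zero_ne_one h1
  conv_rhs => rw [← this, twAd, Matrix.smul_mul, Matrix.mul_assoc, map_inv_mul_map, Matrix.mul_one,
    smul_smul, inv_mul_cancel₀ hd, one_smul]

end FA.TW
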