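import Fermat.Agent.TW.LocalTW
import Fermat.Agent.LocalDef.Defs

/-!
# The local condition at `p` cut out by a tangent bound
-/

set_option autoImplicit false

noncomputable section

open FA.GalCoh FA.LocalDef

namespace FA.TW

local notation "Qb" => AlgebraicClosure ℚ
local notation "GQ" => AlgebraicClosure ℚ ≃ₐ[ℚ] AlgebraicClosure ℚ

/-- Classes of the cocycles whose image under an injective map lies in a small space. -/
theorem exists_classes_of_bound {k : Type} [Field k] {G : Type} [Group G] {L : Levels G}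
    {V : Type} [AddCommGroup V] [Module k V] [FiniteDimensional k V] {ρ : Representation k G V}
    (hsm : Smooth L ρ) {T : Type} [AddCommGroup T] [Module k T] (f : ↥(Z1 L ρ) →ₗ[k] T)
    (hf : Function.Injective f) (Z : Submodule k T) [FiniteDimensional k ↥Z]
    (hcob : ∀ v, ∀ c : ↥(Z1 L ρ), c.1 = d0 ρ v → f c ∈ Z) :
    ∃ M : Submodule k (H1 L ρ), FiniteDimensional k ↥M ∧
      Module.finrank k ↥M + Module.finrank k V ≤
        Module.finrank k ↥Z + Module.finrank k ↥ρ.invariants ∧
      ∀ c, f c ∈ Z → mk1 L ρ c ∈ M := by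
  let v' : ↥(Z.comap f) →ₗ[k] ↥Z := f.restrict fun x hx => hx
  have hv' : Function.Injective v' := fun a b h =>
    Subtype.ext (hf (congrArg (fun z : ↥Z => (z : T)) h))
  have : FiniteDimensional k ↥(Z.comap f) := Module.Finite.of_injective v' hv'
  refine ⟨(Z.comap f).map (mk1 L ρ), inferInstance, ?_, fun c hc => ⟨c, hc, rfl⟩⟩
  have h := finrank_map_mk1_le (Z.comap f) (⊤ : Submodule k V) fun u _ =>
    ⟨⟨d0 ρ u, d0_mem_Z1 hsm u⟩, hcob u _ rfl, rfl⟩
  rw [finrank_top, top_inf_eq] at h
  exact h.trans (Nat.add_le_add_right (LinearMap.finrank_le_finrank_of_injective hv') _)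

variable {k : Type} [Field k] {A : ValuationSubring Qb} (r : GQ →* Matrix (Fin 2) (Fin 2) k)

/-- A tangent bound gives a space of local classes of dimension at most `h⁰ + 1` containing all
the classes with the property. -/
theorem exists_localP (hker : IsOpen (r.ker : Set GQ))
    {P : (GQ → Matrix (Fin 2) (Fin 2) k) → Prop} (hb : TangentBound A r P) :
    ∃ L : Submodule k (H1 (levelsOn (A.decompositionSubgroup ℚ))
        ((adRep r).comp (A.decompositionSubgroup ℚ).subtype)),
      FiniteDimensional k ↥L ∧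
      Module.finrank k ↥L ≤ Module.finrank k ↥(Representation.invariants
          ((adRep r).comp (A.decompositionSubgroup ℚ).subtype)) + 1 ∧
      ∀ (c : GQ → ↥(sl2 k)), (∀ g h, c (g * h) = adRep r g (c h) + c g) →
        P (fun σ => (c σ).1) →
        ∀ cD : ↥(Z1 (levelsOn (A.decompositionSubgroup ℚ))
          ((adRep r).comp (A.decompositionSubgroup ℚ).subtype)), (∀ σ, cD.1 σ = c σ.1) →
          mk1 (levelsOn (A.decompositionSubgroup ℚ))
            ((adRep r).comp (A.decompositionSubgroup ℚ).subtype) cD ∈ L := by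
  obtain ⟨Z, hZfin, hZ4, hcob, hP⟩ := hb
  obtain ⟨M, hMfin, hM, hmem⟩ := exists_classes_of_bound
    (L := levelsOn (A.decompositionSubgroup ℚ))
    (ρ := (adRep r).comp (A.decompositionSubgroup ℚ).subtype)
    ((smooth_adRep r (L := allLevels) ⟨r.ker, hker, fun t ht => ht⟩).comp
      (Levels.sub_compat allLevels (A.decompositionSubgroup ℚ)))
    (((sl2 k).subtype.compLeft _).comp (Submodule.subtype _))
    (fun a b h => Subtype.ext (funext fun σ => Subtype.ext (congrFun h σ))) Z
    (fun v c hc => by
      convert hcob v.1 v.2 using 1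
      funext σ
      exact congrArg Subtype.val (congrFun hc σ))
  refine ⟨M, hMfin, ?_, fun c hc hPc cD hcD => hmem cD ?_⟩
  · rw [finrank_sl2] at hM
    omega
  · convert hP (fun σ => (c σ).1) ⟨fun σ _ => (c σ).2, fun σ _ τ _ => ?_⟩ hPc using 1
    · funext σ
      exact congrArg Subtype.val (hcD σ)
    · show (c (σ * τ)).1 = (c σ).1 + r σ * (c τ).1 * r σ⁻¹
      rw [hc, Submodule.coe_add, coe_adRep, add_comm]

end FA.TW
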