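import Fermat.Agent.TW.LocalQ

/-!
# Local cohomology of the adjoint representation at Taylor-Wiles primes
-/

set_option autoImplicit false

noncomputable section

open FA.GalCoh Matrix

namespace FA.TW

local notation "Qb" => AlgebraicClosure ℚ
local notation "GQ" => AlgebraicClosure ℚ ≃ₐ[ℚ] AlgebraicClosure ℚ

variable {k : Type} [Field k]

/-- A vector fixed by an element is fixed by the group it generates. -/
theorem mem_invariants_zpowers {G : Type} [Group G] {V : Type} [AddCommGroup V] [Module k V]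
    (ρ : Representation k G V) {φ : G} {v : V} (h : ρ φ v = v) :
    v ∈ Representation.invariants (ρ.comp (Subgroup.zpowers φ).subtype) := by
  have h' : ρ φ⁻¹ v = v := by
    conv_lhs => rw [← h]
    rw [← Module.End.mul_apply, ← map_mul, inv_mul_cancel, map_one, Module.End.one_apply]
  rintro ⟨g, hg⟩
  rw [Subgroup.zpowers_eq_closure] at hg
  induction hg using Subgroup.closure_induction_left with
  | one => simp
  | mul_left x hx y hy ih =>
    rw [Set.mem_singleton_iff] at hx
    subst hx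
    show ρ (x * y) v = v
    rw [map_mul, Module.End.mul_apply, show ρ y v = v from ih (by rwa [Subgroup.zpowers_eq_closure]), h]
  | inv_mul_cancel x hx y hy ih =>
    rw [Set.mem_singleton_iff] at hx
    subst hx
    show ρ (x⁻¹ * y) v = v
    rw [map_mul, Module.End.mul_apply, show ρ y v = v from ih (by rwa [Subgroup.zpowers_eq_closure]), h']

/-- The trace zero matrices commuting with a regular matrix form at most a line. -/
theorem finrank_fixed_le (r : GQ →* Matrix (Fin 2) (Fin 2) k) (φ : GQ)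
    (hreg : (r φ).trace ^ 2 ≠ 4 * (r φ).det) :
    Module.finrank k ↥(Representation.invariants ((adRep r).comp (Subgroup.zpowers φ).subtype)) ≤
      1 := by
  set M := r φ with hM
  set N : Matrix (Fin 2) (Fin 2) k := !![M 0 0 - M 1 1, 2 * M 0 1; 2 * M 1 0, M 1 1 - M 0 0]
    with hN
  have hcomm : M * N = N * M := by
    ext i j
    fin_cases i <;> fin_cases j <;> simp [N, Matrix.mul_apply, Fin.sum_univ_two] <;> ring
  have hNtr : N ∈ sl2 k := by rw [mem_sl2]; simp [N, Matrix.trace_fin_two]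
  have hNinv : (⟨N, hNtr⟩ : ↥(sl2 k)) ∈
      Representation.invariants ((adRep r).comp (Subgroup.zpowers φ).subtype) :=
    mem_invariants_zpowers _ (Subtype.ext (by
      rw [coe_adRep]
      show M * N * r φ⁻¹ = N
      rw [hcomm, Matrix.mul_assoc, hM, map_mul_map_inv, Matrix.mul_one]))
  refine finrank_le_one ⟨⟨N, hNtr⟩, hNinv⟩ ?_
  rintro ⟨⟨X, hX⟩, hfix⟩
  rw [mem_sl2, Matrix.trace_fin_two] at hX
  have h := congrArg Subtype.val (hfix ⟨φ, Subgroup.mem_zpowers φ⟩)
  have hc : M * X = X * M := by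
    have h' : r φ * X * r φ⁻¹ = X := h
    conv_rhs => rw [← h', Matrix.mul_assoc, hM, map_inv_mul_map, Matrix.mul_one]
  have h11 : X 1 1 = - X 0 0 := by linear_combination hX
  have e01 := congrFun (congrFun hc 0) 1
  have e10 := congrFun (congrFun hc 1) 0
  have e00 := congrFun (congrFun hc 0) 0
  simp only [Matrix.mul_apply, Fin.sum_univ_two, h11] at e01 e10 e00
  have f00 : M 0 1 * X 1 0 - X 0 1 * M 1 0 = 0 := by linear_combination e00
  have f01 : (M 0 0 - M 1 1) * X 0 1 - 2 * M 0 1 * X 0 0 = 0 := by linear_combination e01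
  have f10 : 2 * M 1 0 * X 0 0 - (M 0 0 - M 1 1) * X 1 0 = 0 := by linear_combination e10
  have hd : (M 0 0 - M 1 1) ^ 2 + 4 * (M 0 1 * M 1 0) ≠ 0 := fun h0 => hreg (by
    rw [Matrix.trace_fin_two, Matrix.det_fin_two]
    linear_combination h0)
  set c := ((M 0 0 - M 1 1) * X 0 0 + (M 0 1 * X 1 0 + M 1 0 * X 0 1)) /
    ((M 0 0 - M 1 1) ^ 2 + 4 * (M 0 1 * M 1 0)) with hcdef
  refine ⟨c, Subtype.ext (Subtype.ext ?_)⟩
  show c • N = X
  have h00 : c * (M 0 0 - M 1 1) = X 0 0 := by
    rw [hcdef, div_mul_eq_mul_div, div_eq_iff hd]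
    linear_combination (M 1 0) * f01 - (M 0 1) * f10
  have h01 : c * (2 * M 0 1) = X 0 1 := by
    rw [hcdef, div_mul_eq_mul_div, div_eq_iff hd]
    linear_combination (2 * M 0 1) * f00 - (M 0 0 - M 1 1) * f01
  have h10 : c * (2 * M 1 0) = X 1 0 := by
    rw [hcdef, div_mul_eq_mul_div, div_eq_iff hd]
    linear_combination (M 0 0 - M 1 1) * f10 - (2 * M 1 0) * f00
  ext i j
  fin_cases i <;> fin_cases j <;> simp only [Fin.zero_eta, Fin.mk_one, Matrix.smul_apply,
    smul_eq_mul]
  · exact h00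
  · exact h01
  · exact h10
  · show c * (M 1 1 - M 0 0) = X 1 1
    linear_combination -h00 - h11

section H1

variable {p q : ℕ} {A : ValuationSubring Qb} (r : GQ →* Matrix (Fin 2) (Fin 2) k)

theorem finrank_sl2 : Module.finrank k ↥(sl2 k) = 3 := by
  have h := LinearMap.finrank_range_add_finrank_ker (Matrix.traceLinearMap (Fin 2) k k)
  have hr : LinearMap.range (Matrix.traceLinearMap (Fin 2) k k) = ⊤ :=
    LinearMap.range_eq_top.mpr fun a => ⟨!![a, 0; 0, 0], by simp [Matrix.trace_fin_two]⟩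
  rw [hr, finrank_top] at h
  simp [Module.finrank_matrix] at h
  show Module.finrank k ↥(LinearMap.ker (Matrix.traceLinearMap (Fin 2) k k)) = 3
  omega

theorem inertia_le_decomposition : A.inertiaSubgroupIn ℚ ≤ A.decompositionSubgroup ℚ :=
  fun σ hσ => by
    obtain ⟨x, -, rfl⟩ := hσ
    exact x.2

local notation "Dec" => ValuationSubring.decompositionSubgroup ℚ A

section Generic

variable {V : Type} [AddCommGroup V] [Module k V] (ρ : Representation k GQ V)
  (htriv : ∀ σ ∈ A.inertiaSubgroupIn ℚ, ∀ v, ρ σ v = v) {φ : GQ} (hφ : A.IsFrobeniusAt φ q)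

/-- Cocycles on the decomposition group, as plain functions. -/
def IsDecCocycle (c : A.decompositionSubgroup ℚ → V) : Prop :=
  ∀ g h : A.decompositionSubgroup ℚ, c (g * h) = ρ g.1 (c h) + c g

variable {ρ}

theorem IsDecCocycle.one {c : Dec → V} (hc : IsDecCocycle ρ c) : c 1 = 0 := by
  have h := hc 1 1
  rw [mul_one, OneMemClass.coe_one, map_one, Module.End.one_apply] at h
  exact add_left_cancel (a := c 1) (by rw [← h, add_zero])

include htriv in
theorem IsDecCocycle.conj {c : Dec → V} (hc : IsDecCocycle ρ c) (g σ : Dec)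
    (hσ : (σ : GQ) ∈ A.inertiaSubgroupIn ℚ) : c (g * σ * g⁻¹) = ρ g.1 (c σ) := by
  have h := hc g g⁻¹
  rw [mul_inv_cancel, hc.one] at h
  rw [hc, hc, Subgroup.coe_mul, map_mul, Module.End.mul_apply, htriv _ hσ]
  have e : ρ g.1 (c g⁻¹) = - c g := eq_neg_of_add_eq_zero_left h.symm
  rw [e]
  abel

variable [Fact p.Prime] [CharP k p] (hq : q.Prime) (hpq : p ≠ q) (hA : A.LiesOverPrime q)
  (hq1 : p ∣ q - 1)

include hq hpq hA hq1 htriv hφ in
/-- Common data for finitely many cocycles. -/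
theorem exists_inertia_value {ι : Type} [Finite ι] (x : ι → Dec → V)
    (hx : ∀ i, IsDecCocycle ρ (x i)) (N : Subgroup GQ) (hNopen : IsOpen (N : Set GQ))
    (hN : ∀ i (g t : Dec), (t : GQ) ∈ N → x i (g * t) = x i g) :
    ∃ s₀ : Dec, (∀ i, x i s₀ ∈ Representation.invariants (ρ.comp (Subgroup.zpowers φ).subtype)) ∧
      ∀ σ : Dec, (σ : GQ) ∈ A.inertiaSubgroupIn ℚ → ∃ m : ℕ, ∀ i, x i σ = m • x i s₀ := by
  have hp : p.Prime := Fact.out
  have hID := inertia_le_decomposition (A := A)
  let f : A.inertiaSubgroupIn ℚ →* Multiplicative (ι → V) :=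
    MonoidHom.mk' (fun σ => Multiplicative.ofAdd fun i => x i ⟨_, hID σ.2⟩) fun σ τ => by
      rw [← ofAdd_add]
      refine congrArg _ (funext fun i => ?_)
      have h := hx i ⟨_, hID σ.2⟩ ⟨_, hID τ.2⟩
      rw [htriv _ σ.2, add_comm] at h
      exact h
  have hf : ∀ σ : A.inertiaSubgroupIn ℚ, (σ : GQ) ∈ N → f σ = 1 := fun σ hσ => by
    show Multiplicative.ofAdd _ = Multiplicative.ofAdd 0
    refine congrArg _ (funext fun i => ?_)
    have h := hN i 1 ⟨_, hID σ.2⟩ hσ
    rw [one_mul, (hx i).one] at h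
    exact h
  have hP : ∀ σ, f σ ^ p = 1 := fun σ => Multiplicative.toAdd.injective (funext fun i => by
    show p • x i ⟨_, hID σ.2⟩ = 0
    rw [← Nat.cast_smul_eq_nsmul k, CharP.cast_eq_zero, zero_smul])
  obtain ⟨σ₀, hgen⟩ := exists_gen_inertia_image' hp hq hpq hA f hNopen hf
    fun σ => ⟨1, by rw [pow_one]; exact hP σ⟩
  have hφD := hφ.mem_decompositionSubgroup
  refine ⟨⟨_, hID σ₀.2⟩, fun i => ?_, fun σ hσ => ?_⟩
  · have heq := inertia_conj_eq hp hq hpq hA hq1 f hNopen hf hP hφ
      (fun σ σ' hσ' h => Multiplicative.toAdd.injective (funext fun j => by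
        show x j ⟨_, hID σ'.2⟩ = 0
        rw [show (⟨_, hID σ'.2⟩ : Dec) = ⟨φ, hφD⟩ * ⟨_, hID σ.2⟩ * (⟨φ, hφD⟩ : Dec)⁻¹ from
          Subtype.ext hσ', (hx j).conj htriv _ _ σ.2,
          show x j ⟨_, hID σ.2⟩ = 0 from congrFun (congrArg Multiplicative.toAdd h) j, map_zero]))
      (σ := σ₀) (σ' := ⟨_, conj_mem_inertia_of_mem hφD σ₀.2⟩) rfl
    have h : x i ⟨_, hID (conj_mem_inertia_of_mem hφD σ₀.2)⟩ = x i ⟨_, hID σ₀.2⟩ :=
      congrFun (congrArg Multiplicative.toAdd heq) i
    refine mem_invariants_zpowers _ ?_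
    rw [← h]
    conv_lhs => rw [h]
    exact ((hx i).conj htriv ⟨φ, hφD⟩ ⟨_, hID σ₀.2⟩ σ₀.2).symm
  · obtain ⟨m, hm⟩ := hgen ⟨σ.1, hσ⟩
    exact ⟨m, fun i => congrFun (congrArg Multiplicative.toAdd hm) i⟩

include hq hA hφ in
/-- A cocycle vanishing on inertia and at Frobenius vanishes. -/
theorem IsDecCocycle.eq_zero {c : Dec → V} (hc : IsDecCocycle ρ c) {N : Subgroup GQ}
    (hN : IsOpen (N : Set GQ)) (hlc : ∀ (g t : Dec), (t : GQ) ∈ N → c (g * t) = c g)
    (hI : ∀ σ : Dec, (σ : GQ) ∈ A.inertiaSubgroupIn ℚ → c σ = 0)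
    (hφ0 : c ⟨φ, hφ.mem_decompositionSubgroup⟩ = 0) : c = 0 := by
  have hID := inertia_le_decomposition (A := A)
  have hφD := hφ.mem_decompositionSubgroup
  funext σ
  obtain ⟨i, ι, hι, n, hn, hσ⟩ := exists_frobenius_decomp hq hA hφ N hN σ.2
  have hnD : n ∈ Dec := by
    have : n = (φ ^ i * ι)⁻¹ * σ := by rw [hσ]; group
    rw [this]
    exact mul_mem (inv_mem (mul_mem (pow_mem hφD i) (hID hι))) σ.2
  have e : σ = ((⟨φ, hφD⟩ : Dec) ^ i * ⟨ι, hID hι⟩ : Dec) * ⟨n, hnD⟩ :=
    Subtype.ext (by simpa using hσ)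
  have hpow : ∀ j : ℕ, c ((⟨φ, hφD⟩ : Dec) ^ j) = 0 := fun j => by
    induction j with
    | zero => rw [pow_zero]; exact hc.one
    | succ j ihj => rw [pow_succ, hc, ihj, hφ0, map_zero, add_zero]
  rw [e, hlc _ _ hn, hc, hI ⟨ι, hID hι⟩ hι, hpow, map_zero, add_zero]
  rfl

include hq hpq hA hq1 htriv hφ in
/-- Independent cocycles at a Taylor-Wiles prime. -/
theorem card_le_of_linearIndependent [FiniteDimensional k V] {ι : Type} [Fintype ι]
    (x : ι → Dec → V) (hx : ∀ i, IsDecCocycle ρ (x i)) (N : Subgroup GQ)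
    (hNopen : IsOpen (N : Set GQ)) (hN : ∀ i (g t : Dec), (t : GQ) ∈ N → x i (g * t) = x i g)
    (hli : LinearIndependent k x) :
    Fintype.card ι ≤
      Module.finrank k ↥(Representation.invariants (ρ.comp (Subgroup.zpowers φ).subtype)) +
        Module.finrank k V := by
  obtain ⟨s₀, hfix, hgen⟩ := exists_inertia_value htriv hφ hq hpq hA hq1 x hx N hNopen hN
  set W1 := Representation.invariants (ρ.comp (Subgroup.zpowers φ).subtype)
  let φD : Dec := ⟨φ, hφ.mem_decompositionSubgroup⟩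
  have hli' : LinearIndependent k (fun i => ((⟨x i s₀, hfix i⟩ : ↥W1), x i φD)) := by
    rw [Fintype.linearIndependent_iff] at hli ⊢
    intro a ha
    refine hli a ?_
    have h1 : ∑ i, a i • x i s₀ = 0 := by
      have := congrArg (fun z : ↥W1 × V => (z.1 : V)) ha
      simpa [Prod.fst_sum] using this
    have h2 : ∑ i, a i • x i φD = 0 := by
      have := congrArg Prod.snd ha
      simpa [Prod.snd_sum] using this
    refine IsDecCocycle.eq_zero (ρ := ρ) hφ hq hA ?_ hNopen (fun g t ht => ?_) (fun σ hσ => ?_) ?_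
    · intro g h
      simp [fun i => hx i g h, Finset.sum_add_distrib, map_sum]
    · simp [fun i => hN i g t ht]
    · obtain ⟨m, hm⟩ := hgen σ hσ
      simp only [Finset.sum_apply, Pi.smul_apply, hm, smul_comm _ m, ← Finset.smul_sum, h1,
        smul_zero]
    · simp only [Finset.sum_apply, Pi.smul_apply]
      exact h2
  have h := hli'.fintype_card_le_finrank
  rwa [Module.finrank_prod] at h

include hq hpq hA hq1 htriv hφ in
/-- The bound on local cohomology where inertia acts trivially and `q ≡ 1 mod p`. -/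
theorem finrank_H1_le [FiniteDimensional k V]
    (hsm : Smooth (levelsOn Dec) (ρ.comp (Subgroup.subtype Dec))) :
    FiniteDimensional k (H1 (levelsOn Dec) (ρ.comp (Subgroup.subtype Dec))) ∧
      Module.finrank k (H1 (levelsOn Dec) (ρ.comp (Subgroup.subtype Dec))) ≤
        Module.finrank k ↥(Representation.invariants (ρ.comp (Subgroup.zpowers φ).subtype)) +
          Module.finrank k ↥(Representation.invariants (ρ.comp (Subgroup.subtype Dec))) := by
  classical
  set n := Module.finrank k ↥(Representation.invariants (ρ.comp (Subgroup.zpowers φ).subtype)) +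
    Module.finrank k V with hn
  set Z := Z1 (levelsOn Dec) (ρ.comp (Subgroup.subtype Dec)) with hZ
  have hbound : Module.rank k ↥Z ≤ n := by
    refine rank_le fun s hs => ?_
    obtain ⟨N, hNopen, hN⟩ : ∃ N : Subgroup GQ, IsOpen (N : Set GQ) ∧
        ∀ c ∈ s, ∀ (g t : Dec), (t : GQ) ∈ N → c.1 (g * t) = c.1 g := by
      clear hs
      induction s using Finset.induction_on with
      | empty => exact ⟨⊤, by simp, fun c hc => absurd hc (Finset.notMem_empty c)⟩
      | insert c s _ ih =>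
        obtain ⟨N, hN, h⟩ := ih
        obtain ⟨M, ⟨N', hN', rfl⟩, hM⟩ := c.2.1
        refine ⟨N ⊓ N', by rw [Subgroup.coe_inf]; exact hN.inter hN', fun d hd g t ht => ?_⟩
        rcases Finset.mem_insert.mp hd with rfl | hd
        · exact hM g t ht.2
        · exact h d hd g t ht.1
    have hli : LinearIndependent k (fun c : ↥s => c.1.1) :=
      hs.map' Z.subtype (Submodule.ker_subtype _)
    have h := card_le_of_linearIndependent (p := p) htriv hφ hq hpq hA hq1 (fun c : ↥s => c.1.1)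
      (fun c => c.1.2.2) N hNopen (fun c => hN c.1 c.2) hli
    rwa [Fintype.card_coe] at h
  have hfZ : Module.Finite k ↥Z :=
    Module.rank_lt_aleph0_iff.mp (hbound.trans_lt Cardinal.natCast_lt_aleph0)
  have hZn : Module.finrank k ↥Z ≤ n := Module.finrank_le_of_rank_le hbound
  refine ⟨Module.Finite.of_surjective (mk1 (levelsOn Dec) _) mk1_surjective, ?_⟩
  have h := finrank_map_mk1_le (ρ := ρ.comp (Subgroup.subtype Dec)) (L := levelsOn Dec) ⊤
    (⊤ : Submodule k V) fun u _ => ⟨⟨d0 _ u, d0_mem_Z1 hsm u⟩, trivial, rfl⟩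
  rw [Submodule.map_top, LinearMap.range_eq_top.mpr mk1_surjective, finrank_top, finrank_top,
    finrank_top, top_inf_eq] at h
  rw [hZ] at hZn
  omega

end Generic

variable [Fact p.Prime] [CharP k p] (hq : q.Prime) (hpq : p ≠ q) (hA : A.LiesOverPrime q)
  (hq1 : p ∣ q - 1) (hunr : ∀ σ ∈ A.inertiaSubgroupIn ℚ, r σ = 1) {φ : GQ}
  (hφ : A.IsFrobeniusAt φ q)

include hunr in
theorem adRep_inertia (σ : GQ) (hσ : σ ∈ A.inertiaSubgroupIn ℚ) (v : ↥(sl2 k)) :
    adRep r σ v = v := by
  refine Subtype.ext ?_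
  rw [coe_adRep, hunr _ hσ, hunr _ (inv_mem hσ), Matrix.one_mul, Matrix.mul_one]

include hq hpq hA hq1 hunr hφ in
/-- Local cohomology of the adjoint representation at a Taylor-Wiles prime. -/
theorem finrank_H1_twPrime (hker : IsOpen (r.ker : Set GQ))
    (hreg : (r φ).trace ^ 2 ≠ 4 * (r φ).det) :
    FiniteDimensional k (H1 (levelsOn Dec) ((adRep r).comp (Subgroup.subtype Dec))) ∧
      Module.finrank k (H1 (levelsOn Dec) ((adRep r).comp (Subgroup.subtype Dec))) ≤
        Module.finrank k ↥(Representation.invariants ((adRep r).comp (Subgroup.subtype Dec))) +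
          1 := by
  have h := finrank_H1_le (p := p) (ρ := adRep r) (adRep_inertia r hunr) hφ hq hpq hA hq1
    ((smooth_adRep r (L := allLevels) ⟨r.ker, hker, fun t ht => ht⟩).comp
      (Levels.sub_compat allLevels Dec))
  refine ⟨h.1, h.2.trans ?_⟩
  rw [add_comm]
  exact Nat.add_le_add_left (finrank_fixed_le r φ hreg) _

end H1

end FA.TW
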