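import Mathlib.LinearAlgebra.Matrix.NonsingularInverse
import Mathlib.LinearAlgebra.Matrix.Notation
import Mathlib.LinearAlgebra.Matrix.Charpoly.Coeff
import Mathlib.LinearAlgebra.Matrix.GeneralLinearGroup.Defs
import Mathlib.Algebra.CharP.Lemmas
import Mathlib.GroupTheory.Sylow
import Mathlib.LinearAlgebra.Matrix.CharP

/-!
# Groups of `2 × 2` matrices in characteristic `p`
-/

set_option autoImplicit false

noncomputable section

open Matrix

namespace FA.TW

variable {k : Type*} [Field k]

/-- The upper unipotent matrix. -/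
def upperU (x : k) : Matrix (Fin 2) (Fin 2) k := !![1, x; 0, 1]

/-- The lower unipotent matrix. -/
def lowerV (y : k) : Matrix (Fin 2) (Fin 2) k := !![1, 0; y, 1]

theorem upperU_mul (x y : k) : upperU x * upperU y = upperU (x + y) := by
  simp [upperU, add_comm]

theorem upperU_zero : upperU (0 : k) = 1 := by
  simp [upperU, Matrix.one_fin_two]

theorem upperU_inj {x y : k} (h : upperU x = upperU y) : x = y := by
  have := congrFun (congrFun h 0) 1
  simpa [upperU] using this

theorem eq_upperU {M : Matrix (Fin 2) (Fin 2) k} (h00 : M 0 0 = 1) (h10 : M 1 0 = 0)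
    (h11 : M 1 1 = 1) : M = upperU (M 0 1) := by
  ext i j
  fin_cases i <;> fin_cases j <;> simp [upperU, h00, h10, h11]

theorem eq_one_of_pow_prime_pow (p : ℕ) [Fact p.Prime] [CharP k p] {a : k} {n : ℕ}
    (h : a ^ p ^ n = 1) : a = 1 := by
  refine sub_eq_zero.mp (eq_zero_of_pow_eq_zero (n := p ^ n) ?_)
  rw [sub_pow_char_pow, h, one_pow, sub_self]

/-- Triangular matrices of `p`-power order are unipotent. -/
theorem eq_upperU_of_pow (p : ℕ) [Fact p.Prime] [CharP k p] {M : Matrix (Fin 2) (Fin 2) k}
    (h10 : M 1 0 = 0) {n : ℕ} (h : M ^ p ^ n = 1) : M = upperU (M 0 1) := by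
  have key : ∀ i : ℕ, (M ^ i) 1 0 = 0 ∧ (M ^ i) 0 0 = M 0 0 ^ i ∧ (M ^ i) 1 1 = M 1 1 ^ i := by
    intro i
    induction i with
    | zero => simp
    | succ i ih =>
      obtain ⟨h1, h2, h3⟩ := ih
      rw [pow_succ M i]
      simp [Matrix.mul_apply, Fin.sum_univ_two, h10, h1, h2, h3, pow_succ]
  obtain ⟨-, h0, h1⟩ := key (p ^ n)
  rw [h] at h0 h1
  exact eq_upperU (eq_one_of_pow_prime_pow p (by simpa using h0.symm)) h10
    (eq_one_of_pow_prime_pow p (by simpa using h1.symm))

/-- A matrix of determinant one whose trace is not `±2` has order prime to `p`. -/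
theorem not_dvd_orderOf (p : ℕ) [Fact p.Prime] [CharP k p] {G : Type*} [Group G] [Finite G]
    (ρ : G →* Matrix (Fin 2) (Fin 2) k) (hinj : Function.Injective ρ) {g : G}
    (htr : (ρ g).trace ^ 2 ≠ 4 * (ρ g).det) : ¬ p ∣ orderOf g := by
  have hp : p.Prime := Fact.out
  intro hdvd
  set h := g ^ (orderOf g / p)
  have hh : orderOf h = p := by
    exact orderOf_pow_orderOf_div (orderOf_pos g).ne' hdvd
  set N := ρ h - 1 with hN
  have hNp : N ^ p = 0 := by
    rw [hN, sub_pow_char_of_commute p (Commute.one_right _), one_pow, ← map_pow,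
      show h ^ p = 1 by rw [← hh]; exact pow_orderOf_eq_one h, map_one, sub_self]
  have hN0 : N ≠ 0 := fun h0 => hp.ne_one (by
    rw [← hh, orderOf_eq_one_iff]
    exact hinj (by rw [map_one]; exact sub_eq_zero.mp h0))
  have hdetN : N.det = 0 := by
    have := congrArg Matrix.det hNp
    rw [Matrix.det_pow, Matrix.det_zero] at this
    exact eq_zero_of_pow_eq_zero this
  have hCH : N * N = N.trace • N := by
    have hd := hdetN
    rw [Matrix.det_fin_two] at hd
    ext i j
    fin_cases i <;> fin_cases j <;>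
      simp [Matrix.mul_apply, Fin.sum_univ_two, Matrix.trace_fin_two] <;>
      first | linear_combination -hd | linear_combination hd | ring
  have htrN : N.trace = 0 := by
    have hpow : ∀ i : ℕ, N ^ (i + 1) = N.trace ^ i • N := fun i => by
      induction i with
      | zero => simp
      | succ i ih => rw [pow_succ N (i + 1), ih, smul_mul_assoc, hCH, smul_smul, ← pow_succ]
    have := hpow (p - 1)
    rw [show p - 1 + 1 = p by have := hp.pos; omega, hNp, eq_comm, smul_eq_zero] at this
    exact eq_zero_of_pow_eq_zero (this.resolve_right hN0)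
  have hcomm : ρ g * N = N * ρ g := by
    rw [hN, mul_sub, sub_mul, ← map_mul, ← map_mul, mul_one, one_mul]
    congr 2
    exact (Commute.self_pow g _).eq
  -- so `g` and the nilpotent `N` commute, forcing a repeated eigenvalue
  have hd := hdetN
  rw [Matrix.det_fin_two] at hd
  rw [Matrix.trace_fin_two] at htrN htr
  rw [Matrix.det_fin_two] at htr
  have e00 := congrFun (congrFun hcomm 0) 0
  have e01 := congrFun (congrFun hcomm 0) 1
  have e10 := congrFun (congrFun hcomm 1) 0
  simp only [Matrix.mul_apply, Fin.sum_univ_two] at e00 e01 e10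
  have hn11 : N 1 1 = -N 0 0 := eq_neg_of_add_eq_zero_right htrN
  rw [hn11] at hd e01 e10
  by_cases h01 : N 0 1 = 0
  · have h00 : N 0 0 = 0 := by
      have : N 0 0 * N 0 0 = 0 := by rw [h01] at hd; linear_combination -hd
      exact mul_self_eq_zero.mp this
    have h10 : N 1 0 ≠ 0 := fun h10 => hN0 (by
      ext i j; fin_cases i <;> fin_cases j <;> simp [h00, h01, h10, hn11])
    rw [h00, h01] at e00
    rw [h00] at e10
    have hg01 : ρ g 0 1 = 0 := (mul_eq_zero.mp (by linear_combination e00)).resolve_right h10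
    have hgd : ρ g 1 1 - ρ g 0 0 = 0 :=
      (mul_eq_zero.mp (by linear_combination e10)).resolve_right h10
    exact htr (by linear_combination (ρ g 1 1 - ρ g 0 0) * hgd + 4 * ρ g 1 0 * hg01)
  · refine htr (mul_right_cancel₀ (pow_ne_zero 2 h01) ?_)
    linear_combination
      ((ρ g 0 0 - ρ g 1 1) * N 0 1 + 2 * ρ g 0 1 * N 0 0) * e01 +
        (-4 * N 0 1 * ρ g 0 1) * e00 + (-4 * ρ g 0 1 ^ 2) * hd

end FA.TW
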