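import Fermat.Agent.Deform.MatrixRep
import Fermat.Prelude.Def_GaloisRep_StrictOrdinary
import Fermat.Prelude.Def_GaloisRep_Flat

/-!
# Local conditions pass to quotients
-/

set_option autoImplicit false

noncomputable section

open IsLocalRing FA.Deform
open scoped TensorProduct

namespace FA.TW

variable {R : Type} [CommRing R]

/-- Membership in `I • ⊤` read off on coordinates. -/
theorem mem_smul_top_iff_repr {V : Type} [AddCommGroup V] [Module R V] {ι : Type} [Fintype ι]
    (b : Module.Basis ι R V) (I : Ideal R) (v : V) :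
    v ∈ I • (⊤ : Submodule R V) ↔ ∀ i, b.repr v i ∈ I := by
  refine ⟨fun h i => ?_, fun h => ?_⟩
  · refine Submodule.smul_induction_on h (fun a ha w _ => ?_) (fun x y hx hy => ?_)
    · rw [map_smul, Finsupp.smul_apply, smul_eq_mul]
      exact I.mul_mem_right _ ha
    · rw [map_add, Finsupp.add_apply]
      exact add_mem hx hy
  · rw [← b.sum_repr v]
    exact Submodule.sum_mem _ fun i _ => Submodule.smul_mem_smul (h i) Submodule.mem_top

variable [IsLocalRing R] {B : Type} [CommRing B] [IsLocalRing B] (φ : R →+* B) (hφ : IsLocalHom φ)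
  (ρ : GaloisRepAdic R)

include hφ in
theorem map_mem_maximalIdeal {x : R} (hx : x ∈ maximalIdeal R) : φ x ∈ maximalIdeal B := by
  have := hφ
  exact map_nonunit φ x hx

include hφ in
theorem detIsCyclotomic_baseChange {p : ℕ} (h : ρ.DetIsCyclotomic p) :
    (ρ.baseChangeAlong φ hφ).DetIsCyclotomic p := by
  refine ⟨by simpa using map_mem_maximalIdeal φ hφ h.1, fun n σ a ha => ?_⟩
  letI : Algebra R B := φ.toAlgebra
  show LinearMap.det ((ρ.ρ σ).baseChange B) - _ ∈ _
  rw [LinearMap.det_baseChange]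
  have := Ideal.mem_map_of_mem φ (h.2 n σ a ha)
  rw [Ideal.map_span, Set.image_singleton, map_sub, map_natCast, map_natCast] at this
  exact this

theorem isUnramifiedAt_baseChange {q : ℕ} (h : ρ.IsUnramifiedAt q) :
    (ρ.baseChangeAlong φ hφ).IsUnramifiedAt q := fun P hP σ hσ => by
  letI : Algebra R B := φ.toAlgebra
  show (ρ.ρ σ).baseChange B = 1
  rw [h P hP σ hσ, LinearMap.baseChange_one]

theorem isUnipotentOnInertiaAt_baseChange {q : ℕ} (h : ρ.IsUnipotentOnInertiaAt q) :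
    (ρ.baseChangeAlong φ hφ).IsUnipotentOnInertiaAt q := fun P hP σ hσ => by
  letI : Algebra R B := φ.toAlgebra
  show LinearMap.charpoly ((ρ.ρ σ).baseChange B) = _
  rw [LinearMap.charpoly_baseChange, h P hP σ hσ, Polynomial.map_pow, Polynomial.map_sub,
    Polynomial.map_X, Polynomial.map_one]

theorem isStrictOrdinaryAt_baseChange {p : ℕ} (h : ρ.IsStrictOrdinaryAt p) :
    (ρ.baseChangeAlong φ hφ).IsStrictOrdinaryAt p := by
  refine ⟨by simpa using map_mem_maximalIdeal φ hφ h.1, fun P hP => ?_⟩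
  obtain ⟨L, ⟨b, rfl⟩, hD, hI, hs⟩ := h.2 P hP
  letI : Algebra R B := φ.toAlgebra
  let bb : Module.Basis (Fin 2) B (B ⊗[R] ρ.V) := Algebra.TensorProduct.basis B b
  let L' : Submodule B (B ⊗[R] ρ.V) := B ∙ ((1 : B) ⊗ₜ[R] b 0)
  have hpure : ∀ (c : B) (w : ρ.V), w ∈ R ∙ b 0 → c ⊗ₜ[R] w ∈ L' := by
    intro c w hw
    obtain ⟨s, rfl⟩ := Submodule.mem_span_singleton.mp hw
    refine Submodule.mem_span_singleton.mpr ⟨c * φ s, ?_⟩
    rw [TensorProduct.tmul_smul, TensorProduct.smul_tmul', TensorProduct.smul_tmul', smul_eq_mul,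
      mul_one, Algebra.smul_def, mul_comm]
    rfl
  have hgen : (f : ρ.V →ₗ[R] ρ.V) → (∀ v, f v ∈ R ∙ b 0) → ∀ w, f.baseChange B w ∈ L' := by
    intro f hf w
    induction w using TensorProduct.induction_on with
    | zero => rw [map_zero]; exact zero_mem _
    | tmul c v => rw [LinearMap.baseChange_tmul]; exact hpure c _ (hf v)
    | add x y hx hy => rw [map_add]; exact add_mem hx hy
  refine ⟨L', ⟨bb, congrArg (fun x : B ⊗[R] ρ.V => B ∙ x)
      (Algebra.TensorProduct.basis_apply b 0).symm⟩,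
    ?_, ?_, ?_⟩
  · intro σ hσ (v : B ⊗[R] ρ.V) (hv : v ∈ L')
    obtain ⟨s, rfl⟩ := Submodule.mem_span_singleton.mp hv
    show (ρ.ρ σ).baseChange B (s • _) ∈ L'
    rw [map_smul, LinearMap.baseChange_tmul]
    exact Submodule.smul_mem _ _ (hpure 1 _ (hD σ hσ _ (Submodule.mem_span_singleton_self _)))
  · intro σ hσ (v : B ⊗[R] ρ.V)
    show (ρ.ρ σ).baseChange B v - v ∈ L'
    have h1 := hgen (ρ.ρ σ - 1) (fun w => hI σ hσ w) v
    rwa [LinearMap.baseChange_sub, LinearMap.baseChange_one, LinearMap.sub_apply,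
      Module.End.one_apply] at h1
  · intro σ hσ
    obtain ⟨x, z, hx, hz, ha⟩ := hs σ hσ
    refine ⟨φ x, φ z, fun (w : B ⊗[R] ρ.V) (hw : w ∈ L') => ?_, fun (v : B ⊗[R] ρ.V) => ?_,
      fun n a hna => ?_⟩
    · obtain ⟨s, rfl⟩ := Submodule.mem_span_singleton.mp hw
      show (ρ.ρ σ).baseChange B (s • ((1 : B) ⊗ₜ[R] b 0)) = φ x • (s • ((1 : B) ⊗ₜ[R] b 0))
      rw [map_smul, LinearMap.baseChange_tmul, hx _ (Submodule.mem_span_singleton_self _),
        smul_comm]
      congr 1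
      rw [TensorProduct.tmul_smul, ← algebraMap_smul B x]
      rfl
    · show (ρ.ρ σ).baseChange B v - φ z • v ∈ L'
      have h1 := hgen (ρ.ρ σ - z • (1 : Module.End R ρ.V)) (fun w => hz w) v
      rw [LinearMap.baseChange_sub, LinearMap.baseChange_smul, LinearMap.baseChange_one,
        LinearMap.sub_apply, LinearMap.smul_apply, Module.End.one_apply, ← algebraMap_smul B z] at h1
      exact h1
    · have := Ideal.mem_map_of_mem φ (ha n a hna)
      rw [Ideal.map_span, Set.image_singleton, map_sub, map_mul, map_natCast, map_natCast] at this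
      exact this

theorem isFlatAt_baseChange {p : ℕ} (hsurj : Function.Surjective φ) (h : ρ.IsFlatAt p) :
    (ρ.baseChangeAlong φ hφ).IsFlatAt p := by
  refine ⟨?_, fun I hI => ?_⟩
  · have := h.1
    have := hφ
    exact Finite.of_surjective (ResidueField.map φ) fun y => by
      obtain ⟨y, rfl⟩ := residue_surjective y
      obtain ⟨x, rfl⟩ := hsurj y
      exact ⟨residue R x, rfl⟩
  letI : Algebra R B := φ.toAlgebra
  have hI' : Finite (R ⧸ I.comap φ) :=
    Finite.of_injective (Ideal.quotientMap I φ le_rfl) Ideal.quotientMap_injective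
  obtain ⟨H, i1, i2, h1, h2, h3, e, hadd, hact⟩ := h.2 (I.comap φ) hI'
  set b := repBasis ρ
  let bb : Module.Basis (Fin 2) B (B ⊗[R] ρ.V) := Algebra.TensorProduct.basis B b
  have hrepr : ∀ (v : ρ.V) i, bb.repr ((1 : B) ⊗ₜ[R] v) i = φ (b.repr v i) := fun v i => by
    rw [Algebra.TensorProduct.basis_repr_tmul, Finsupp.smul_apply, Finsupp.mapRange_apply,
      one_smul]
    rfl
  let ι : ρ.V →+ (B ⊗[R] ρ.V) ⧸ (I • (⊤ : Submodule B (B ⊗[R] ρ.V))) :=
    (Submodule.mkQ _).toAddMonoidHom.comp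
      (TensorProduct.mk R B ρ.V 1).toAddMonoidHom
  have hker : ∀ v, ι v = 0 ↔ v ∈ I.comap φ • (⊤ : Submodule R ρ.V) := by
    intro v
    show Submodule.Quotient.mk _ = 0 ↔ _
    rw [Submodule.Quotient.mk_eq_zero, mem_smul_top_iff_repr bb, mem_smul_top_iff_repr b]
    show (∀ i, bb.repr ((1 : B) ⊗ₜ[R] v) i ∈ I) ↔ _
    simp only [hrepr, Ideal.mem_comap]
  have hιsurj : Function.Surjective ι := by
    intro y
    obtain ⟨w, rfl⟩ := Submodule.Quotient.mk_surjective _ y
    choose s hs using fun i => hsurj (bb.repr w i)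
    refine ⟨∑ i, s i • b i, ?_⟩
    show Submodule.Quotient.mk ((1 : B) ⊗ₜ[R] _) = _
    congr 1
    refine bb.repr.injective (Finsupp.ext fun i => ?_)
    rw [hrepr, b.repr_sum_self, hs]
  let f : (ρ.V ⧸ (I.comap φ • (⊤ : Submodule R ρ.V))) →
      (B ⊗[R] ρ.V) ⧸ (I • (⊤ : Submodule B (B ⊗[R] ρ.V))) :=
    Quotient.lift ι fun v w hvw => by
      rw [← sub_eq_zero, ← map_sub, hker]
      exact (Submodule.quotientRel_def _).mp hvw
  have hfmk : ∀ v, f (Submodule.Quotient.mk v) = ι v := fun v => rfl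
  have hfbij : Function.Bijective f := by
    refine ⟨fun x y hxy => ?_, fun y => ?_⟩
    · obtain ⟨x, rfl⟩ := Submodule.Quotient.mk_surjective _ x
      obtain ⟨y, rfl⟩ := Submodule.Quotient.mk_surjective _ y
      rw [Submodule.Quotient.eq, ← hker, map_sub, ← hfmk, ← hfmk, hxy, sub_self]
    · obtain ⟨v, rfl⟩ := hιsurj y
      exact ⟨Submodule.Quotient.mk v, rfl⟩
  refine ⟨H, i1, i2, h1, h2, h3, e.trans (Equiv.ofBijective f hfbij), fun x y => ?_,
    fun σ x y hxy => ?_⟩
  · show f (e (x * y)) = f (e x) + f (e y)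
    rw [hadd]
    obtain ⟨u, hu⟩ := Submodule.Quotient.mk_surjective _ (e x)
    obtain ⟨v, hv⟩ := Submodule.Quotient.mk_surjective _ (e y)
    rw [← hu, ← hv, ← Submodule.Quotient.mk_add, hfmk, hfmk, hfmk, map_add]
  · show f (e y) = _
    rw [hact σ x y hxy]
    obtain ⟨u, hu⟩ := Submodule.Quotient.mk_surjective _ (e x)
    show f (ρ.levelAction _ σ (e x)) = (ρ.baseChangeAlong φ hφ).levelAction I σ (f (e x))
    rw [← hu]
    show ι (ρ.ρ σ u) = Submodule.Quotient.mk ((ρ.ρ σ).baseChange B ((1 : B) ⊗ₜ[R] u))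
    rw [LinearMap.baseChange_tmul]
    rfl

end FA.TW
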